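import Mathlib

/-!
# Roth's theorem: the cut

`α` a real algebraic number, `δ > 0`: only finitely many rational numbers `x` satisfy
`|α - x| < (den x)^(-(2 + δ))` (K. F. Roth, 1955).

Polynomials `P ∈ ℤ[X_0, …, X_{m-1}]`, degrees `r_0, …, r_{m-1}`, **`r_0` is the smallest one**.
* `tr x P = P(X + x)`, `dv x P I` = its coefficient at `X^I` = the divided derivative `∂_I P (x)`;
* `wt r I = ∑ I_i / r_i`; the index of `P` at `x` is the smallest `wt r I` with `dv x P I ≠ 0`;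
* `ht P` = maximum of the absolute values of the coefficients.
-/

set_option autoImplicit false

open MvPolynomial

namespace Fermat.Agent.Cor.Roth

/-- the translation `P(X + x)` -/
noncomputable def tr {m : ℕ} {K : Type} [CommRing K] (x : Fin m → K) :
    MvPolynomial (Fin m) K →ₐ[K] MvPolynomial (Fin m) K :=
  aeval fun i => X i + C (x i)

/-- the divided derivative `∂_I P (x)` of `P ∈ ℤ[X]` at `x ∈ K^m` -/
noncomputable def dv {m : ℕ} {K : Type} [CommRing K] (x : Fin m → K) (P : MvPolynomial (Fin m) ℤ)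
    (I : Fin m →₀ ℕ) : K :=
  coeff I (tr x (map (Int.castRingHom K) P))

/-- the weight `∑ I_i / r_i` -/
noncomputable def wt {m : ℕ} (r : Fin m → ℕ) (I : Fin m →₀ ℕ) : ℝ := ∑ i, (I i : ℝ) / r i

/-- the maximum of the absolute values of the coefficients -/
noncomputable def ht {m : ℕ} (P : MvPolynomial (Fin m) ℤ) : ℕ :=
  P.support.sup fun I => (coeff I P).natAbs

/-- the divided derivative `∂_I P` as a polynomial -/
noncomputable def hd {m : ℕ} (I : Fin m →₀ ℕ) (P : MvPolynomial (Fin m) ℤ) :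
    MvPolynomial (Fin m) ℤ :=
  ∑ J ∈ P.support, monomial (J - I) (coeff J P * ∏ i, ((J i).choose (I i) : ℤ))

/-- the determinant `det (∂_0^j ∂_{I_i} P)` -/
noncomputable def wdet {m k : ℕ} (I : Fin k → (Fin m →₀ ℕ)) (P : MvPolynomial (Fin (m + 1)) ℤ) :
    MvPolynomial (Fin (m + 1)) ℤ :=
  Matrix.det (Matrix.of fun i j : Fin k => hd (Finsupp.cons (j : ℕ) (I i)) P)

/-! ### The pieces -/

/-- (T1) Taylor's formula -/
def TaylorStmt : Prop := ∀ (m : ℕ) (K : Type) [CommRing K] (x : Fin m → K)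
  (P : MvPolynomial (Fin m) ℤ) (I : Fin m →₀ ℕ),
  dv x P I = ∑ J ∈ P.support, ((coeff J P : ℤ) : K) *
    ∏ i, (((J i).choose (I i) : ℕ) : K) * x i ^ (J i - I i)

/-- (T2) composition of divided derivatives -/
def HdStmt : Prop := ∀ (m : ℕ) (K : Type) [CommRing K] (x : Fin m → K)
  (P : MvPolynomial (Fin m) ℤ) (I J : Fin m →₀ ℕ),
  dv x (hd J P) I = (∏ i, (((I i + J i).choose (J i) : ℕ) : K)) * dv x P (I + J)

/-- (CNT) counting (Chebyshev's inequality for the independent variables `I_i / r_i`) -/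
def CountStmt : Prop := ∀ (m : ℕ) (r : Fin m → ℕ), 0 < m → (∀ i, 0 < r i) → ∀ ε : ℝ, 0 < ε →
  ((((Fintype.piFinset fun i => Finset.range (r i + 1)).filter fun I : Fin m → ℕ =>
    ∑ i, (I i : ℝ) / r i < m * (1 / 2 - ε)).card : ℕ) : ℝ) ≤
      (∏ i, ((r i : ℝ) + 1)) / (4 * ε ^ 2 * m)

/-- (AUX) the auxiliary polynomial (Siegel's lemma) -/
def AuxStmt : Prop := ∀ α : ℝ, IsAlgebraic ℚ α → ∀ ε : ℝ, 0 < ε → ∃ m : ℕ, 0 < m ∧ ∃ B : ℝ, 0 ≤ B ∧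
  ∀ r : Fin m → ℕ, (∀ i, 0 < r i) → ∃ P : MvPolynomial (Fin m) ℤ, P ≠ 0 ∧
    (∀ i, degreeOf i P ≤ r i) ∧ (ht P : ℝ) ≤ Real.exp (B * ∑ i, (r i : ℝ)) ∧
    ∀ I, wt r I < m * (1 / 2 - ε) → dv (fun _ => α) P I = 0

/-- (ONE) one variable (Gauss' lemma) -/
def OneStmt : Prop := ∀ (V : Polynomial ℤ) (p q : ℤ) (l H : ℕ), V ≠ 0 → 1 ≤ q → IsCoprime p q →
  (∀ n, (V.coeff n).natAbs ≤ H) →
  (∀ i < l, (Polynomial.taylor ((p : ℚ) / q) (V.map (Int.castRingHom ℚ))).coeff i = 0) →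
  (q : ℤ) ^ l ≤ H

/-- (WR) decomposition `P = ∑ ψ_j(X_0) φ_j(X_1, …)` of minimal length and generalised
Wronskians -/
def WronskStmt : Prop := ∀ (m r0 : ℕ) (P : MvPolynomial (Fin (m + 1)) ℤ), P ≠ 0 →
  degreeOf 0 P ≤ r0 → ∃ (k : ℕ) (I : Fin k → (Fin m →₀ ℕ)) (V : Polynomial ℚ)
    (U : MvPolynomial (Fin m) ℚ), 0 < k ∧ k ≤ r0 + 1 ∧ (∀ i, ∑ l, I i l ≤ r0) ∧ V ≠ 0 ∧ U ≠ 0 ∧
    map (Int.castRingHom ℚ) (wdet I P) = Polynomial.aeval (X 0) V * rename Fin.succ U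

/-- (SEP) coefficients of a product of polynomials in separate variables, translations of them -/
def SepStmt : Prop := ∀ (m : ℕ) (K : Type) [CommRing K] (v : Polynomial K)
  (u : MvPolynomial (Fin m) K),
  (∀ (a : ℕ) (I : Fin m →₀ ℕ), coeff (Finsupp.cons a I)
    (Polynomial.aeval (X 0) v * rename Fin.succ u : MvPolynomial (Fin (m + 1)) K) =
      v.coeff a * coeff I u) ∧
  ∀ x : Fin (m + 1) → K, tr x (Polynomial.aeval (X 0) v * rename Fin.succ u) =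
    Polynomial.aeval (X 0) (Polynomial.taylor (x 0) v) *
      rename Fin.succ (tr (fun i => x i.succ) u)

/-- (INT) integral factors -/
def IntStmt : Prop := ∀ (m : ℕ) (W : MvPolynomial (Fin (m + 1)) ℤ) (V : Polynomial ℚ)
  (U : MvPolynomial (Fin m) ℚ), V ≠ 0 → U ≠ 0 →
  map (Int.castRingHom ℚ) W = Polynomial.aeval (X 0) V * rename Fin.succ U →
  ∃ (V' : Polynomial ℤ) (U' : MvPolynomial (Fin m) ℤ), V' ≠ 0 ∧ U' ≠ 0 ∧
    W = Polynomial.aeval (X 0) V' * rename Fin.succ U' ∧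
    (∀ n, (V'.coeff n).natAbs ≤ ht W) ∧ ht U' ≤ ht W ∧
    V'.natDegree ≤ degreeOf 0 W ∧ ∀ i, degreeOf i U' ≤ degreeOf i.succ W

/-- (DET) degrees and height of the determinant -/
def DetStmt : Prop := ∀ (m k : ℕ) (r : Fin (m + 1) → ℕ) (I : Fin k → (Fin m →₀ ℕ))
  (P : MvPolynomial (Fin (m + 1)) ℤ), P ≠ 0 → (∀ i, 0 < r i) → (∀ i, degreeOf i P ≤ r i) →
  k ≤ r 0 + 1 → (∀ i, degreeOf i (wdet I P) ≤ k * r i) ∧
    ht (wdet I P) ≤ (8 ^ (∑ i, r i) * ht P) ^ k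

/-- (IDX) the index of the determinant -/
def IdxStmt : Prop := ∀ (m k : ℕ) (r : Fin (m + 1) → ℕ) (I : Fin k → (Fin m →₀ ℕ))
  (P : MvPolynomial (Fin (m + 1)) ℤ) (x : Fin (m + 1) → ℚ) (Θ : ℝ), 0 < k → (∀ i, 0 < r i) →
  k ≤ r 0 + 1 → (∀ i, ∑ l, I i l ≤ r 0) → 0 < Θ → Θ ≤ 1 →
  (∀ l : Fin m, (r 0 : ℝ) ≤ Θ / 2 * r l.succ) → (∀ J, wt r J < Θ → dv x P J = 0) →
  ∀ J, wt r J < k * Θ ^ 2 / 32 → dv x (wdet I P) J = 0

/-- Roth's lemma in `m` variables -/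
def RothLemma (m : ℕ) : Prop := ∀ ε : ℝ, 0 < ε → ∃ ω : ℝ, 0 < ω ∧ ∃ B : ℝ, 0 ≤ B ∧
  ∀ (r : Fin m → ℕ) (p q : Fin m → ℤ) (P : MvPolynomial (Fin m) ℤ), (∀ i, 0 < r i) →
    (∀ i j : Fin m, (i : ℕ) + 1 = j → (r i : ℝ) ≤ ω * r j) → P ≠ 0 →
    (∀ i, degreeOf i P ≤ r i) → (∀ i, 1 ≤ q i) → (∀ i, IsCoprime (p i) (q i)) →
    (∀ i, Real.log (ht P) + B * ∑ j, (r j : ℝ) ≤ ω * (r i * Real.log (q i))) →
    ∃ I, wt r I < ε ∧ dv (fun i => (p i : ℚ) / q i) P I ≠ 0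

/-- (STEP) the induction step -/
def StepStmt : Prop := ∀ m, RothLemma m → RothLemma (m + 1)

/-- **Roth's theorem** -/
def RothStmt : Prop := ∀ α : ℝ, IsAlgebraic ℚ α → ∀ δ : ℝ, 0 < δ →
  {x : ℚ | |α - x| < (x.den : ℝ) ^ (-(2 + δ))}.Finite

end Fermat.Agent.Cor.Roth
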