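/-
Roth's theorem: the auxiliary polynomial (helper85).
-/
import Fermat.Agent.Corollaries.Roth.Defs

/-!
# Roth's theorem: the auxiliary polynomial (Siegel's lemma)

`auxStmt_of : TaylorStmt → CountStmt → AuxStmt`.
-/

set_option autoImplicit false

open MvPolynomial Finset

namespace Fermat.Agent.Cor.Roth

namespace AuxPoly

/-- A bound for Siegel's lemma over `ℤ` with at least twice as many unknowns as equations. -/
theorem siegel {ι κ : Type} [Fintype ι] [Fintype κ] (A : Matrix ι κ ℤ) {X : ℝ} (hX1 : 1 ≤ X)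
    (hX : ∀ i j, |((A i j : ℤ) : ℝ)| ≤ X) (h0 : 0 < Fintype.card κ)
    (h2 : 2 * Fintype.card ι ≤ Fintype.card κ) :
    ∃ t : κ → ℤ, t ≠ 0 ∧ (∀ i, ∑ j, A i j * t j = 0) ∧
      ∀ j, |((t j : ℤ) : ℝ)| ≤ Fintype.card κ * X := by
  classical
  have hκ1 : (1 : ℝ) ≤ Fintype.card κ := by exact_mod_cast h0
  by_cases hι : Fintype.card ι = 0
  · have hemp : IsEmpty ι := Fintype.card_eq_zero_iff.1 hι
    refine ⟨fun _ => 1, ?_, fun i => hemp.elim i, fun j => ?_⟩
    · intro h
      obtain ⟨k⟩ := Fintype.card_pos_iff.mp h0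
      exact one_ne_zero (congrFun h k)
    · simp only [Int.cast_one, abs_one]
      exact one_le_mul_of_one_le_of_one_le hκ1 hX1
  · have hι0 : 0 < Fintype.card ι := Nat.pos_of_ne_zero hι
    let _ : SeminormedAddCommGroup (Matrix ι κ ℤ) := Matrix.seminormedAddCommGroup
    obtain ⟨t, ht0, hAt, ht⟩ := Int.Matrix.exists_ne_zero_int_vec_norm_le A (by omega) hι0
    refine ⟨t, ht0, fun i => congrFun hAt i, fun j => ?_⟩
    have h1 : |((t j : ℤ) : ℝ)| ≤ ‖t‖ := by
      have := norm_le_pi_norm t j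
      rwa [Int.norm_eq_abs] at this
    have hA : ‖A‖ ≤ X := by
      rw [Matrix.norm_le_iff (by linarith)]
      intro i j
      rw [Int.norm_eq_abs]
      exact hX i j
    have hmax : max 1 ‖A‖ ≤ X := max_le hX1 hA
    have hbase : (1 : ℝ) ≤ (Fintype.card κ : ℝ) * max 1 ‖A‖ :=
      one_le_mul_of_one_le_of_one_le hκ1 (le_max_left _ _)
    refine h1.trans (ht.trans ?_)
    have h3 : (Fintype.card ι : ℝ) / (Fintype.card κ - Fintype.card ι) ≤ 1 := by
      have h4 : (2 : ℝ) * Fintype.card ι ≤ Fintype.card κ := by exact_mod_cast h2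
      have h5 : (0 : ℝ) < Fintype.card ι := by exact_mod_cast hι0
      rw [div_le_one (by linarith)]
      linarith
    calc ((Fintype.card κ : ℝ) * max 1 ‖A‖) ^
          ((Fintype.card ι : ℝ) / (Fintype.card κ - Fintype.card ι)) ≤
          ((Fintype.card κ : ℝ) * max 1 ‖A‖) ^ (1 : ℝ) :=
          Real.rpow_le_rpow_of_exponent_le hbase h3
      _ = (Fintype.card κ : ℝ) * max 1 ‖A‖ := Real.rpow_one _
      _ ≤ Fintype.card κ * X := by gcongr

/-- Powers of an algebraic number in terms of the first `d` powers. -/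
theorem exists_powers {α : ℝ} (hα : IsAlgebraic ℚ α) : ∃ (d : ℕ) (a : ℤ) (E : ℝ), 0 < d ∧ a ≠ 0 ∧
    1 ≤ E ∧ |(a : ℝ)| ≤ E ∧ ∀ n : ℕ, ∃ e : ℕ → ℤ,
      (a : ℝ) ^ n * α ^ n = ∑ l ∈ range d, (e l : ℝ) * α ^ l ∧
      ∀ l, |(e l : ℝ)| ≤ E ^ n := by
  have hα' : IsAlgebraic ℤ α := (IsFractionRing.isAlgebraic_iff ℤ ℚ ℝ).2 hα
  obtain ⟨f, hf0, hf⟩ := hα'
  have hdeg : 0 < f.natDegree := by
    refine Nat.pos_of_ne_zero fun h => hf0 ?_
    obtain ⟨c, hc⟩ := Polynomial.natDegree_eq_zero.1 h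
    rw [← hc] at hf ⊢
    rw [Polynomial.aeval_C] at hf
    have : c = 0 := by simpa using hf
    rw [this, map_zero]
  obtain ⟨D, hD⟩ : ∃ D, f.natDegree = D + 1 := Nat.exists_eq_succ_of_ne_zero hdeg.ne'
  set a : ℤ := f.leadingCoeff with ha
  have ha0 : a ≠ 0 := Polynomial.leadingCoeff_ne_zero.2 hf0
  have ha1 : (1 : ℝ) ≤ |(a : ℝ)| := by exact_mod_cast Int.one_le_abs ha0
  set E : ℝ := |(a : ℝ)| + ∑ l ∈ range (D + 1), |(f.coeff l : ℝ)| with hE
  have hsum0 : 0 ≤ ∑ l ∈ range (D + 1), |(f.coeff l : ℝ)| := sum_nonneg fun _ _ => abs_nonneg _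
  have hE1 : 1 ≤ E := by linarith
  have hrel : (a : ℝ) * α ^ (D + 1) = -∑ l ∈ range (D + 1), (f.coeff l : ℝ) * α ^ l := by
    have h1 := hf
    rw [Polynomial.aeval_eq_sum_range, hD, sum_range_succ] at h1
    simp only [zsmul_eq_mul] at h1
    have h2 : a = f.coeff (D + 1) := by rw [ha, Polynomial.leadingCoeff, hD]
    rw [h2]
    linarith
  refine ⟨D + 1, a, E, Nat.succ_pos D, ha0, hE1, by linarith, fun n => ?_⟩
  -- only the values below `D + 1` matter
  have key : ∃ e : ℕ → ℤ, (a : ℝ) ^ n * α ^ n = ∑ l ∈ range (D + 1), (e l : ℝ) * α ^ l ∧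
      ∀ l, l < D + 1 → |(e l : ℝ)| ≤ E ^ n := by
    induction n with
    | zero =>
      refine ⟨fun l => if l = 0 then 1 else 0, ?_, ?_⟩
      · rw [sum_eq_single 0]
        · simp
        · intro l _ hl; simp [hl]
        · intro h; exact absurd (mem_range.2 (Nat.succ_pos D)) h
      · intro l _
        by_cases h : l = 0 <;> simp [h]
    | succ n ih =>
      obtain ⟨e, he, heE⟩ := ih
      refine ⟨fun l => (if l = 0 then 0 else a * e (l - 1)) - f.coeff l * e D, ?_, ?_⟩
      · have h1 : ∑ l ∈ range (D + 1), ((((if l = 0 then 0 else a * e (l - 1)) -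
            f.coeff l * e D : ℤ)) : ℝ) * α ^ l = ∑ l ∈ range D, (a : ℝ) * e l * α ^ (l + 1) +
            e D * ((a : ℝ) * α ^ (D + 1)) := by
          rw [hrel, mul_neg, mul_sum]
          have h2 : ∀ l ∈ range (D + 1), ((((if l = 0 then 0 else a * e (l - 1)) -
              f.coeff l * e D : ℤ)) : ℝ) * α ^ l =
              (if l = 0 then 0 else (a : ℝ) * e (l - 1) * α ^ l) -
                (e D : ℝ) * ((f.coeff l : ℝ) * α ^ l) := by
            intro l _
            split_ifs <;> push_cast <;> ring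
          rw [sum_congr rfl h2, sum_sub_distrib, sum_range_succ']
          simp only [Nat.add_eq_zero_iff, one_ne_zero, and_false, if_false, if_true, add_zero,
            Nat.add_sub_cancel]
          ring
        rw [h1]
        have h3 : (a : ℝ) ^ (n + 1) * α ^ (n + 1) = a * α * ((a : ℝ) ^ n * α ^ n) := by ring
        rw [h3, he, sum_range_succ, mul_add, mul_sum]
        congr 1
        · refine sum_congr rfl fun l _ => ?_
          ring
        · ring
      · intro l hl
        have hD1 : |(e D : ℝ)| ≤ E ^ n := heE D (Nat.lt_succ_self D)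
        have hfl : |(f.coeff l : ℝ)| ≤ ∑ l ∈ range (D + 1), |(f.coeff l : ℝ)| :=
          single_le_sum (f := fun l => |(f.coeff l : ℝ)|) (fun _ _ => abs_nonneg _)
            (mem_range.2 hl)
        have h1 : |(((if l = 0 then 0 else a * e (l - 1)) - f.coeff l * e D : ℤ) : ℝ)| ≤
            |(a : ℝ)| * E ^ n + |(f.coeff l : ℝ)| * E ^ n := by
          push_cast
          refine (abs_sub _ _).trans (add_le_add ?_ ?_)
          · split_ifs with h
            · rw [abs_zero]; positivity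
            · rw [abs_mul]
              exact mul_le_mul_of_nonneg_left (heE _ (by omega)) (abs_nonneg _)
          · rw [abs_mul]
            exact mul_le_mul_of_nonneg_left hD1 (abs_nonneg _)
        refine h1.trans ?_
        rw [pow_succ', ← add_mul]
        have : (0 : ℝ) ≤ E ^ n := by positivity
        exact mul_le_mul_of_nonneg_right (by rw [hE]; linarith) this
  obtain ⟨e, he, heE⟩ := key
  refine ⟨fun l => if l < D + 1 then e l else 0, ?_, fun l => ?_⟩
  · rw [he]
    refine sum_congr rfl fun l hl => ?_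
    beta_reduce
    rw [if_pos (mem_range.1 hl)]
  · by_cases h : l < D + 1
    · simp only [h, if_true]
      exact heE l h
    · simp only [h, if_false, Int.cast_zero, abs_zero]; positivity

/-- The exponent vectors. -/
noncomputable def fs {m : ℕ} (J : Fin m → ℕ) : Fin m →₀ ℕ := Finsupp.equivFunOnFinite.symm J

lemma fs_apply {m : ℕ} (J : Fin m → ℕ) (i : Fin m) : fs J i = J i := rfl

lemma fs_injective {m : ℕ} : Function.Injective (fs (m := m)) :=
  Finsupp.equivFunOnFinite.symm.injective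

/-- The polynomial with given coefficients on a box. -/
noncomputable def pol {m : ℕ} (Box : Finset (Fin m → ℕ)) (t : Box → ℤ) : MvPolynomial (Fin m) ℤ :=
  ∑ J : Box, monomial (fs J.1) (t J)

lemma coeff_pol {m : ℕ} (Box : Finset (Fin m → ℕ)) (t : Box → ℤ) (J : Box) :
    coeff (fs J.1) (pol Box t) = t J := by
  classical
  rw [pol, coeff_sum, sum_eq_single J]
  · rw [coeff_monomial, if_pos rfl]
  · intro J' _ hJ'
    rw [coeff_monomial, if_neg]
    exact fun h => hJ' (Subtype.ext (fs_injective h))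
  · intro h; exact absurd (mem_univ _) h

lemma exists_of_mem_support {m : ℕ} {Box : Finset (Fin m → ℕ)} {t : Box → ℤ} {I : Fin m →₀ ℕ}
    (hI : I ∈ (pol Box t).support) : ∃ J : Box, fs J.1 = I := by
  classical
  rw [mem_support_iff, pol, coeff_sum] at hI
  obtain ⟨J, _, hJ⟩ := exists_ne_zero_of_sum_ne_zero hI
  rw [coeff_monomial] at hJ
  refine ⟨J, ?_⟩
  by_contra h
  exact hJ (if_neg h)

lemma sum_support {m : ℕ} (Box : Finset (Fin m → ℕ)) (t : Box → ℤ) (g : (Fin m →₀ ℕ) → ℝ) :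
    ∑ J ∈ (pol Box t).support, ((coeff J (pol Box t) : ℤ) : ℝ) * g J =
      ∑ J : Box, (t J : ℝ) * g (fs J.1) := by
  classical
  have h1 : (pol Box t).support ⊆ univ.image fun J : Box => fs J.1 := by
    intro I hI
    obtain ⟨J, hJ⟩ := exists_of_mem_support hI
    exact mem_image.2 ⟨J, mem_univ _, hJ⟩
  rw [sum_subset h1, sum_image]
  · exact sum_congr rfl fun J _ => by rw [coeff_pol]
  · intro J _ J' _ h
    exact Subtype.ext (fs_injective h)
  · intro J _ hJ
    rw [notMem_support_iff.1 hJ]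
    simp

end AuxPoly

open AuxPoly

/-- **The auxiliary polynomial** of Roth's theorem. -/
theorem auxStmt_of (hT : TaylorStmt) (hC : CountStmt) : AuxStmt := by
  classical
  intro α hα ε hε
  obtain ⟨d, a, E, hd, ha0, hE1, haE, hpow⟩ := exists_powers hα
  choose e he heE using hpow
  obtain ⟨m', hm'⟩ := exists_nat_ge ((d : ℝ) / (2 * ε ^ 2))
  obtain ⟨m, hm⟩ : ∃ m, m = m' + 1 := ⟨_, rfl⟩
  have hm0 : 0 < m := by omega
  have hdm : (d : ℝ) ≤ 2 * ε ^ 2 * m := by
    rw [div_le_iff₀ (by positivity)] at hm'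
    have : (m' : ℝ) ≤ m := by exact_mod_cast (by omega : m' ≤ m)
    nlinarith [sq_nonneg ε]
  refine ⟨m, hm0, Real.log (4 * E), Real.log_nonneg (by linarith), fun r hr => ?_⟩
  set R : ℕ := ∑ i, r i with hR
  set Box : Finset (Fin m → ℕ) := Fintype.piFinset fun i => range (r i + 1) with hBox
  set Eqs : Finset (Fin m → ℕ) := Box.filter fun I : Fin m → ℕ =>
    ∑ i, (I i : ℝ) / r i < m * (1 / 2 - ε) with hEqs
  have hmem : ∀ {J : Fin m → ℕ}, J ∈ Box ↔ ∀ i, J i ≤ r i := by
    intro J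
    rw [hBox, Fintype.mem_piFinset]
    exact forall_congr' fun i => by rw [mem_range, Nat.lt_succ_iff]
  -- number of unknowns and equations
  have hN : Box.card = ∏ i, (r i + 1) := by
    rw [hBox, Fintype.card_piFinset]
    exact prod_congr rfl fun i _ => card_range _
  have hN2 : Box.card ≤ 2 ^ R := by
    rw [hN, hR, ← prod_pow_eq_pow_sum]
    exact prod_le_prod' fun i _ => Nat.succ_le_of_lt Nat.lt_two_pow_self
  have hN0 : 0 < Box.card := by
    rw [hN]; exact prod_pos fun i _ => Nat.succ_pos _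
  have hcard : 2 * Fintype.card (Eqs × Fin d) ≤ Fintype.card Box := by
    rw [Fintype.card_prod, Fintype.card_coe, Fintype.card_coe, Fintype.card_fin]
    have h1 := hC m r hm0 hr ε hε
    have h2 : ((Eqs.card : ℕ) : ℝ) ≤ (Box.card : ℝ) / (4 * ε ^ 2 * m) := by
      have h3 : (Box.card : ℝ) = ∏ i, ((r i : ℝ) + 1) := by
        rw [hN]; push_cast; rfl
      rw [h3]
      exact h1
    have hm0' : (0 : ℝ) < m := by exact_mod_cast hm0
    rw [le_div_iff₀ (by positivity)] at h2
    have h4 : (2 : ℝ) * (Eqs.card * d) ≤ Box.card := by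
      calc (2 : ℝ) * (Eqs.card * d) ≤ 2 * (Eqs.card * (2 * ε ^ 2 * m)) := by gcongr
        _ = Eqs.card * (4 * ε ^ 2 * m) := by ring
        _ ≤ Box.card := h2
    exact_mod_cast h4
  -- the linear system
  set n : (Fin m → ℕ) → (Fin m → ℕ) → ℕ := fun I J => ∑ i, (J i - I i) with hn
  have hnR : ∀ I, ∀ J ∈ Box, n I J ≤ R := fun I J hJ =>
    sum_le_sum fun i _ => (Nat.sub_le _ _).trans (hmem.1 hJ i)
  set A : Matrix (Eqs × Fin d) Box ℤ := fun p J => (∏ i, (((J.1 i).choose (p.1.1 i) : ℕ) : ℤ)) *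
    (a ^ (R - n p.1.1 J.1) * e (n p.1.1 J.1) p.2) with hA
  have hE0 : 0 ≤ E := by linarith
  have hAX : ∀ p J, |((A p J : ℤ) : ℝ)| ≤ (2 * E) ^ R := by
    intro p J
    rw [hA]
    push_cast
    rw [abs_mul, abs_mul, mul_pow, abs_pow]
    have h1 : |∏ i, (((J.1 i).choose (p.1.1 i) : ℕ) : ℝ)| ≤ 2 ^ R := by
      have h2 : ∏ i, ((J.1 i).choose (p.1.1 i)) ≤ 2 ^ R := by
        rw [hR, ← prod_pow_eq_pow_sum]
        refine prod_le_prod' fun i _ => (Nat.choose_le_two_pow _ _).trans ?_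
        exact Nat.pow_le_pow_right two_pos (hmem.1 J.2 i)
      rw [abs_of_nonneg (by positivity)]
      exact_mod_cast h2
    have h3 : |(a : ℝ)| ^ (R - n p.1.1 J.1) * |(e (n p.1.1 J.1) p.2 : ℝ)| ≤ E ^ R := by
      calc |(a : ℝ)| ^ (R - n p.1.1 J.1) * |(e (n p.1.1 J.1) p.2 : ℝ)| ≤
          E ^ (R - n p.1.1 J.1) * E ^ (n p.1.1 J.1) :=
            mul_le_mul (pow_le_pow_left₀ (abs_nonneg _) haE _) (heE _ _) (abs_nonneg _)
              (by positivity)
        _ = E ^ R := by rw [← pow_add, Nat.sub_add_cancel (hnR _ _ J.2)]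
    exact mul_le_mul h1 h3 (by positivity) (by positivity)
  obtain ⟨t, ht0, hAt, htX⟩ := siegel A (X := (2 * E) ^ R) (one_le_pow₀ (by linarith)) hAX
    (by rw [Fintype.card_coe]; exact hN0) hcard
  refine ⟨pol Box t, ?_, fun i => ?_, ?_, fun I hI => ?_⟩
  · intro h0
    apply ht0
    funext J
    rw [← coeff_pol Box t J, h0, coeff_zero]
    rfl
  · rw [degreeOf_le_iff]
    intro I hI
    obtain ⟨J, rfl⟩ := exists_of_mem_support hI
    rw [fs_apply]
    exact hmem.1 J.2 i
  · -- the height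
    have hexp : Real.exp (Real.log (4 * E) * ∑ i, (r i : ℝ)) = (4 * E) ^ R := by
      have h1 : (∑ i, (r i : ℝ)) = (R : ℝ) := by rw [hR]; push_cast; rfl
      rw [h1, mul_comm, Real.exp_nat_mul, Real.exp_log (by linarith)]
    rw [hexp]
    have h1 : ht (pol Box t) ≤ ⌊(4 * E) ^ R⌋₊ := by
      refine Finset.sup_le fun I hI => ?_
      obtain ⟨J, rfl⟩ := exists_of_mem_support hI
      rw [coeff_pol]
      apply Nat.le_floor
      have h2 : (((t J).natAbs : ℕ) : ℝ) = |((t J : ℤ) : ℝ)| := by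
        rw [Nat.cast_natAbs, Int.cast_abs]
      rw [h2]
      refine (htX J).trans ?_
      rw [Fintype.card_coe]
      have h3 : (Box.card : ℝ) ≤ 2 ^ R := by exact_mod_cast hN2
      calc (Box.card : ℝ) * (2 * E) ^ R ≤ 2 ^ R * (2 * E) ^ R := by gcongr
        _ = (4 * E) ^ R := by rw [← mul_pow]; ring
    exact (Nat.cast_le.2 h1).trans (Nat.floor_le (by positivity))
  · -- the index
    rw [hT m ℝ (fun _ => α) (pol Box t) I,
      sum_support Box t fun J => ∏ i, (((J i).choose (I i) : ℕ) : ℝ) * α ^ (J i - I i)]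
    by_cases hIr : ∀ i, I i ≤ r i
    · have hIE : (fun i => I i) ∈ Eqs := by
        rw [hEqs, mem_filter]
        exact ⟨hmem.2 hIr, hI⟩
      have haR : (a : ℝ) ^ R ≠ 0 := pow_ne_zero _ (by exact_mod_cast ha0)
      suffices h0 : (a : ℝ) ^ R * (∑ J : Box, (t J : ℝ) *
          ∏ i, (((fs J.1 i).choose (I i) : ℕ) : ℝ) * α ^ (fs J.1 i - I i)) = 0 from
        (mul_eq_zero.1 h0).resolve_left haR
      have h1 : ∀ J : Box, (a : ℝ) ^ R * ((t J : ℝ) *
          ∏ i, (((fs J.1 i).choose (I i) : ℕ) : ℝ) * α ^ (fs J.1 i - I i)) =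
          ∑ l : Fin d, ((A (⟨_, hIE⟩, l) J : ℤ) : ℝ) * (t J : ℝ) * α ^ (l : ℕ) := by
        intro J
        have h2 : ∏ i, (((fs J.1 i).choose (I i) : ℕ) : ℝ) * α ^ (fs J.1 i - I i) =
            (∏ i, (((J.1 i).choose (I i) : ℕ) : ℝ)) * α ^ (n (fun i => I i) J.1) := by
          rw [prod_mul_distrib, prod_pow_eq_pow_sum]
          rfl
        have h3 : (a : ℝ) ^ R = (a : ℝ) ^ (R - n (fun i => I i) J.1) *
            (a : ℝ) ^ (n (fun i => I i) J.1) := by
          rw [← pow_add, Nat.sub_add_cancel (hnR _ _ J.2)]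
        rw [h2, h3]
        calc (a : ℝ) ^ (R - n (fun i => I i) J.1) * (a : ℝ) ^ (n (fun i => I i) J.1) *
            ((t J : ℝ) * ((∏ i, (((J.1 i).choose (I i) : ℕ) : ℝ)) *
              α ^ (n (fun i => I i) J.1))) =
            (t J : ℝ) * (∏ i, (((J.1 i).choose (I i) : ℕ) : ℝ)) *
              (a : ℝ) ^ (R - n (fun i => I i) J.1) *
              ((a : ℝ) ^ (n (fun i => I i) J.1) * α ^ (n (fun i => I i) J.1)) := by ring
          _ = ∑ l : Fin d, ((A (⟨_, hIE⟩, l) J : ℤ) : ℝ) * (t J : ℝ) * α ^ (l : ℕ) := by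
            rw [he, ← Fin.sum_univ_eq_sum_range
              (fun l => (e (n (fun i => I i) J.1) l : ℝ) * α ^ l), mul_sum]
            refine sum_congr rfl fun l _ => ?_
            rw [hA]
            push_cast
            ring
      rw [mul_sum, sum_congr rfl fun J _ => h1 J, sum_comm]
      refine sum_eq_zero fun l _ => ?_
      rw [← sum_mul]
      have h4 := hAt (⟨_, hIE⟩, l)
      have h5 : ∑ J : Box, ((A (⟨_, hIE⟩, l) J : ℤ) : ℝ) * (t J : ℝ) = 0 := by
        have := congrArg (fun z : ℤ => (z : ℝ)) h4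
        push_cast at this
        exact this
      rw [h5, zero_mul]
    · push Not at hIr
      obtain ⟨i, hi⟩ := hIr
      refine sum_eq_zero fun J _ => ?_
      rw [prod_eq_zero (mem_univ i), mul_zero]
      rw [fs_apply, Nat.choose_eq_zero_of_lt ((hmem.1 J.2 i).trans_lt hi)]
      simp

end Fermat.Agent.Cor.Roth
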