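import Fermat.Agent.Corollaries.Roth.Taylor

/-!
# Roth's theorem: bounds for the values of divided derivatives
-/

set_option autoImplicit false

open MvPolynomial

namespace Fermat.Agent.Cor.Roth.Bound

variable {m : ℕ}

theorem card_le {r : Fin m → ℕ} (s : Finset (Fin m →₀ ℕ)) (h : ∀ d ∈ s, ∀ i, d i ≤ r i) :
    s.card ≤ 2 ^ (∑ i, r i) := by
  classical
  have h1 : s.card ≤ (Fintype.piFinset fun i => Finset.range (r i + 1)).card := by
    refine Finset.card_le_card_of_injOn (fun d => (d : Fin m → ℕ)) (fun d hd => ?_)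
      (fun d _ d' _ hdd => DFunLike.coe_injective hdd)
    rw [Finset.mem_coe, Fintype.mem_piFinset]
    exact fun i => Finset.mem_range.mpr (Nat.lt_succ_of_le (h d hd i))
  refine h1.trans ?_
  rw [Fintype.card_piFinset, ← Finset.prod_pow_eq_pow_sum]
  refine Finset.prod_le_prod' fun i _ => ?_
  rw [Finset.card_range]
  exact Nat.lt_two_pow_self

theorem le_of_degreeOf {r : Fin m → ℕ} {P : MvPolynomial (Fin m) ℤ}
    (hP : ∀ i, degreeOf i P ≤ r i) {L : Fin m →₀ ℕ} (hL : L ∈ P.support) (i : Fin m) :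
    L i ≤ r i :=
  (monomial_le_degreeOf i hL).trans (hP i)

theorem natAbs_coeff_le (P : MvPolynomial (Fin m) ℤ) (L : Fin m →₀ ℕ) :
    (coeff L P).natAbs ≤ ht P := by
  by_cases h : L ∈ P.support
  · exact Finset.le_sup (f := fun I => (coeff I P).natAbs) h
  · rw [notMem_support_iff.mp h]
    simp

theorem abs_coeff_le (P : MvPolynomial (Fin m) ℤ) (L : Fin m →₀ ℕ) :
    |((coeff L P : ℤ) : ℝ)| ≤ ht P := by
  have h := natAbs_coeff_le P L
  rw [← Int.cast_abs, Int.abs_eq_natAbs]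
  exact_mod_cast h

/-- a non-zero divided derivative has order at most the degree -/
theorem le_of_dv_ne_zero (hT : TaylorStmt) {K : Type} [CommRing K] {r : Fin m → ℕ}
    {P : MvPolynomial (Fin m) ℤ} (hP : ∀ i, degreeOf i P ≤ r i) {a : Fin m → K}
    {I : Fin m →₀ ℕ} (h : dv a P I ≠ 0) (i : Fin m) : I i ≤ r i := by
  by_contra hcon
  push Not at hcon
  apply h
  rw [hT]
  refine Finset.sum_eq_zero fun L hL => ?_
  rw [Finset.prod_eq_zero (Finset.mem_univ i), mul_zero]
  rw [Nat.choose_eq_zero_of_lt (lt_of_le_of_lt (le_of_degreeOf hP hL i) hcon)]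
  simp

theorem abs_dv_le (hT : TaylorStmt) {r : Fin m → ℕ} {P : MvPolynomial (Fin m) ℤ}
    (hP : ∀ i, degreeOf i P ≤ r i) {a : Fin m → ℝ} {A : ℝ} (hA : 1 ≤ A) (ha : ∀ i, |a i| ≤ A)
    (I : Fin m →₀ ℕ) : |dv a P I| ≤ (4 * A) ^ (∑ i, r i) * ht P := by
  rw [hT]
  refine (Finset.abs_sum_le_sum_abs _ _).trans ?_
  have h1 : ∀ L ∈ P.support, |((coeff L P : ℤ) : ℝ) *
      ∏ i, (((L i).choose (I i) : ℕ) : ℝ) * a i ^ (L i - I i)| ≤
      (2 * A) ^ (∑ i, r i) * ht P := by
    intro L hL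
    rw [abs_mul, mul_comm]
    refine mul_le_mul ?_ (abs_coeff_le P L) (abs_nonneg _) (by positivity)
    rw [Finset.abs_prod, ← Finset.prod_pow_eq_pow_sum]
    refine Finset.prod_le_prod (fun i _ => abs_nonneg _) fun i _ => ?_
    have hLi := le_of_degreeOf hP hL i
    rw [abs_mul, abs_pow, mul_pow, Nat.abs_cast]
    refine mul_le_mul ?_ ?_ (by positivity) (by positivity)
    · have h2 : (L i).choose (I i) ≤ 2 ^ r i :=
        (Nat.choose_le_two_pow _ _).trans (Nat.pow_le_pow_right (by norm_num) hLi)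
      exact_mod_cast h2
    · calc |a i| ^ (L i - I i) ≤ A ^ (L i - I i) := pow_le_pow_left₀ (abs_nonneg _) (ha i) _
        _ ≤ A ^ r i := pow_le_pow_right₀ hA (by omega)
  refine (Finset.sum_le_card_nsmul _ _ _ h1).trans ?_
  rw [nsmul_eq_mul]
  have h2 : (P.support.card : ℝ) ≤ 2 ^ (∑ i, r i) := by
    exact_mod_cast card_le P.support fun L hL i => le_of_degreeOf hP hL i
  calc (P.support.card : ℝ) * ((2 * A) ^ (∑ i, r i) * ht P) ≤
      2 ^ (∑ i, r i) * ((2 * A) ^ (∑ i, r i) * ht P) := by gcongr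
    _ = (4 * A) ^ (∑ i, r i) * ht P := by
      rw [← mul_assoc, ← mul_pow]
      ring_nf

theorem coeff_zero_tr {K : Type} [CommRing K] (x : Fin m → K) (Q : MvPolynomial (Fin m) K) :
    coeff 0 (tr x Q) = eval x Q := by
  have h : (constantCoeff.comp (tr x : MvPolynomial (Fin m) K →+* MvPolynomial (Fin m) K)) =
      eval x := by
    apply ringHom_ext
    · intro c
      simp [tr]
    · intro i
      simp [tr]
  exact DFunLike.congr_fun h Q

theorem eval_sub_tr {K : Type} [CommRing K] (a x : Fin m → K) (Q : MvPolynomial (Fin m) K) :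
    eval (fun i => x i - a i) (tr a Q) = eval x Q := by
  have h : ((eval fun i => x i - a i).comp
      (tr a : MvPolynomial (Fin m) K →+* MvPolynomial (Fin m) K)) = eval x := by
    apply ringHom_ext
    · intro c
      simp [tr]
    · intro i
      simp [tr]
  exact DFunLike.congr_fun h Q

/-- the expansion of `∂_J P (x)` at `a` -/
theorem dv_eq_sum (hH : HdStmt) (P : MvPolynomial (Fin m) ℤ) (J : Fin m →₀ ℕ)
    (a x : Fin m → ℝ) : ∃ s : Finset (Fin m →₀ ℕ),
      (∀ I ∈ s, dv a P (I + J) ≠ 0) ∧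
      dv x P J = ∑ I ∈ s, ((∏ i, (((I i + J i).choose (J i) : ℕ) : ℝ)) * dv a P (I + J)) *
        ∏ i, (x i - a i) ^ I i := by
  refine ⟨(tr a (map (Int.castRingHom ℝ) (hd J P))).support, fun I hI => ?_, ?_⟩
  · have h1 := mem_support_iff.mp hI
    change dv a (hd J P) I ≠ 0 at h1
    rw [hH] at h1
    exact right_ne_zero_of_mul h1
  · have h2 := hH m ℝ x P 0 J
    have h3 : ∏ i, ((((0 : Fin m →₀ ℕ) i + J i).choose (J i) : ℕ) : ℝ) = 1 :=
      Finset.prod_eq_one fun i _ => by simp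
    rw [h3, one_mul, zero_add] at h2
    rw [← h2]
    change coeff 0 (tr x (map (Int.castRingHom ℝ) (hd J P))) = _
    rw [coeff_zero_tr, ← eval_sub_tr a x, eval_eq']
    refine Finset.sum_congr rfl fun I _ => ?_
    congr 1
    exact hH m ℝ a P I J

/-- the upper bound -/
theorem abs_dv_le_exp (hT : TaylorStmt) (hH : HdStmt) {r : Fin m → ℕ} (hr : ∀ i, 0 < r i)
    {P : MvPolynomial (Fin m) ℤ} (hP : ∀ i, degreeOf i P ≤ r i) {a x : Fin m → ℝ} {A : ℝ}
    (hA : 1 ≤ A) (ha : ∀ i, |a i| ≤ A) {τ η κ R : ℝ} (hκ : 0 ≤ κ) (hR : 0 ≤ R) {l : Fin m → ℝ}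
    (hl : ∀ i, R ≤ r i * l i) (hx : ∀ i, |x i - a i| ≤ Real.exp (-(κ * l i)))
    (hτ : ∀ I, wt r I < τ → dv a P I = 0) {J : Fin m →₀ ℕ} (hJ : wt r J < η) :
    |dv x P J| ≤ (16 * A) ^ (∑ i, r i) * ht P * Real.exp (-(κ * R * (τ - η))) := by
  obtain ⟨s, hs, hsum⟩ := dv_eq_sum hH P J a x
  rw [hsum]
  refine (Finset.abs_sum_le_sum_abs _ _).trans ?_
  have hle : ∀ I ∈ s, ∀ i, I i + J i ≤ r i := fun I hI i => by
    have := le_of_dv_ne_zero hT hP (hs I hI) i
    simpa using this
  have h1 : ∀ I ∈ s, |((∏ i, (((I i + J i).choose (J i) : ℕ) : ℝ)) * dv a P (I + J)) *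
      ∏ i, (x i - a i) ^ I i| ≤
      (8 * A) ^ (∑ i, r i) * ht P * Real.exp (-(κ * R * (τ - η))) := by
    intro I hI
    rw [abs_mul, abs_mul]
    refine mul_le_mul ?_ ?_ (abs_nonneg _) (by positivity)
    · have h2 : |∏ i, (((I i + J i).choose (J i) : ℕ) : ℝ)| ≤ 2 ^ (∑ i, r i) := by
        rw [Finset.abs_prod, ← Finset.prod_pow_eq_pow_sum]
        refine Finset.prod_le_prod (fun i _ => abs_nonneg _) fun i _ => ?_
        rw [Nat.abs_cast]
        have h3 : (I i + J i).choose (J i) ≤ 2 ^ r i :=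
          (Nat.choose_le_two_pow _ _).trans (Nat.pow_le_pow_right (by norm_num) (hle I hI i))
        exact_mod_cast h3
      calc |∏ i, (((I i + J i).choose (J i) : ℕ) : ℝ)| * |dv a P (I + J)| ≤
          2 ^ (∑ i, r i) * ((4 * A) ^ (∑ i, r i) * ht P) :=
            mul_le_mul h2 (abs_dv_le hT hP hA ha _) (abs_nonneg _) (by positivity)
        _ = (8 * A) ^ (∑ i, r i) * ht P := by
          rw [← mul_assoc, ← mul_pow]
          ring_nf
    · have h4 : τ - η ≤ wt r I := by
        have h5 : ¬ wt r (I + J) < τ := fun h => hs I hI (hτ _ h)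
        have h6 : wt r (I + J) = wt r I + wt r J := by
          unfold wt
          rw [← Finset.sum_add_distrib]
          refine Finset.sum_congr rfl fun i _ => ?_
          rw [Finsupp.add_apply]
          push_cast
          ring
        rw [h6] at h5
        linarith
      have h7 : ∀ i, |(x i - a i) ^ I i| ≤ Real.exp (-(κ * (R * ((I i : ℝ) / r i)))) := by
        intro i
        rw [abs_pow]
        calc |x i - a i| ^ I i ≤ Real.exp (-(κ * l i)) ^ I i :=
              pow_le_pow_left₀ (abs_nonneg _) (hx i) _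
          _ = Real.exp (I i * (-(κ * l i))) := by rw [← Real.exp_nat_mul]
          _ ≤ Real.exp (-(κ * (R * ((I i : ℝ) / r i)))) := by
            apply Real.exp_le_exp.mpr
            have hri : (0 : ℝ) < r i := by exact_mod_cast hr i
            have h8 : R * ((I i : ℝ) / r i) ≤ I i * l i := by
              rw [mul_div_assoc', div_le_iff₀ hri]
              have := mul_le_mul_of_nonneg_left (hl i) (Nat.cast_nonneg (α := ℝ) (I i))
              linarith
            have := mul_le_mul_of_nonneg_left h8 hκ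
            linarith
      rw [Finset.abs_prod]
      refine (Finset.prod_le_prod (fun i _ => abs_nonneg _) fun i _ => h7 i).trans ?_
      rw [← Real.exp_sum]
      apply Real.exp_le_exp.mpr
      have h9 : ∑ i, -(κ * (R * ((I i : ℝ) / r i))) = -(κ * R * wt r I) := by
        unfold wt
        rw [Finset.sum_neg_distrib, Finset.mul_sum]
        congr 1
        refine Finset.sum_congr rfl fun i _ => by ring
      rw [h9]
      have := mul_le_mul_of_nonneg_left h4 (mul_nonneg hκ hR)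
      linarith
  refine (Finset.sum_le_card_nsmul _ _ _ h1).trans ?_
  rw [nsmul_eq_mul]
  have h2 : (s.card : ℝ) ≤ 2 ^ (∑ i, r i) := by
    exact_mod_cast card_le s fun I hI i => by
      have := hle I hI i
      omega
  calc (s.card : ℝ) * ((8 * A) ^ (∑ i, r i) * ht P * Real.exp (-(κ * R * (τ - η)))) ≤
      2 ^ (∑ i, r i) * ((8 * A) ^ (∑ i, r i) * ht P * Real.exp (-(κ * R * (τ - η)))) := by gcongr
    _ = (16 * A) ^ (∑ i, r i) * ht P * Real.exp (-(κ * R * (τ - η))) := by
      rw [← mul_assoc, ← mul_assoc, ← mul_pow]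
      ring_nf

theorem dv_cast (hT : TaylorStmt) (P : MvPolynomial (Fin m) ℤ) (x : Fin m → ℚ)
    (J : Fin m →₀ ℕ) : dv (fun i => ((x i : ℚ) : ℝ)) P J = ((dv x P J : ℚ) : ℝ) := by
  rw [hT, hT]
  push_cast
  rfl

/-- the lower bound -/
theorem le_abs_dv (hT : TaylorStmt) {r : Fin m → ℕ} {P : MvPolynomial (Fin m) ℤ}
    (hP : ∀ i, degreeOf i P ≤ r i) (x : Fin m → ℚ) {J : Fin m →₀ ℕ} (h : dv x P J ≠ 0) :
    Real.exp (-∑ i, r i * Real.log ((x i).den : ℝ)) ≤ |dv (fun i => ((x i : ℚ) : ℝ)) P J| := by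
  have hint : ∃ z : ℤ, (∏ i, ((x i).den : ℚ) ^ r i) * dv x P J = z := by
    rw [hT, Finset.mul_sum]
    have h1 : ∀ L ∈ P.support, ∃ z : ℤ, (∏ i, ((x i).den : ℚ) ^ r i) *
        (((coeff L P : ℤ) : ℚ) * ∏ i, (((L i).choose (J i) : ℕ) : ℚ) * x i ^ (L i - J i)) =
        z := by
      intro L hL
      refine ⟨coeff L P * ∏ i, (((L i).choose (J i) : ℕ) : ℤ) *
        ((x i).num ^ (L i - J i) * (x i).den ^ (r i - (L i - J i))), ?_⟩
      rw [mul_left_comm, ← Finset.prod_mul_distrib]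
      push_cast
      congr 1
      refine Finset.prod_congr rfl fun i _ => ?_
      have hLi := le_of_degreeOf hP hL i
      have h2 : ((x i).den : ℚ) ^ r i =
          ((x i).den : ℚ) ^ (L i - J i) * ((x i).den : ℚ) ^ (r i - (L i - J i)) := by
        rw [← pow_add]
        congr 1
        omega
      have h3 : ((x i).num : ℚ) = x i * (x i).den := (Rat.mul_den_eq_num (x i)).symm
      rw [h2, h3, mul_pow]
      ring
    choose! z hz using h1
    refine ⟨∑ L ∈ P.support, z L, ?_⟩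
    rw [Finset.sum_congr rfl hz]
    push_cast
    rfl
  obtain ⟨z, hz⟩ := hint
  have hD : (0 : ℝ) < ∏ i, ((x i).den : ℝ) ^ r i :=
    Finset.prod_pos fun i _ => pow_pos (by exact_mod_cast (x i).den_pos) _
  have hz0 : z ≠ 0 := by
    rintro rfl
    rw [Int.cast_zero, mul_eq_zero] at hz
    rcases hz with h1 | h1
    · refine absurd h1 (Finset.prod_ne_zero_iff.mpr fun i _ => pow_ne_zero _ ?_)
      exact_mod_cast (x i).den_nz
    · exact h h1
  have hzR : (∏ i, ((x i).den : ℝ) ^ r i) * dv (fun i => ((x i : ℚ) : ℝ)) P J = z := by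
    rw [dv_cast hT]
    have := congrArg (fun y : ℚ => (y : ℝ)) hz
    push_cast at this
    exact this
  have h1 : (1 : ℝ) ≤ |(z : ℝ)| := by
    have := Int.one_le_abs hz0
    exact_mod_cast this
  rw [← hzR, abs_mul, abs_of_pos hD] at h1
  have h2 : Real.exp (-∑ i, r i * Real.log ((x i).den : ℝ)) =
      (∏ i, ((x i).den : ℝ) ^ r i)⁻¹ := by
    rw [Real.exp_neg, Real.exp_sum]
    congr 1
    refine Finset.prod_congr rfl fun i _ => ?_
    rw [Real.exp_nat_mul, Real.exp_log (by exact_mod_cast (x i).den_pos)]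
  rw [h2, inv_le_iff_one_le_mul₀ hD, mul_comm]
  exact h1

end Fermat.Agent.Cor.Roth.Bound
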