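import Fermat.Agent.Corollaries.Roth.Main

/-!
# Champernowne's number is transcendental (Mahler 1937)

The number `0.123456789101112...` in base `b`, i.e. the sum of `n / b ^ pos b n` over `n ≥ 1`,
where `pos b n` is the number of digits of `1, 2, ..., n` together. For every `k` the numbers
with `k` digits give a rational approximation with denominator `b ^ N (b ^ k - 1) ^ 2` and an
error of the order `b ^ (-N')`, where `N' ≥ b N`; so the number has the exponent `5 / 2 > 2` for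
`b ≥ 3`, and Roth's theorem applies.
-/

set_option autoImplicit false

open Finset Filter

namespace Fermat.Agent.Cor.Roth.Champernowne

/-- the position of the last digit of `n` in the word `1 2 3 ...` in base `b` -/
def pos (b n : ℕ) : ℕ := ∑ j ∈ range (n + 1), (Nat.digits b j).length

/-- Champernowne's number in base `b` -/
noncomputable def champernowne (b : ℕ) : ℝ := ∑' n : ℕ, (n : ℝ) / (b : ℝ) ^ pos b n

/-- the number of digits of the numbers `< b ^ κ` -/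
def start (b κ : ℕ) : ℕ := ∑ j ∈ range (b ^ κ), (Nat.digits b j).length

variable {b : ℕ}

theorem le_pos (hb : 2 ≤ b) {κ n : ℕ} (h : b ^ κ ≤ n) :
    start b κ + (κ + 1) * (n + 1 - b ^ κ) ≤ pos b n := by
  unfold start pos
  rw [← sum_range_add_sum_Ico (fun j => (Nat.digits b j).length) (by omega : b ^ κ ≤ n + 1)]
  refine Nat.add_le_add_left ?_ _
  have h1 := Finset.card_nsmul_le_sum (Ico (b ^ κ) (n + 1)) (fun j => (Nat.digits b j).length)
    (κ + 1) (fun j hj => (Nat.lt_digits_length_iff (by omega) j).2 (mem_Ico.1 hj).1)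
  rw [Nat.card_Ico, smul_eq_mul, mul_comm] at h1
  exact h1

theorem pos_eq (hb : 2 ≤ b) {κ n : ℕ} (h : b ^ κ ≤ n) (h' : n < b ^ (κ + 1)) :
    pos b n = start b κ + (κ + 1) * (n + 1 - b ^ κ) := by
  have h1 : ∑ j ∈ Ico (b ^ κ) (n + 1), (Nat.digits b j).length = (κ + 1) * (n + 1 - b ^ κ) := by
    have h2 : ∀ j ∈ Ico (b ^ κ) (n + 1), (Nat.digits b j).length = κ + 1 := by
      intro j hj
      rw [mem_Ico] at hj
      exact le_antisymm ((Nat.digits_length_le_iff (by omega) j).2 (by omega))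
        ((Nat.lt_digits_length_iff (by omega) j).2 hj.1)
    rw [sum_congr rfl h2, sum_const, Nat.card_Ico, smul_eq_mul, mul_comm]
  unfold start pos
  rw [← sum_range_add_sum_Ico (fun j => (Nat.digits b j).length) (by omega : b ^ κ ≤ n + 1), h1]

theorem lt_pos (hb : 2 ≤ b) (κ : ℕ) :
    start b κ + (κ + 1) * (b ^ (κ + 1) + 1 - b ^ κ) < pos b (b ^ (κ + 1)) := by
  have h0 : b ^ κ < b ^ (κ + 1) := Nat.pow_lt_pow_right (by omega) (by omega)
  have h1 := le_pos hb (κ := κ) (n := b ^ (κ + 1) - 1) (by omega)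
  have h2 : pos b (b ^ (κ + 1)) =
      pos b (b ^ (κ + 1) - 1) + (Nat.digits b (b ^ (κ + 1))).length := by
    unfold pos
    rw [sum_range_succ, Nat.sub_add_cancel (by omega)]
  have h3 : κ + 1 < (Nat.digits b (b ^ (κ + 1))).length :=
    (Nat.lt_digits_length_iff (by omega) _).2 le_rfl
  have h4 : (κ + 1) * (b ^ (κ + 1) + 1 - b ^ κ) =
      (κ + 1) * (b ^ (κ + 1) - 1 + 1 - b ^ κ) + (κ + 1) := by
    rw [← Nat.mul_succ]
    congr 1
    omega
  rw [h2, h4]
  omega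

theorem start_le (hb : 2 ≤ b) (κ : ℕ) : start b κ ≤ κ * b ^ κ := by
  unfold start
  have h1 := Finset.sum_le_card_nsmul (range (b ^ κ)) (fun j => (Nat.digits b j).length) κ
    (fun j hj => (Nat.digits_length_le_iff (by omega) j).2 (mem_range.1 hj))
  rw [card_range, smul_eq_mul, mul_comm] at h1
  exact h1

theorem pos_le_start {κ n : ℕ} (h : n < b ^ κ) : pos b n ≤ start b κ :=
  sum_le_sum_of_subset (range_subset_range.2 h)

theorem hasSum_aux {y : ℝ} (h0 : 0 ≤ y) (h1 : y < 1) (c : ℝ) :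
    HasSum (fun i : ℕ => ((i : ℝ) + c) * y ^ i) (y / (1 - y) ^ 2 + c / (1 - y)) := by
  have e1 := hasSum_coe_mul_geometric_of_norm_lt_one (𝕜 := ℝ) (r := y)
    (by rw [Real.norm_of_nonneg h0]; exact h1)
  have e2 := (hasSum_geometric_of_lt_one h0 h1).mul_left c
  have e3 := e1.add e2
  have hf : (fun i : ℕ => ((i : ℝ) + c) * y ^ i) = fun i : ℕ => (i : ℝ) * y ^ i + c * y ^ i :=
    funext fun i => by ring
  rw [hf, div_eq_mul_inv c]
  exact e3

/-- the terms of the series -/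
noncomputable def f (b n : ℕ) : ℝ := (n : ℝ) / (b : ℝ) ^ pos b n

/-- the terms of the approximating series -/
noncomputable def g (b κ n : ℕ) : ℝ :=
  if n < b ^ κ then f b n else (n : ℝ) / (b : ℝ) ^ (start b κ + (κ + 1) * (n + 1 - b ^ κ))

theorem f_nonneg (b n : ℕ) : 0 ≤ f b n := by unfold f; positivity

theorem f_le_g (hb : 2 ≤ b) (κ n : ℕ) : f b n ≤ g b κ n := by
  unfold g
  split_ifs with h
  · exact le_rfl
  · unfold f
    have hb1 : (1 : ℝ) ≤ b := by exact_mod_cast (by omega : 1 ≤ b)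
    refine div_le_div_of_nonneg_left (by positivity) (by positivity) ?_
    exact pow_le_pow_right₀ hb1 (le_pos hb (by omega))

theorem f_eq_g (hb : 2 ≤ b) {κ n : ℕ} (h : n < b ^ (κ + 1)) : f b n = g b κ n := by
  unfold g
  split_ifs with h'
  · rfl
  · rw [f, pos_eq hb (by omega) h]

theorem f_lt_g (hb : 2 ≤ b) (κ : ℕ) : f b (b ^ (κ + 1)) < g b κ (b ^ (κ + 1)) := by
  unfold g
  have h0 : b ^ κ < b ^ (κ + 1) := Nat.pow_lt_pow_right (by omega) (by omega)
  rw [if_neg (by omega), f]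
  have hb1 : (1 : ℝ) < b := by exact_mod_cast (by omega : 1 < b)
  refine div_lt_div_of_pos_left (by positivity) (by positivity) ?_
  exact pow_lt_pow_right₀ hb1 (lt_pos hb κ)

/-- the shifted series -/
theorem g_add (hb : 2 ≤ b) (κ c i : ℕ) (hc : b ^ κ ≤ c) :
    g b κ (i + c) = ((i : ℝ) + c) * (1 / (b : ℝ) ^ (κ + 1)) ^ i *
      (1 / (b : ℝ) ^ (start b κ + (κ + 1) * (c - b ^ κ) + (κ + 1))) := by
  unfold g
  rw [if_neg (by omega)]
  have hb0 : (b : ℝ) ≠ 0 := by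
    have : (0 : ℝ) < b := by exact_mod_cast (by omega : 0 < b)
    exact this.ne'
  have e1 : start b κ + (κ + 1) * (i + c + 1 - b ^ κ) =
      (κ + 1) * i + (start b κ + (κ + 1) * (c - b ^ κ) + (κ + 1)) := by
    have : i + c + 1 - b ^ κ = i + (c - b ^ κ) + 1 := by omega
    rw [this]
    ring
  rw [e1, pow_add (b : ℝ) ((κ + 1) * i), pow_mul, one_div_pow]
  push_cast
  field_simp

theorem y_pos (hb : 2 ≤ b) (κ : ℕ) : 0 < 1 / (b : ℝ) ^ (κ + 1) := by
  have : (0 : ℝ) < b := by exact_mod_cast (by omega : 0 < b)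
  positivity

theorem y_le (hb : 2 ≤ b) (κ : ℕ) : 1 / (b : ℝ) ^ (κ + 1) ≤ 1 / 2 := by
  have h1 : (2 : ℝ) ≤ (b : ℝ) ^ (κ + 1) := by
    have h2 : 2 ≤ b ^ (κ + 1) := hb.trans (Nat.le_self_pow (by omega) b)
    exact_mod_cast h2
  exact one_div_le_one_div_of_le (by norm_num) h1

theorem hasSum_g_add (hb : 2 ≤ b) (κ c : ℕ) (hc : b ^ κ ≤ c) :
    HasSum (fun i => g b κ (i + c))
      (((1 / (b : ℝ) ^ (κ + 1)) / (1 - 1 / (b : ℝ) ^ (κ + 1)) ^ 2 +
        (c : ℝ) / (1 - 1 / (b : ℝ) ^ (κ + 1))) *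
      (1 / (b : ℝ) ^ (start b κ + (κ + 1) * (c - b ^ κ) + (κ + 1)))) := by
  have h1 := (hasSum_aux (y_pos hb κ).le (by linarith [y_le hb κ]) (c : ℝ)).mul_right
    (1 / (b : ℝ) ^ (start b κ + (κ + 1) * (c - b ^ κ) + (κ + 1)))
  have h2 : (fun i => g b κ (i + c)) = fun i : ℕ => ((i : ℝ) + c) * (1 / (b : ℝ) ^ (κ + 1)) ^ i *
      (1 / (b : ℝ) ^ (start b κ + (κ + 1) * (c - b ^ κ) + (κ + 1))) :=
    funext fun i => g_add hb κ c i hc
  rw [h2]
  exact h1

theorem summable_g (hb : 2 ≤ b) (κ : ℕ) : Summable (g b κ) :=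
  (summable_nat_add_iff (b ^ κ)).1 (hasSum_g_add hb κ (b ^ κ) le_rfl).summable

theorem summable_f (hb : 2 ≤ b) : Summable (f b) :=
  Summable.of_nonneg_of_le (f_nonneg b) (fun n => f_le_g hb 0 n) (summable_g hb 0)

theorem champernowne_lt (hb : 2 ≤ b) (κ : ℕ) : champernowne b < ∑' n, g b κ n :=
  Summable.tsum_lt_tsum (f_le_g hb κ) (f_lt_g hb κ) (summable_f hb) (summable_g hb κ)

/-- the error -/
theorem le_add (hb : 2 ≤ b) (κ : ℕ) : ∑' n, g b κ n ≤ champernowne b +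
    3 / (b : ℝ) ^ (start b κ + (κ + 1) * (b ^ (κ + 1) - b ^ κ)) := by
  have h0 : b ^ κ < b ^ (κ + 1) := Nat.pow_lt_pow_right (by omega) (by omega)
  have h1 := (hasSum_nat_add_iff (f := g b κ) (b ^ (κ + 1))).1
    (hasSum_g_add hb κ (b ^ (κ + 1)) h0.le)
  rw [h1.tsum_eq, add_comm]
  have h2 : ∑ i ∈ range (b ^ (κ + 1)), g b κ i ≤ champernowne b := by
    rw [← sum_congr rfl fun i hi => f_eq_g hb (mem_range.1 hi)]
    exact (summable_f hb).sum_le_tsum _ fun i _ => f_nonneg b i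
  refine add_le_add h2 ?_
  set E : ℝ := (b : ℝ) ^ (κ + 1) with hE
  have hE2 : 2 ≤ E := by
    have h2 : 2 ≤ b ^ (κ + 1) := hb.trans (Nat.le_self_pow (by omega) b)
    rw [hE]
    exact_mod_cast h2
  have hb0 : (0 : ℝ) < b := by exact_mod_cast (by omega : 0 < b)
  have hP : (0 : ℝ) < (b : ℝ) ^ (start b κ + (κ + 1) * (b ^ (κ + 1) - b ^ κ)) := by positivity
  rw [pow_add (b : ℝ) (start b κ + (κ + 1) * (b ^ (κ + 1) - b ^ κ)) (κ + 1), ← hE]
  set P : ℝ := (b : ℝ) ^ (start b κ + (κ + 1) * (b ^ (κ + 1) - b ^ κ)) with hPdef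
  have e1 : (1 / E / (1 - 1 / E) ^ 2 + ((b ^ (κ + 1) : ℕ) : ℝ) / (1 - 1 / E)) * (1 / (P * E)) =
      (1 / (E - 1) ^ 2 + E / (E - 1)) / P := by
    have h3 : E ≠ 0 := by linarith
    have h4 : E - 1 ≠ 0 := by linarith
    have h5 : ((b ^ (κ + 1) : ℕ) : ℝ) = E := by push_cast; rfl
    have h6 : 1 - 1 / E = (E - 1) / E := by field_simp
    rw [h5, h6]
    field_simp
  rw [e1]
  refine div_le_div_of_nonneg_right ?_ hP.le
  have h7 : 1 / (E - 1) ^ 2 ≤ 1 := by
    rw [div_le_one (by nlinarith)]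
    nlinarith
  have h8 : E / (E - 1) ≤ 2 := by
    rw [div_le_iff₀ (by linarith)]
    linarith
  linarith

/-- the approximating series is a rational number -/
theorem tsum_g (hb : 2 ≤ b) (κ : ℕ) : ∃ m : ℤ, ∑' n, g b κ n =
    m / ((b ^ start b κ * (b ^ (κ + 1) - 1) ^ 2 : ℕ) : ℝ) := by
  have h0 : b ^ κ < b ^ (κ + 1) := Nat.pow_lt_pow_right (by omega) (by omega)
  have h1 := (hasSum_nat_add_iff (f := g b κ) (b ^ κ)).1 (hasSum_g_add hb κ (b ^ κ) le_rfl)
  have hb0 : (0 : ℝ) < b := by exact_mod_cast (by omega : 0 < b)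
  have h2 : ∑ i ∈ range (b ^ κ), g b κ i =
      ((∑ i ∈ range (b ^ κ), i * b ^ (start b κ - pos b i) : ℕ) : ℝ) / (b : ℝ) ^ start b κ := by
    rw [Nat.cast_sum, sum_div]
    refine sum_congr rfl fun i hi => ?_
    have hi' := mem_range.1 hi
    rw [g, if_pos hi', f, Nat.cast_mul, Nat.cast_pow]
    have e2 : (b : ℝ) ^ start b κ = (b : ℝ) ^ (start b κ - pos b i) * (b : ℝ) ^ pos b i := by
      rw [← pow_add, Nat.sub_add_cancel (pos_le_start hi')]
    rw [e2]
    field_simp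
  set A : ℕ := ∑ i ∈ range (b ^ κ), i * b ^ (start b κ - pos b i) with hA
  refine ⟨A * (b ^ (κ + 1) - 1) ^ 2 + b ^ κ * (b ^ (κ + 1) - 1) + 1, ?_⟩
  have h8 : start b κ + (κ + 1) * (b ^ κ - b ^ κ) = start b κ := by simp
  rw [h1.tsum_eq, h2, h8]
  set E : ℝ := (b : ℝ) ^ (κ + 1) with hE
  have hE2 : 2 ≤ E := by
    have h2 : 2 ≤ b ^ (κ + 1) := hb.trans (Nat.le_self_pow (by omega) b)
    rw [hE]
    exact_mod_cast h2
  have h3 : E ≠ 0 := by linarith
  have h4 : E - 1 ≠ 0 := by linarith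
  have h6 : 1 - 1 / E = (E - 1) / E := by field_simp
  have h7 : (b : ℝ) ^ start b κ ≠ 0 := by positivity
  rw [pow_add (b : ℝ) (start b κ) (κ + 1), ← hE, h6]
  push_cast [Nat.cast_sub (show 1 ≤ b ^ (κ + 1) by omega)]
  rw [← hE]
  field_simp
  ring

/-- the number is approximable with the exponent `5 / 2` -/
theorem liouvilleWith (hb : 3 ≤ b) : LiouvilleWith (5 / 2) (champernowne b) := by
  refine ⟨4, frequently_atTop.2 fun n₀ => ?_⟩
  set κ := n₀ + 3 with hκ
  have hb2 : 2 ≤ b := by omega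
  have hb0 : (0 : ℝ) < b := by exact_mod_cast (by omega : 0 < b)
  have hb1 : (1 : ℝ) ≤ b := by exact_mod_cast (by omega : 1 ≤ b)
  have h1 : κ + 1 < b ^ (κ + 1) := Nat.lt_pow_self (by omega)
  set N := start b κ with hN
  refine ⟨b ^ N * (b ^ (κ + 1) - 1) ^ 2, ?_, ?_⟩
  · calc n₀ ≤ b ^ (κ + 1) - 1 := by omega
      _ ≤ (b ^ (κ + 1) - 1) ^ 2 := Nat.le_self_pow (by norm_num) _
      _ = 1 * (b ^ (κ + 1) - 1) ^ 2 := (one_mul _).symm
      _ ≤ _ := Nat.mul_le_mul_right _ (Nat.one_le_pow _ _ (by omega))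
  · obtain ⟨m, hm⟩ := tsum_g hb2 κ
    rw [← hN] at hm
    refine ⟨m, ?_, ?_⟩
    · rw [← hm]
      exact (champernowne_lt hb2 κ).ne
    · rw [← hm, abs_sub_comm, abs_of_pos (sub_pos.2 (champernowne_lt hb2 κ))]
      have h2 := le_add hb2 κ
      rw [← hN] at h2
      set M := N + (κ + 1) * (b ^ (κ + 1) - b ^ κ) with hM
      set q := b ^ N * (b ^ (κ + 1) - 1) ^ 2 with hq
      have hq0 : 0 < q := by
        have : 0 < b ^ (κ + 1) - 1 := by omega
        positivity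
      have hqle : q ≤ b ^ (N + 2 * (κ + 1)) := by
        rw [hq, pow_add b N, mul_comm 2 (κ + 1), pow_mul b (κ + 1) 2]
        exact Nat.mul_le_mul_left _ (Nat.pow_le_pow_left (Nat.sub_le _ _) 2)
      have h27 : 27 ≤ b ^ κ := by
        calc 27 = 3 ^ 3 := by norm_num
          _ ≤ b ^ 3 := Nat.pow_le_pow_left hb 3
          _ ≤ b ^ κ := Nat.pow_le_pow_right (by omega) (by omega)
      have hexp : 5 * (N + 2 * (κ + 1)) ≤ 2 * M := by
        have h3 := start_le hb2 κ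
        rw [← hN] at h3
        have h4 : 2 * b ^ κ ≤ b ^ (κ + 1) - b ^ κ := by
          have : 3 * b ^ κ ≤ b ^ (κ + 1) := by
            rw [pow_succ, mul_comm]
            exact Nat.mul_le_mul_left _ hb
          omega
        have h5 : (κ + 1) * (2 * b ^ κ) ≤ (κ + 1) * (b ^ (κ + 1) - b ^ κ) :=
          Nat.mul_le_mul_left _ h4
        have h6 : (κ + 1) * 27 ≤ (κ + 1) * b ^ κ := Nat.mul_le_mul_left _ h27
        have h7 : 2 * M = 2 * N + 2 * ((κ + 1) * (b ^ (κ + 1) - b ^ κ)) := by rw [hM]; ring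
        nlinarith
      have hpow : (q : ℝ) ^ (5 / 2 : ℝ) ≤ (b : ℝ) ^ M := by
        have h8 : (q : ℝ) ^ 5 ≤ ((b : ℝ) ^ M) ^ 2 := by
          calc (q : ℝ) ^ 5 ≤ ((b : ℝ) ^ (N + 2 * (κ + 1))) ^ 5 := by
                gcongr
                exact_mod_cast hqle
            _ = (b : ℝ) ^ (5 * (N + 2 * (κ + 1))) := by rw [← pow_mul, mul_comm]
            _ ≤ (b : ℝ) ^ (2 * M) := pow_le_pow_right₀ hb1 hexp
            _ = _ := by rw [mul_comm, pow_mul]
        have h9 : (q : ℝ) ^ (5 / 2 : ℝ) = √((q : ℝ) ^ 5) := by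
          rw [Real.sqrt_eq_rpow, ← Real.rpow_natCast, ← Real.rpow_mul (Nat.cast_nonneg q)]
          norm_num
        rw [h9]
        calc √((q : ℝ) ^ 5) ≤ √(((b : ℝ) ^ M) ^ 2) := Real.sqrt_le_sqrt h8
          _ = (b : ℝ) ^ M := Real.sqrt_sq (by positivity)
      have hq0' : (0 : ℝ) < (q : ℝ) ^ (5 / 2 : ℝ) :=
        Real.rpow_pos_of_pos (by exact_mod_cast hq0) _
      calc ∑' n, g b κ n - champernowne b ≤ 3 / (b : ℝ) ^ M := by linarith
        _ ≤ 3 / (q : ℝ) ^ (5 / 2 : ℝ) := div_le_div_of_nonneg_left (by norm_num) hq0' hpow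
        _ < 4 / (q : ℝ) ^ (5 / 2 : ℝ) := by gcongr; norm_num

/-- **Mahler 1937**: Champernowne's number in base `b ≥ 3` is transcendental. -/
theorem transcendental_champernowne (hb : 3 ≤ b) : Transcendental ℚ (champernowne b) :=
  transcendental_of_liouvilleWith (by norm_num) (liouvilleWith hb)

/-- The number `0.123456789101112...` is transcendental. -/
theorem transcendental_champernowne_ten :
    Transcendental ℚ (∑' n : ℕ, (n : ℝ) / 10 ^ (∑ j ∈ range (n + 1), (Nat.digits 10 j).length)) := by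
  have h := transcendental_champernowne (b := 10) (by norm_num)
  simpa [champernowne, pos] using h

end Fermat.Agent.Cor.Roth.Champernowne
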