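import Fermat.Agent.Corollaries.Roth.Final

/-!
# Consequences of Roth's theorem

All statements have Roth's theorem (`RothStmt`) as a hypothesis; it is discharged in `Main.lean`.
-/

set_option autoImplicit false

open MvPolynomial

namespace Fermat.Agent.Cor.Roth.Conseq

/-- Roth's lemma in no variables -/
theorem rothLemma_zero (hT : TaylorStmt) : RothLemma 0 := by
  intro ε hε
  refine ⟨1, one_pos, 0, le_rfl, fun r p q P _ _ hP _ _ _ _ => ⟨0, ?_, ?_⟩⟩
  · unfold wt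
    rw [Finset.univ_eq_empty, Finset.sum_empty]
    exact hε
  · have h1 : P = C (coeff 0 P) := eq_C_of_isEmpty P
    have h2 : coeff 0 P ≠ 0 := fun h => hP (by rw [h1, h, C_0])
    rw [hT, h1, C_apply]
    have h3 : (monomial (0 : Fin 0 →₀ ℕ) (coeff 0 P)).support = {0} := by
      classical
      rw [support_monomial, if_neg h2]
    rw [h3, Finset.sum_singleton, coeff_monomial, if_pos rfl, Finset.univ_eq_empty,
      Finset.prod_empty, mul_one]
    exact_mod_cast h2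

theorem rothLemma_of (hT : TaylorStmt) (hS : StepStmt) (m : ℕ) : RothLemma m := by
  induction m with
  | zero => exact rothLemma_zero hT
  | succ m ih => exact hS m ih

/-- a positive lower bound for the distance to the elements of a finite set -/
theorem exists_pos_le {S : Set ℚ} (hS : S.Finite) (α : ℝ) :
    ∃ c : ℝ, 0 < c ∧ ∀ x ∈ S, α ≠ x → c ≤ |α - x| := by
  classical
  have hS' : {x ∈ S | α ≠ x}.Finite := hS.subset (Set.sep_subset _ _)
  rcases Set.eq_empty_or_nonempty {x ∈ S | α ≠ x} with h | h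
  · exact ⟨1, one_pos, fun x hx hne => absurd (show x ∈ {x ∈ S | α ≠ x} from ⟨hx, hne⟩) (by
      rw [h]; exact Set.notMem_empty x)⟩
  · obtain ⟨y, hy, hmin⟩ := hS'.exists_minimalFor (fun x : ℚ => |α - x|) _ h
    refine ⟨|α - y|, abs_pos.mpr (sub_ne_zero.mpr hy.2), fun x hx hne => ?_⟩
    by_contra hcon
    push Not at hcon
    exact absurd (hmin (show x ∈ {x ∈ S | α ≠ x} from ⟨hx, hne⟩) hcon.le) (not_le.mpr hcon)

theorem den_le {m : ℤ} {n : ℕ} (hn : n ≠ 0) : ((m : ℚ) / n).den ≤ n := by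
  have h1 : ((((m : ℚ) / n).den : ℤ)) ∣ (n : ℤ) := by
    have := Rat.den_dvd m n
    rw [Rat.divInt_eq_div] at this
    exact_mod_cast this
  exact Nat.le_of_dvd (Nat.pos_of_ne_zero hn) (Int.natCast_dvd_natCast.mp h1)

/-- **effective form of the exponent**: `|α - p/q| ≥ c q^(-(2+δ))` for all rationals different
from `α` -/
theorem exists_const (h : RothStmt) {α : ℝ} (hα : IsAlgebraic ℚ α) {δ : ℝ} (hδ : 0 < δ) :
    ∃ c : ℝ, 0 < c ∧ ∀ (p : ℤ) (q : ℕ), q ≠ 0 → α ≠ p / q →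
      c * (q : ℝ) ^ (-(2 + δ)) ≤ |α - p / q| := by
  obtain ⟨c, hc, hc'⟩ := exists_pos_le (h α hα δ hδ) α
  refine ⟨min c 1, lt_min hc one_pos, fun p q hq hne => ?_⟩
  have hq1 : (1 : ℝ) ≤ q := by exact_mod_cast Nat.one_le_iff_ne_zero.mpr hq
  have hpos : (0 : ℝ) < (q : ℝ) ^ (-(2 + δ)) := Real.rpow_pos_of_pos (by linarith) _
  have hle1 : (q : ℝ) ^ (-(2 + δ)) ≤ 1 :=
    Real.rpow_le_one_of_one_le_of_nonpos hq1 (by linarith)
  have hcast : (((p : ℚ) / q : ℚ) : ℝ) = (p : ℝ) / q := by push_cast; rfl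
  by_cases hx : |α - (((p : ℚ) / q : ℚ) : ℝ)| <
      (((p : ℚ) / q : ℚ).den : ℝ) ^ (-(2 + δ))
  · have h1 := hc' ((p : ℚ) / q) hx (by rw [hcast]; exact hne)
    rw [hcast] at h1
    calc min c 1 * (q : ℝ) ^ (-(2 + δ)) ≤ c * 1 :=
          mul_le_mul (min_le_left _ _) hle1 hpos.le hc.le
      _ ≤ |α - p / q| := by rw [mul_one]; exact h1
  · push Not at hx
    rw [hcast] at hx
    have h2 : (q : ℝ) ^ (-(2 + δ)) ≤ (((p : ℚ) / q : ℚ).den : ℝ) ^ (-(2 + δ)) := by
      refine Real.rpow_le_rpow_of_nonpos ?_ ?_ (by linarith)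
      · exact_mod_cast ((p : ℚ) / q : ℚ).den_pos
      · exact_mod_cast den_le hq
    calc min c 1 * (q : ℝ) ^ (-(2 + δ)) ≤ 1 * (q : ℝ) ^ (-(2 + δ)) :=
          mul_le_mul_of_nonneg_right (min_le_right _ _) hpos.le
      _ ≤ |α - p / q| := by rw [one_mul]; exact h2.trans hx

/-- a number which is `LiouvilleWith p` for some `p > 2` is transcendental -/
theorem transcendental_of_liouvilleWith (h : RothStmt) {p x : ℝ} (hp : 2 < p)
    (hx : LiouvilleWith p x) : Transcendental ℚ x := by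
  intro hα
  have hδ : 0 < (p - 2) / 2 := by linarith
  have h1 := hx.frequently_lt_rpow_neg (show 2 + (p - 2) / 2 < p by linarith)
  obtain ⟨c, hc, hc'⟩ := exists_const h hα (show 0 < (p - 2) / 4 by linarith)
  have hlim : Filter.Tendsto (fun n : ℕ => (n : ℝ) ^ (-((p - 2) / 4))) Filter.atTop (nhds 0) :=
    (tendsto_rpow_neg_atTop (by linarith)).comp tendsto_natCast_atTop_atTop
  have hev := (hlim.eventually (gt_mem_nhds hc)).and (Filter.eventually_ge_atTop 1)
  obtain ⟨n, ⟨m, hne, hlt⟩, hn, hn1⟩ := (h1.and_eventually hev).exists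
  have hn0 : (0 : ℝ) < n := by exact_mod_cast hn1
  have h2 := hc' m n (by omega) hne
  have h3 : (n : ℝ) ^ (-(2 + (p - 2) / 2)) =
      (n : ℝ) ^ (-((p - 2) / 4)) * (n : ℝ) ^ (-(2 + (p - 2) / 4)) := by
    rw [← Real.rpow_add hn0]
    congr 1
    ring
  rw [h3] at hlt
  have h4 : (0 : ℝ) < (n : ℝ) ^ (-(2 + (p - 2) / 4)) := Real.rpow_pos_of_pos hn0 _
  have h5 := lt_of_le_of_lt h2 hlt
  have h6 := lt_of_mul_lt_mul_right h5 h4.le
  linarith

/-! ### The series `∑ a^(-b^n)` -/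

section Series

variable {a b : ℕ}

theorem pow_le (ha : 2 ≤ a) (hb : 2 ≤ b) (N k : ℕ) :
    1 / (a : ℝ) ^ (b ^ (N + k)) ≤ 1 / (a : ℝ) ^ (b ^ N) * (1 / 2) ^ k := by
  have ha' : (2 : ℝ) ≤ a := by exact_mod_cast ha
  have h1 : b ^ N + k ≤ b ^ (N + k) := by
    induction k with
    | zero => simp
    | succ k ih =>
      rw [← add_assoc N k 1, pow_succ]
      have h2 : 1 ≤ b ^ (N + k) := Nat.one_le_pow _ _ (by omega)
      nlinarith
  rw [div_mul_eq_mul_div, one_mul, div_le_div_iff₀ (by positivity) (by positivity), one_mul]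
  calc (a : ℝ) ^ (b ^ N) = (1 / 2) ^ k * ((a : ℝ) ^ (b ^ N) * 2 ^ k) := by
        rw [mul_left_comm, ← mul_pow]
        norm_num
    _ ≤ (1 / 2) ^ k * ((a : ℝ) ^ (b ^ N) * (a : ℝ) ^ k) := by gcongr
    _ = (1 / 2) ^ k * (a : ℝ) ^ (b ^ N + k) := by rw [pow_add]
    _ ≤ (1 / 2) ^ k * (a : ℝ) ^ (b ^ (N + k)) := by
        gcongr
        linarith

theorem summable_series (ha : 2 ≤ a) (hb : 2 ≤ b) :
    Summable fun n : ℕ => 1 / (a : ℝ) ^ (b ^ n) := by
  refine Summable.of_nonneg_of_le (fun n => by positivity) (fun n => ?_)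
    ((summable_geometric_two).mul_left (1 / (a : ℝ) ^ (b ^ 0)))
  have := pow_le ha hb 0 n
  rwa [zero_add] at this

theorem exists_numerator (ha : 2 ≤ a) (hb : 2 ≤ b) (N : ℕ) :
    ∃ z : ℤ, ∑ n ∈ Finset.range (N + 1), 1 / (a : ℝ) ^ (b ^ n) = z / (a : ℝ) ^ (b ^ N) := by
  have ha0 : (a : ℝ) ≠ 0 := by positivity
  refine ⟨∑ n ∈ Finset.range (N + 1), (a : ℤ) ^ (b ^ N - b ^ n), ?_⟩
  push_cast
  rw [Finset.sum_div]
  refine Finset.sum_congr rfl fun n hn => ?_
  have h1 : b ^ n ≤ b ^ N :=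
    Nat.pow_le_pow_right (by omega) (Nat.lt_succ_iff.mp (Finset.mem_range.mp hn))
  rw [div_eq_div_iff (by positivity) (by positivity), one_mul, ← pow_add,
    Nat.sub_add_cancel h1]

theorem liouvilleWith_series (ha : 2 ≤ a) (hb : 2 ≤ b) :
    LiouvilleWith (b : ℝ) (∑' n : ℕ, 1 / (a : ℝ) ^ (b ^ n)) := by
  have ha' : (2 : ℝ) ≤ a := by exact_mod_cast ha
  refine ⟨3, ?_⟩
  rw [Filter.frequently_atTop]
  intro M
  obtain ⟨z, hz⟩ := exists_numerator ha hb M
  refine ⟨a ^ (b ^ M), ?_, z, ?_⟩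
  · have h1 : M < b ^ M := Nat.lt_pow_self (by omega)
    have h2 : b ^ M < a ^ (b ^ M) := Nat.lt_pow_self (by omega)
    exact (h1.trans h2).le
  · have hsum := (summable_series ha hb).sum_add_tsum_nat_add (M + 1)
    rw [hz] at hsum
    have hs : Summable fun k : ℕ => 1 / (a : ℝ) ^ (b ^ (k + (M + 1))) :=
      (summable_nat_add_iff (f := fun n : ℕ => 1 / (a : ℝ) ^ (b ^ n)) (M + 1)).mpr
        (summable_series ha hb)
    set t := ∑' k : ℕ, 1 / (a : ℝ) ^ (b ^ (k + (M + 1))) with ht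
    have htpos : 0 < t := by
      have h0 : ∀ k : ℕ, 0 < 1 / (a : ℝ) ^ (b ^ (k + (M + 1))) := fun k => by positivity
      exact hs.tsum_pos (fun k => (h0 k).le) 0 (h0 0)
    have htle : t ≤ 2 * (1 / (a : ℝ) ^ (b ^ (M + 1))) := by
      have h1 : HasSum (fun k : ℕ => 1 / (a : ℝ) ^ (b ^ (M + 1)) * (1 / 2) ^ k)
          (1 / (a : ℝ) ^ (b ^ (M + 1)) * 2) := hasSum_geometric_two.mul_left _
      rw [mul_comm, ← h1.tsum_eq]
      refine Summable.tsum_le_tsum (fun k => ?_) hs h1.summable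
      rw [add_comm k]
      exact pow_le ha hb (M + 1) k
    push_cast
    rw [← hsum, add_sub_cancel_left, abs_of_pos htpos]
    refine ⟨fun h => ?_, ?_⟩
    · linarith
    · have h2 : ((a : ℝ) ^ (b ^ M)) ^ (b : ℝ) = (a : ℝ) ^ (b ^ (M + 1)) := by
        rw [Real.rpow_natCast, ← pow_mul, pow_succ]
      rw [h2]
      refine htle.trans_lt ?_
      rw [mul_one_div]
      exact div_lt_div_of_pos_right (by norm_num) (by positivity)

/-- `∑ a^(-b^n)` is transcendental for integers `a ≥ 2`, `b ≥ 3` -/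
theorem transcendental_series (h : RothStmt) (ha : 2 ≤ a) (hb : 3 ≤ b) :
    Transcendental ℚ (∑' n : ℕ, 1 / (a : ℝ) ^ (b ^ n)) :=
  transcendental_of_liouvilleWith h (p := (b : ℝ)) (by
    have : (3 : ℝ) ≤ b := by exact_mod_cast hb
    linarith) (liouvilleWith_series ha (by omega))

end Series

end Fermat.Agent.Cor.Roth.Conseq
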