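/-
Roth's theorem: counting (helper85).
-/
import Fermat.Agent.Corollaries.Roth.Defs

/-!
# Roth's theorem: counting exponents (Chebyshev's inequality)

`countStmt : CountStmt`.
-/

set_option autoImplicit false

open Finset

namespace Fermat.Agent.Cor.Roth

namespace Count

/-- The centred variable. -/
noncomputable def y {m : ℕ} (r I : Fin m → ℕ) (i : Fin m) : ℝ := (I i : ℝ) / r i - 1 / 2

lemma sum_cross {m : ℕ} {r : Fin m → ℕ} (hr : ∀ i, 0 < r i) {i j : Fin m} (hij : i ≠ j) :
    ∑ I ∈ Fintype.piFinset fun i => range (r i + 1), y r I i * y r I j = 0 := by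
  classical
  set Box := Fintype.piFinset fun i => range (r i + 1) with hBox
  have hmem : ∀ {I : Fin m → ℕ}, I ∈ Box ↔ ∀ i, I i ≤ r i := by
    intro I
    rw [hBox, Fintype.mem_piFinset]
    exact forall_congr' fun i => by rw [mem_range, Nat.lt_succ_iff]
  set σ : (Fin m → ℕ) → (Fin m → ℕ) := fun I => Function.update I i (r i - I i) with hσ
  have h1 : ∀ I ∈ Box, σ I ∈ Box := by
    intro I hI
    rw [hmem] at hI ⊢
    intro k
    by_cases hk : k = i
    · subst hk; simp [hσ]
    · simp only [hσ, Function.update_of_ne hk]; exact hI k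
  have h2 : ∀ I ∈ Box, σ (σ I) = I := by
    intro I hI
    funext k
    by_cases hk : k = i
    · subst hk
      simp only [hσ, Function.update_self]
      exact Nat.sub_sub_self (hmem.1 hI k)
    · simp only [hσ, Function.update_of_ne hk]
  have h3 : ∀ I ∈ Box, y r I i * y r I j = -(y r (σ I) i * y r (σ I) j) := by
    intro I hI
    have hri : (r i : ℝ) ≠ 0 := by exact_mod_cast (hr i).ne'
    have e1 : y r (σ I) i = -y r I i := by
      simp only [y, hσ, Function.update_self]
      rw [Nat.cast_sub (hmem.1 hI i)]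
      field_simp
      ring
    have e2 : y r (σ I) j = y r I j := by
      simp only [y, hσ, Function.update_of_ne hij.symm]
    rw [e1, e2]; ring
  have h4 : ∑ I ∈ Box, y r I i * y r I j = ∑ I ∈ Box, -(y r I i * y r I j) :=
    sum_nbij' σ σ h1 h1 h2 h2 h3
  rw [sum_neg_distrib] at h4
  linarith

end Count

open _root_.Fermat.Agent.Cor.Roth.Count

/-- **Counting** (Chebyshev's inequality for the independent variables `I_i / r_i`). -/
theorem countStmt : CountStmt := by
  classical
  intro m r hm hr ε hε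
  set Box := Fintype.piFinset fun i => range (r i + 1) with hBox
  have hmem : ∀ {I : Fin m → ℕ}, I ∈ Box ↔ ∀ i, I i ≤ r i := by
    intro I
    rw [hBox, Fintype.mem_piFinset]
    exact forall_congr' fun i => by rw [mem_range, Nat.lt_succ_iff]
  have hcard : (Box.card : ℝ) = ∏ i, ((r i : ℝ) + 1) := by
    rw [hBox, Fintype.card_piFinset]
    push_cast
    exact prod_congr rfl fun i _ => by rw [card_range]; push_cast; rfl
  rw [← hcard]
  have hm' : (0 : ℝ) < m := by exact_mod_cast hm
  set F := Box.filter fun I : Fin m → ℕ => ∑ i, (I i : ℝ) / r i < m * (1 / 2 - ε) with hF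
  -- the second moment
  have hsum : ∑ I ∈ Box, (∑ i, y r I i) ^ 2 ≤ Box.card * (m * (1 / 4)) := by
    have h1 : ∀ I : Fin m → ℕ, (∑ i, y r I i) ^ 2 = ∑ i, ∑ j, y r I i * y r I j := by
      intro I
      rw [sq, sum_mul_sum]
    simp_rw [h1]
    rw [sum_comm]
    have h2 : ∀ i : Fin m, ∑ I ∈ Box, ∑ j, y r I i * y r I j ≤ Box.card * (1 / 4) := by
      intro i
      rw [sum_comm, sum_eq_single i]
      · have h3 : ∀ I ∈ Box, y r I i * y r I i ≤ 1 / 4 := by
          intro I hI
          have h4 := hmem.1 hI i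
          have hri : (0 : ℝ) < r i := by exact_mod_cast hr i
          have h5 : (I i : ℝ) / r i ≤ 1 := by
            rw [div_le_one hri]; exact_mod_cast h4
          have h6 : 0 ≤ (I i : ℝ) / r i := by positivity
          simp only [y]
          nlinarith
        refine (sum_le_card_nsmul _ _ _ h3).trans (le_of_eq ?_)
        rw [nsmul_eq_mul]
      · intro j _ hj
        exact sum_cross hr (Ne.symm hj)
      · intro h; exact absurd (mem_univ _) h
    refine (sum_le_sum fun i _ => h2 i).trans (le_of_eq ?_)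
    rw [sum_const, card_univ, Fintype.card_fin, nsmul_eq_mul]
    ring
  have hlow : (F.card : ℝ) * (m * ε) ^ 2 ≤ ∑ I ∈ Box, (∑ i, y r I i) ^ 2 := by
    have h1 : (F.card : ℝ) * (m * ε) ^ 2 ≤ ∑ I ∈ F, (∑ i, y r I i) ^ 2 := by
      rw [← nsmul_eq_mul]
      refine card_nsmul_le_sum _ _ _ fun I hI => ?_
      have h2 := (mem_filter.1 hI).2
      have h3 : ∑ i, y r I i = ∑ i, (I i : ℝ) / r i - m * (1 / 2) := by
        simp only [y]
        rw [sum_sub_distrib, sum_const, card_univ, Fintype.card_fin, nsmul_eq_mul]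
      have h4 : ∑ i, y r I i ≤ -(m * ε) := by
        rw [h3]; linarith
      have h5 : 0 ≤ m * ε := by positivity
      nlinarith
    exact h1.trans (sum_le_sum_of_subset_of_nonneg (filter_subset _ _) fun _ _ _ => sq_nonneg _)
  rw [le_div_iff₀ (by positivity)]
  have h1 : (F.card : ℝ) * (m * ε) ^ 2 ≤ Box.card * (m * (1 / 4)) := hlow.trans hsum
  have h2 : (F.card : ℝ) * (4 * ε ^ 2 * m) * (m * (1 / 4)) ≤ Box.card * (m * (1 / 4)) := by
    calc (F.card : ℝ) * (4 * ε ^ 2 * m) * (m * (1 / 4)) = (F.card : ℝ) * (m * ε) ^ 2 := by ring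
      _ ≤ _ := h1
  exact le_of_mul_le_mul_right h2 (by positivity)

end Fermat.Agent.Cor.Roth
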