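import Fermat.Agent.Corollaries.Roth.Defs

/-!
# Degrees and height of the generalised Wronskian
-/

set_option autoImplicit false

open MvPolynomial

namespace Fermat.Agent.Cor.Roth.Det

open Fermat.Agent.Cor.Roth

variable {m : ℕ}

theorem natAbs_coeff_le (P : MvPolynomial (Fin m) ℤ) (I : Fin m →₀ ℕ) :
    (coeff I P).natAbs ≤ ht P := by
  by_cases h : I ∈ P.support
  · exact Finset.le_sup (f := fun I => (coeff I P).natAbs) h
  · rw [notMem_support_iff.mp h, Int.natAbs_zero]
    exact Nat.zero_le _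

theorem ht_le {P : MvPolynomial (Fin m) ℤ} {H : ℕ} (h : ∀ I, (coeff I P).natAbs ≤ H) :
    ht P ≤ H :=
  Finset.sup_le fun I _ => h I

theorem le_degreeOf {P : MvPolynomial (Fin m) ℤ} {I : Fin m →₀ ℕ} (h : I ∈ P.support)
    (i : Fin m) : I i ≤ degreeOf i P := by
  rw [degreeOf_eq_sup]
  exact Finset.le_sup (f := fun I : Fin m →₀ ℕ => I i) h

/-! ### Divided derivatives -/

theorem coeff_hd (I J : Fin m →₀ ℕ) (P : MvPolynomial (Fin m) ℤ) :
    coeff I (hd J P) = coeff (I + J) P * ∏ i, (((I + J) i).choose (J i) : ℤ) := by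
  classical
  rw [hd, coeff_sum]
  have h1 : ∀ J' ∈ P.support, J' ≠ I + J →
      coeff I (monomial (J' - J) (coeff J' P * ∏ i, ((J' i).choose (J i) : ℤ))) = 0 := by
    intro J' _ hne
    rw [coeff_monomial]
    split_ifs with h
    · by_cases hle : J ≤ J'
      · exact absurd (by rw [← h, tsub_add_cancel_of_le hle]) hne
      · have h2 : ∃ i, J' i < J i := by
          by_contra hcon
          push Not at hcon
          exact hle fun i => hcon i
        obtain ⟨i, hi⟩ := h2
        rw [Finset.prod_eq_zero (Finset.mem_univ i)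
          (by rw [Nat.choose_eq_zero_of_lt hi, Nat.cast_zero]), mul_zero]
    · rfl
  by_cases hs : I + J ∈ P.support
  · rw [Finset.sum_eq_single_of_mem (I + J) hs h1, add_tsub_cancel_right, coeff_monomial,
      if_pos rfl]
  · rw [Finset.sum_eq_zero fun J' hJ' => h1 J' hJ' fun h => hs (h ▸ hJ'),
      notMem_support_iff.mp hs, zero_mul]

theorem degreeOf_hd_le (J : Fin m →₀ ℕ) (P : MvPolynomial (Fin m) ℤ) (i : Fin m) :
    degreeOf i (hd J P) ≤ degreeOf i P := by
  classical
  rw [degreeOf_le_iff]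
  intro I hI
  rw [mem_support_iff, coeff_hd] at hI
  have h1 : I + J ∈ P.support := by
    rw [mem_support_iff]
    exact left_ne_zero_of_mul hI
  have h2 := le_degreeOf h1 i
  rw [Finsupp.add_apply] at h2
  omega

theorem ht_hd_le (J : Fin m →₀ ℕ) {P : MvPolynomial (Fin m) ℤ} {r : Fin m → ℕ}
    (hr : ∀ i, degreeOf i P ≤ r i) : ht (hd J P) ≤ 2 ^ (∑ i, r i) * ht P := by
  refine ht_le fun I => ?_
  rw [coeff_hd, Int.natAbs_mul]
  by_cases hs : I + J ∈ P.support
  · have h1 : (∏ i, (((I + J) i).choose (J i) : ℤ)).natAbs = ∏ i, ((I + J) i).choose (J i) := by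
      rw [← Nat.cast_prod, Int.natAbs_natCast]
    rw [h1, mul_comm]
    refine Nat.mul_le_mul ?_ (natAbs_coeff_le P _)
    rw [← Finset.prod_pow_eq_pow_sum]
    refine Finset.prod_le_prod' fun i _ => ?_
    exact (Nat.choose_le_two_pow _ _).trans
      (Nat.pow_le_pow_right (by norm_num) ((le_degreeOf hs i).trans (hr i)))
  · rw [notMem_support_iff.mp hs, Int.natAbs_zero, zero_mul]
    exact Nat.zero_le _

/-! ### Products -/

theorem card_support_le {f : MvPolynomial (Fin m) ℤ} {r : Fin m → ℕ}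
    (hr : ∀ i, degreeOf i f ≤ r i) : f.support.card ≤ 2 ^ (∑ i, r i) := by
  classical
  have h1 : f.support ⊆ Finset.finsupp Finset.univ fun i => Finset.range (r i + 1) := by
    intro I hI
    rw [Finset.mem_finsupp_iff]
    refine ⟨Finset.subset_univ _, fun i _ => ?_⟩
    rw [Finset.mem_range]
    have := (le_degreeOf hI i).trans (hr i)
    omega
  refine (Finset.card_le_card h1).trans ?_
  rw [Finset.card_finsupp, ← Finset.prod_pow_eq_pow_sum]
  refine Finset.prod_le_prod' fun i _ => ?_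
  rw [Finset.card_range]
  exact Nat.lt_two_pow_self

theorem ht_mul_le (f g : MvPolynomial (Fin m) ℤ) :
    ht (f * g) ≤ f.support.card * ht f * ht g := by
  classical
  refine ht_le fun I => ?_
  rw [coeff_mul]
  have h1 : ∑ x ∈ Finset.HasAntidiagonal.antidiagonal I, coeff x.1 f * coeff x.2 g =
      ∑ x ∈ (Finset.HasAntidiagonal.antidiagonal I).filter (fun x => x.1 ∈ f.support),
        coeff x.1 f * coeff x.2 g := by
    rw [Finset.sum_filter]
    refine Finset.sum_congr rfl fun x _ => ?_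
    split_ifs with h
    · rfl
    · rw [notMem_support_iff.mp h, zero_mul]
  rw [h1]
  refine (Int.natAbs_sum_le _ _).trans ?_
  have h2 : ∀ x ∈ (Finset.HasAntidiagonal.antidiagonal I).filter (fun x => x.1 ∈ f.support),
      (coeff x.1 f * coeff x.2 g).natAbs ≤ ht f * ht g := by
    intro x _
    rw [Int.natAbs_mul]
    exact Nat.mul_le_mul (natAbs_coeff_le f _) (natAbs_coeff_le g _)
  refine (Finset.sum_le_card_nsmul _ _ _ h2).trans ?_
  rw [smul_eq_mul, mul_assoc]
  refine Nat.mul_le_mul_right _ ?_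
  refine Finset.card_le_card_of_injOn (fun x => x.1) (fun x hx => ?_) ?_
  · exact (Finset.mem_filter.mp hx).2
  · intro x hx y hy hxy
    have h3 := Finset.HasAntidiagonal.mem_antidiagonal.mp (Finset.mem_filter.mp hx).1
    have h4 := Finset.HasAntidiagonal.mem_antidiagonal.mp (Finset.mem_filter.mp hy).1
    simp only at hxy
    refine Prod.ext hxy ?_
    rw [← h4, hxy] at h3
    exact add_left_cancel h3

theorem ht_one_le : ht (1 : MvPolynomial (Fin m) ℤ) ≤ 1 := by
  classical
  refine ht_le fun I => ?_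
  rw [coeff_one]
  split_ifs <;> simp

theorem ht_prod_le {ι : Type*} (s : Finset ι) (f : ι → MvPolynomial (Fin m) ℤ) {r : Fin m → ℕ}
    {H : ℕ} (hr : ∀ j ∈ s, ∀ i, degreeOf i (f j) ≤ r i) (hH : ∀ j ∈ s, ht (f j) ≤ H) :
    ht (∏ j ∈ s, f j) ≤ (2 ^ (∑ i, r i) * H) ^ s.card := by
  classical
  induction s using Finset.induction_on with
  | empty =>
    rw [Finset.prod_empty, Finset.card_empty, pow_zero]
    exact ht_one_le
  | insert a s ha ih =>
    rw [Finset.prod_insert ha, Finset.card_insert_of_notMem ha, pow_succ']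
    have h1 := ih (fun j hj => hr j (Finset.mem_insert_of_mem hj))
      (fun j hj => hH j (Finset.mem_insert_of_mem hj))
    refine (ht_mul_le _ _).trans (Nat.mul_le_mul ?_ h1)
    exact Nat.mul_le_mul (card_support_le (hr a (Finset.mem_insert_self a s)))
      (hH a (Finset.mem_insert_self a s))

theorem ht_sum_le {ι : Type*} (s : Finset ι) (f : ι → MvPolynomial (Fin m) ℤ) {H : ℕ}
    (hH : ∀ j ∈ s, ht (f j) ≤ H) : ht (∑ j ∈ s, f j) ≤ s.card * H := by
  refine ht_le fun I => ?_
  rw [coeff_sum]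
  refine (Int.natAbs_sum_le _ _).trans ?_
  refine (Finset.sum_le_card_nsmul _ _ _ fun j hj => (natAbs_coeff_le (f j) I).trans
    (hH j hj)).trans ?_
  rw [smul_eq_mul]

theorem ht_smul_sign_le {k : ℕ} (σ : Equiv.Perm (Fin k)) (f : MvPolynomial (Fin m) ℤ) :
    ht (Equiv.Perm.sign σ • f) ≤ ht f := by
  refine ht_le fun I => ?_
  rw [Units.smul_def, coeff_smul, smul_eq_mul, Int.natAbs_mul, Int.units_natAbs, one_mul]
  exact natAbs_coeff_le f I

theorem degreeOf_smul_sign_le {k : ℕ} (σ : Equiv.Perm (Fin k)) (f : MvPolynomial (Fin m) ℤ)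
    (i : Fin m) : degreeOf i (Equiv.Perm.sign σ • f) ≤ degreeOf i f := by
  classical
  rw [degreeOf_le_iff]
  intro I hI
  refine le_degreeOf ?_ i
  rw [mem_support_iff] at hI ⊢
  intro h
  apply hI
  rw [Units.smul_def, coeff_smul, h, smul_zero]

theorem detStmt : DetStmt := by
  classical
  intro m k r I P hP hr hdeg hk
  have hdeg' : ∀ (σ : Equiv.Perm (Fin k)) (j : Fin k), ∀ i,
      degreeOf i (hd (Finsupp.cons (j : ℕ) (I (σ j))) P) ≤ r i := fun σ j i =>
    (degreeOf_hd_le _ _ i).trans (hdeg i)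
  have hdet : wdet I P = ∑ σ : Equiv.Perm (Fin k), Equiv.Perm.sign σ •
      ∏ j : Fin k, hd (Finsupp.cons (j : ℕ) (I (σ j))) P := by
    rw [wdet, Matrix.det_apply]
    rfl
  constructor
  · intro i
    rw [hdet]
    refine (degreeOf_sum_le i _ _).trans (Finset.sup_le fun σ _ => ?_)
    refine (degreeOf_smul_sign_le σ _ i).trans ((degreeOf_prod_le i _ _).trans ?_)
    refine (Finset.sum_le_card_nsmul _ _ (r i) fun j _ => hdeg' σ j i).trans ?_
    rw [Finset.card_univ, Fintype.card_fin, smul_eq_mul]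
  · rw [hdet]
    have h1 : ∀ σ ∈ (Finset.univ : Finset (Equiv.Perm (Fin k))), ht (Equiv.Perm.sign σ •
        ∏ j : Fin k, hd (Finsupp.cons (j : ℕ) (I (σ j))) P) ≤
        (2 ^ (∑ i, r i) * (2 ^ (∑ i, r i) * ht P)) ^ k := by
      intro σ _
      refine (ht_smul_sign_le σ _).trans ?_
      have := ht_prod_le Finset.univ (fun j : Fin k => hd (Finsupp.cons (j : ℕ) (I (σ j))) P)
        (r := r) (H := 2 ^ (∑ i, r i) * ht P) (fun j _ i => hdeg' σ j i)
        (fun j _ => ht_hd_le _ hdeg)
      rwa [Finset.card_univ, Fintype.card_fin] at this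
    refine (ht_sum_le _ _ h1).trans ?_
    rw [Finset.card_univ, Fintype.card_perm, Fintype.card_fin]
    have h2 : k.factorial ≤ (2 ^ (∑ i, r i)) ^ k := by
      refine (Nat.factorial_le_pow k).trans (Nat.pow_le_pow_left ?_ k)
      refine hk.trans ?_
      have h3 : r 0 + 1 ≤ 2 ^ r 0 := Nat.lt_two_pow_self
      refine h3.trans (Nat.pow_le_pow_right (by norm_num) ?_)
      exact Finset.single_le_sum (f := r) (fun _ _ => Nat.zero_le _) (Finset.mem_univ 0)
    calc k.factorial * (2 ^ (∑ i, r i) * (2 ^ (∑ i, r i) * ht P)) ^ k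
        ≤ (2 ^ (∑ i, r i)) ^ k * (2 ^ (∑ i, r i) * (2 ^ (∑ i, r i) * ht P)) ^ k :=
          Nat.mul_le_mul_right _ h2
      _ = (8 ^ (∑ i, r i) * ht P) ^ k := by
          rw [← mul_pow]
          congr 1
          rw [show (8 : ℕ) = 2 * (2 * 2) by norm_num, mul_pow, mul_pow]
          ring

end Fermat.Agent.Cor.Roth.Det
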