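import Fermat.Agent.Corollaries.Roth.Form
import Fermat.Agent.Corollaries.Thue.Examples

/-!
# Small values of `a x ^ n - b y ^ n`

Consequences of Roth's theorem for diagonal forms, and for the distance between an `n`-th power and
a multiple of an `n`-th power.
-/

set_option autoImplicit false

open Polynomial Finset

namespace Fermat.Agent.Cor.Roth

open Fermat.Agent.Cor.Thue (form)

namespace Diag

variable {a b : ℤ} {n : ℕ}

theorem squarefree_map (ha : a ≠ 0) (hb : b ≠ 0) (hn : n ≠ 0) :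
    Squarefree ((C a * X ^ n - C b : ℤ[X]).map (Int.castRingHom ℚ)) := by
  have ha' : (a : ℚ) ≠ 0 := by exact_mod_cast ha
  have hb' : (b : ℚ) ≠ 0 := by exact_mod_cast hb
  have hn' : (n : ℚ) ≠ 0 := by exact_mod_cast hn
  have h1 : (C a * X ^ n - C b : ℤ[X]).map (Int.castRingHom ℚ) =
      C (a : ℚ) * (X ^ n - C ((b : ℚ) / a)) := by
    rw [Polynomial.map_sub, Polynomial.map_mul, Polynomial.map_pow, map_X, map_C, map_C,
      mul_sub, ← C_mul, mul_div_cancel₀ _ ha']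
    rfl
  rw [h1]
  have h2 : (X ^ n - C ((b : ℚ) / a)).Separable :=
    separable_X_pow_sub_C _ hn' (div_ne_zero hb' ha')
  exact (Separable.unit_mul (isUnit_C.mpr (IsUnit.mk0 _ ha')) h2).squarefree

theorem natDegree_eq (ha : a ≠ 0) : (C a * X ^ n - C b : ℤ[X]).natDegree = n := by
  rw [natDegree_sub_C, natDegree_C_mul_X_pow n a ha]

theorem form_eq (ha : a ≠ 0) (x y : ℤ) :
    form (C a * X ^ n - C b) (C a * X ^ n - C b : ℤ[X]).natDegree x y =
      a * x ^ n - b * y ^ n := by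
  have h1 : ∀ i ∈ range (n + 1), (C a * X ^ n - C b : ℤ[X]).coeff i * x ^ i * y ^ (n - i)
      = (if i = n then a * x ^ i * y ^ (n - i) else 0)
        - (if i = 0 then b * x ^ i * y ^ (n - i) else 0) := by
    intro i _
    rw [coeff_sub, coeff_C_mul, coeff_X_pow, coeff_C]
    split_ifs <;> ring
  rw [form, natDegree_eq ha, sum_congr rfl h1, sum_sub_distrib, sum_ite_eq' (range (n + 1)) n,
    sum_ite_eq' (range (n + 1)) 0, if_pos (by simp), if_pos (by simp)]
  simp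

end Diag

/-- For integers `a, b ≠ 0`, `n ≥ 3`, `0 ≤ μ < n - 2` and real `K` there are only finitely many pairs
of integers with `0 < |a x ^ n - b y ^ n| ≤ K max(|x|, |y|)^μ`. -/
theorem finite_diagonal_le {a b : ℤ} (ha : a ≠ 0) (hb : b ≠ 0) {n : ℕ} (hn : 3 ≤ n) (K : ℝ)
    {μ : ℝ} (hμ0 : 0 ≤ μ) (hμ : μ < n - 2) :
    {p : ℤ × ℤ | a * p.1 ^ n - b * p.2 ^ n ≠ 0 ∧
      |((a * p.1 ^ n - b * p.2 ^ n : ℤ) : ℝ)| ≤ K * max |(p.1 : ℝ)| |(p.2 : ℝ)| ^ μ}.Finite := by
  have h := finite_form_le (Diag.squarefree_map ha hb (n := n) (by omega))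
    (by rw [Diag.natDegree_eq ha]; exact hn) K hμ0 (by rw [Diag.natDegree_eq ha]; exact hμ)
  simp only [Diag.form_eq ha] at h
  exact h

/-- The equation `a x ^ n - b y ^ n = G(x, y)` with `G(x, y) ≠ 0` and a polynomial `G` of total degree
`≤ n - 3` has only finitely many integral solutions. -/
theorem finite_diagonal_eq {a b : ℤ} (ha : a ≠ 0) (hb : b ≠ 0) {n : ℕ}
    (G : MvPolynomial (Fin 2) ℤ) (hG : G.totalDegree + 3 ≤ n) :
    {p : ℤ × ℤ | a * p.1 ^ n - b * p.2 ^ n = MvPolynomial.eval ![p.1, p.2] G ∧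
      MvPolynomial.eval ![p.1, p.2] G ≠ 0}.Finite := by
  have h := finite_form_eq (Diag.squarefree_map ha hb (n := n) (by omega)) G
    (by rw [Diag.natDegree_eq ha]; exact hG)
  simp only [Diag.form_eq ha] at h
  refine h.subset fun p hp => ⟨hp.1, ?_⟩
  rw [hp.1]
  exact hp.2

/-- `n ≥ 3`, `b` not an `n`-th power, `ε > 0`: for all but finitely many pairs of integers the
distance of `x ^ n` and `b y ^ n` is at least `max(|x|, |y|)^(n - 2 - ε)`. -/
theorem finite_pow_sub_lt {b : ℤ} {n : ℕ} (hn : 3 ≤ n) (hb : ∀ x : ℤ, x ^ n ≠ b) {ε : ℝ}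
    (hε : 0 < ε) (hε' : ε ≤ n - 2) :
    {p : ℤ × ℤ | p.2 ≠ 0 ∧
      |((p.1 ^ n - b * p.2 ^ n : ℤ) : ℝ)| < max |(p.1 : ℝ)| |(p.2 : ℝ)| ^ (n - 2 - ε)}.Finite := by
  have hb0 : b ≠ 0 := fun h => hb 0 (by rw [h, zero_pow (by omega)])
  refine (finite_diagonal_le one_ne_zero hb0 hn 1 (μ := n - 2 - ε) (by linarith)
    (by linarith)).subset fun p hp => ⟨fun h => ?_, ?_⟩
  · obtain ⟨x, y⟩ := p
    have hy : y ≠ 0 := hp.1
    simp only [one_mul] at h
    have h1 : x ^ n = b * y ^ n := by linarith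
    have h2 : y ^ n ∣ x ^ n := ⟨b, by rw [h1]; ring⟩
    rw [Int.pow_dvd_pow_iff (by omega)] at h2
    obtain ⟨z, rfl⟩ := h2
    refine hb z ?_
    have h3 : y ^ n * z ^ n = y ^ n * b := by rw [← mul_pow, h1]; ring
    exact mul_left_cancel₀ (pow_ne_zero _ hy) h3
  · rw [one_mul, one_mul]
    exact hp.2.le

end Fermat.Agent.Cor.Roth
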