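import Fermat.Agent.Corollaries.Roth.Bound

/-!
# Roth's theorem from Roth's lemma and the auxiliary polynomial
-/

set_option autoImplicit false

open MvPolynomial

namespace Fermat.Agent.Cor.Roth.Fin

/-- only finitely many rational numbers with bounded denominator in a bounded interval -/
theorem finite_den_le (α : ℝ) (N : ℕ) : {x : ℚ | |α - x| < 1 ∧ x.den ≤ N}.Finite := by
  set M : ℤ := ⌈(|α| + 1) * N⌉ with hM
  refine Set.Finite.of_finite_image (f := fun x : ℚ => (x.num, x.den)) ?_ ?_
  · refine ((Set.finite_Icc (-M) M).prod (Set.finite_Iic N)).subset ?_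
    rintro _ ⟨x, ⟨hx, hN⟩, rfl⟩
    refine ⟨?_, hN⟩
    have h1 : |(x : ℝ)| ≤ |α| + 1 := by
      have := abs_sub_abs_le_abs_sub (x : ℝ) α
      rw [abs_sub_comm] at this
      linarith
    have h2 : |(x.num : ℝ)| ≤ (|α| + 1) * N := by
      have h3 : (x.num : ℝ) = x * x.den := by
        have := Rat.mul_den_eq_num x
        exact_mod_cast this.symm
      rw [h3, abs_mul, Nat.abs_cast]
      have h4 : (x.den : ℝ) ≤ N := by exact_mod_cast hN
      have h5 : (0 : ℝ) ≤ x.den := Nat.cast_nonneg _
      exact mul_le_mul h1 h4 h5 (by positivity)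
    have h6 : (|x.num| : ℤ) ≤ M := by
      have h7 : ((|x.num| : ℤ) : ℝ) ≤ M := by
        rw [Int.cast_abs]
        exact h2.trans (Int.le_ceil _)
      exact_mod_cast h7
    exact abs_le.mp h6
  · intro x _ y _ h
    simp only [Prod.mk.injEq] at h
    exact Rat.ext h.1 h.2

/-- in an infinite set of good approximations there are arbitrarily large denominators -/
theorem exists_large {S : Set ℚ} (hS : S.Infinite) {α : ℝ} (h1 : ∀ x ∈ S, |α - x| < 1)
    (L : ℝ) : ∃ x ∈ S, L ≤ Real.log x.den := by
  obtain ⟨N, hN⟩ := exists_nat_ge (Real.exp L)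
  by_contra hcon
  push Not at hcon
  refine hS ((finite_den_le α N).subset fun x hx => ⟨h1 x hx, ?_⟩)
  have h2 := hcon x hx
  have h3 : (x.den : ℝ) < Real.exp L := by
    rw [← Real.log_lt_iff_lt_exp (by exact_mod_cast x.den_pos)]
    exact h2
  have h4 : (x.den : ℝ) ≤ N := (h3.le).trans hN
  exact_mod_cast h4

/-- the sequence of approximations -/
theorem exists_chain {S : Set ℚ} (hS : S.Infinite) {α : ℝ} (h1 : ∀ x ∈ S, |α - x| < 1)
    {L T : ℝ} (hL : 0 < L) (hT : 1 ≤ T) (m : ℕ) : ∃ x : Fin m → ℚ, (∀ i, x i ∈ S) ∧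
      (∀ i, L ≤ Real.log (x i).den) ∧
      ∀ i j : Fin m, (i : ℕ) + 1 = j → T * Real.log (x j).den ≤ Real.log (x i).den := by
  choose f hf hf' using exists_large hS h1
  let s : ℕ → ℚ := fun n => Nat.rec (f L) (fun _ y => f (T * Real.log y.den)) n
  have hs0 : s 0 = f L := rfl
  have hsS : ∀ n, s (n + 1) = f (T * Real.log (s n).den) := fun n => rfl
  have hmem : ∀ n, s n ∈ S := by
    intro n
    cases n with
    | zero => rw [hs0]; exact hf _
    | succ n => rw [hsS]; exact hf _
  have hlog : ∀ n, L ≤ Real.log (s n).den := by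
    intro n
    induction n with
    | zero => rw [hs0]; exact hf' _
    | succ n ih =>
      rw [hsS]
      refine le_trans ?_ (hf' _)
      nlinarith
  refine ⟨fun i => s (m - 1 - i), fun i => hmem _, fun i => hlog _, fun i j hij => ?_⟩
  have h2 : m - 1 - (i : ℕ) = (m - 1 - (j : ℕ)) + 1 := by
    have := j.isLt
    omega
  change T * Real.log (s (m - 1 - (j : ℕ))).den ≤ Real.log (s (m - 1 - (i : ℕ))).den
  rw [h2, hsS]
  exact hf' _

set_option maxHeartbeats 800000 in
theorem rothStmt_of (hT : TaylorStmt) (hH : HdStmt) (hA : AuxStmt) (hR : ∀ m, RothLemma m) :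
    RothStmt := by
  -- reduction to `δ ≤ 1`
  have key : ∀ α : ℝ, IsAlgebraic ℚ α → ∀ δ : ℝ, 0 < δ → δ ≤ 1 →
      {x : ℚ | |α - x| < (x.den : ℝ) ^ (-(2 + δ))}.Finite := by
    intro α hα δ hδ hδ1
    by_contra hinf
    set S : Set ℚ := {x : ℚ | |α - x| < (x.den : ℝ) ^ (-(2 + δ))} with hSdef
    have hS : S.Infinite := hinf
    have hS1 : ∀ x ∈ S, |α - x| < 1 := by
      intro x hx
      refine lt_of_lt_of_le hx ?_
      refine Real.rpow_le_one_of_one_le_of_nonpos ?_ (by linarith)
      exact_mod_cast x.den_pos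
    obtain ⟨m, hm, B, hB, haux⟩ := hA α hα (δ / 20) (by positivity)
    obtain ⟨ω, hω, B', hB', hroth⟩ := hR m (δ / 40) (by positivity)
    set A : ℝ := max 1 |α| with hAdef
    have hA1 : 1 ≤ A := le_max_left _ _
    have hAα : |α| ≤ A := le_max_right _ _
    set D : ℝ := Real.log (16 * A) + B with hD
    have hlogA : 0 < Real.log (16 * A) := Real.log_pos (by linarith)
    have hD0 : 0 < D := by linarith
    have hmR : (0 : ℝ) < m := by exact_mod_cast hm
    set L : ℝ := 1 + 2 * m * (B + B') / ω + 40 * D / δ with hLdef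
    have hL1 : 1 ≤ L := by
      have h1 : 0 ≤ 2 * m * (B + B') / ω := by positivity
      have h2 : 0 ≤ 40 * D / δ := by positivity
      linarith
    have hLpos : 0 < L := by linarith
    set T : ℝ := max 1 (2 / ω) with hTdef
    have hT1 : 1 ≤ T := le_max_left _ _
    have hTω : 2 / ω ≤ T := le_max_right _ _
    obtain ⟨x, hxS, hxL, hxT⟩ := exists_chain hS hS1 hLpos hT1 m
    set l : Fin m → ℝ := fun i => Real.log (x i).den with hl
    have hlpos : ∀ i, 0 < l i := fun i => lt_of_lt_of_le hLpos (hxL i)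
    -- the large parameter
    set R : ℝ := 1 + ∑ i, l i * (20 / δ) with hRdef
    have hRl : ∀ i, l i * (20 / δ) ≤ R := by
      intro i
      have h1 := Finset.single_le_sum (f := fun i => l i * (20 / δ))
        (fun j _ => mul_nonneg (hlpos j).le (by positivity)) (Finset.mem_univ i)
      have h2 : l i * (20 / δ) ≤ ∑ i, l i * (20 / δ) := h1
      linarith
    have hRpos : 0 < R := by
      have h1 : 0 ≤ ∑ i, l i * (20 / δ) :=
        Finset.sum_nonneg fun j _ => mul_nonneg (hlpos j).le (by positivity)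
      linarith
    have hlR : ∀ i, l i ≤ δ / 20 * R := by
      intro i
      have h1 := mul_le_mul_of_nonneg_left (hRl i) (show 0 ≤ δ / 20 by positivity)
      have h2 : δ / 20 * (l i * (20 / δ)) = l i := by
        field_simp
      linarith
    set r : Fin m → ℕ := fun i => ⌈R / l i⌉₊ with hr
    have hr0 : ∀ i, 0 < r i := fun i => Nat.ceil_pos.mpr (div_pos hRpos (hlpos i))
    have hrl : ∀ i, R ≤ r i * l i := by
      intro i
      have h1 := Nat.le_ceil (R / l i)
      rwa [div_le_iff₀ (hlpos i)] at h1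
    have hru : ∀ i, (r i : ℝ) * l i ≤ (1 + δ / 20) * R := by
      intro i
      have h1 := (Nat.ceil_lt_add_one (div_pos hRpos (hlpos i)).le).le
      have h2 := mul_le_mul_of_nonneg_right h1 (hlpos i).le
      rw [add_mul, div_mul_cancel₀ _ (hlpos i).ne', one_mul] at h2
      have h3 := hlR i
      change ((⌈R / l i⌉₊ : ℕ) : ℝ) * l i ≤ _
      linarith
    have hrm : ∀ i, (r i : ℝ) ≤ 2 * R / L := by
      intro i
      rw [le_div_iff₀ hLpos]
      have h1 := mul_le_mul_of_nonneg_left (hxL i) (Nat.cast_nonneg (α := ℝ) (r i))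
      have h2 := hru i
      have h3 : (r i : ℝ) * L ≤ r i * l i := h1
      have h4 := mul_le_mul_of_nonneg_right hδ1 hRpos.le
      linarith
    have hsum : ∑ i, (r i : ℝ) ≤ m * (2 * R / L) := by
      have h1 := Finset.sum_le_card_nsmul Finset.univ (fun i => (r i : ℝ)) _ fun i _ => hrm i
      rw [Finset.card_univ, Fintype.card_fin, nsmul_eq_mul] at h1
      exact h1
    have hsum0 : 0 ≤ ∑ i, (r i : ℝ) := Finset.sum_nonneg fun i _ => Nat.cast_nonneg _
    -- the auxiliary polynomial
    obtain ⟨P, hP0, hPdeg, hPht, hPα⟩ := haux r hr0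
    have hlogP : Real.log (ht P) ≤ B * ∑ i, (r i : ℝ) := by
      rcases Nat.eq_zero_or_pos (ht P) with h0 | h0
      · rw [h0, Nat.cast_zero, Real.log_zero]
        positivity
      · rw [Real.log_le_iff_le_exp (by exact_mod_cast h0)]
        exact hPht
    obtain ⟨J, hJ, hJ0⟩ := hroth r (fun i => (x i).num) (fun i => (x i).den) P hr0 (by
        intro i j hij
        have h1 : T * l j ≤ l i := hxT i j hij
        have h2 := hru i
        have h3 := hrl j
        have h4 : 2 / ω * l j ≤ l i := (mul_le_mul_of_nonneg_right hTω (hlpos j).le).trans h1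
        have h5 : 2 * l j ≤ ω * l i := by
          rw [div_mul_eq_mul_div, div_le_iff₀ hω] at h4
          linarith
        have h6 : (r i : ℝ) * (2 * l j) ≤ ω * r j * (2 * l j) := by
          calc (r i : ℝ) * (2 * l j) ≤ r i * (ω * l i) :=
                mul_le_mul_of_nonneg_left h5 (Nat.cast_nonneg _)
            _ = ω * (r i * l i) := by ring
            _ ≤ ω * ((1 + δ / 20) * R) := mul_le_mul_of_nonneg_left h2 hω.le
            _ ≤ ω * (2 * R) := by
              refine mul_le_mul_of_nonneg_left ?_ hω.le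
              have h4 := mul_le_mul_of_nonneg_right hδ1 hRpos.le
              linarith
            _ ≤ ω * (2 * (r j * l j)) := by
              refine mul_le_mul_of_nonneg_left ?_ hω.le
              linarith
            _ = ω * r j * (2 * l j) := by ring
        exact le_of_mul_le_mul_right h6 (by have := hlpos j; linarith)) hP0 hPdeg (by
        intro i
        exact_mod_cast (x i).den_pos) (by
        intro i
        exact Rat.isCoprime_num_den (x i)) (by
        intro i
        have h1 : ω * R ≤ ω * (r i * Real.log (((x i).den : ℤ) : ℝ)) := by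
          rw [Int.cast_natCast]
          exact mul_le_mul_of_nonneg_left (hrl i) hω.le
        refine le_trans ?_ h1
        have h2 : Real.log (ht P) + B' * ∑ j, (r j : ℝ) ≤ (B + B') * ∑ j, (r j : ℝ) := by
          rw [add_mul]
          linarith
        refine h2.trans ?_
        have h3 : (B + B') * ∑ j, (r j : ℝ) ≤ (B + B') * (m * (2 * R / L)) :=
          mul_le_mul_of_nonneg_left hsum (by linarith)
        refine h3.trans ?_
        rw [mul_div_assoc', mul_div_assoc', div_le_iff₀ hLpos]
        have h4 : 2 * m * (B + B') / ω ≤ L := by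
          have h5 : 0 ≤ 40 * D / δ := by positivity
          linarith
        rw [div_le_iff₀ hω] at h4
        have h5 := mul_le_mul_of_nonneg_left h4 hRpos.le
        linarith)
    -- the two bounds
    have hxeq : (fun i => ((((x i).num : ℤ) : ℚ)) / (((x i).den : ℤ) : ℚ)) = x := by
      funext i
      rw [Int.cast_natCast]
      exact Rat.num_div_den (x i)
    rw [hxeq] at hJ0
    have hlow := Bound.le_abs_dv hT hPdeg x hJ0
    have hupp := Bound.abs_dv_le_exp hT hH hr0 hPdeg (a := fun _ => α)
      (x := fun i => ((x i : ℚ) : ℝ)) hA1 (fun _ => hAα) (κ := 2 + δ) (R := R) (l := l)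
      (by linarith) hRpos.le hrl (by
        intro i
        have h1 : |α - (x i : ℝ)| < ((x i).den : ℝ) ^ (-(2 + δ)) := hxS i
        rw [abs_sub_comm] at h1
        refine h1.le.trans ?_
        rw [Real.rpow_def_of_pos (by exact_mod_cast (x i).den_pos)]
        apply Real.exp_le_exp.mpr
        have : l i = Real.log ((x i).den : ℝ) := rfl
        rw [this]
        linarith) hPα hJ
    have hcmp := hlow.trans hupp
    have h16 : (16 * A) ^ (∑ i, r i) * (ht P : ℝ) ≤ Real.exp (D * ∑ i, (r i : ℝ)) := by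
      have h0 : (16 * A) ^ (∑ i, r i) = Real.exp (((∑ i, r i : ℕ) : ℝ) * Real.log (16 * A)) := by
        rw [Real.exp_nat_mul, Real.exp_log (by linarith)]
      have h1 : (16 * A) ^ (∑ i, r i) = Real.exp (Real.log (16 * A) * ∑ i, (r i : ℝ)) := by
        rw [h0, Nat.cast_sum, mul_comm (∑ i, (r i : ℝ))]
      rw [h1, hD, add_mul, Real.exp_add]
      exact mul_le_mul_of_nonneg_left hPht (Real.exp_pos _).le
    have h17 : Real.exp (-∑ i, r i * Real.log ((x i).den : ℝ)) ≤
        Real.exp (D * ∑ i, (r i : ℝ) + -((2 + δ) * R * (m * (1 / 2 - δ / 20) - δ / 40))) := by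
      rw [Real.exp_add]
      exact hcmp.trans (mul_le_mul_of_nonneg_right h16 (Real.exp_pos _).le)
    rw [Real.exp_le_exp] at h17
    have h18 : ∑ i, r i * Real.log ((x i).den : ℝ) ≤ m * ((1 + δ / 20) * R) := by
      have h1 := Finset.sum_le_card_nsmul Finset.univ (fun i => (r i : ℝ) * l i) _ fun i _ => hru i
      rw [Finset.card_univ, Fintype.card_fin, nsmul_eq_mul] at h1
      exact h1
    have h19 : D * ∑ i, (r i : ℝ) ≤ m * (δ / 20) * R := by
      have h1 := mul_le_mul_of_nonneg_left hsum hD0.le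
      refine h1.trans ?_
      rw [mul_div_assoc', mul_div_assoc', div_le_iff₀ hLpos]
      have h4 : 40 * D / δ ≤ L := by
        have h5 : 0 ≤ 2 * m * (B + B') / ω := by positivity
        linarith
      rw [div_le_iff₀ hδ] at h4
      have h5 := mul_le_mul_of_nonneg_left h4 (mul_nonneg hmR.le hRpos.le)
      linarith
    -- the contradiction
    have hm1 : (1 : ℝ) ≤ m := by exact_mod_cast hm
    have hfin : R * ((2 + δ) * (m * (1 / 2 - δ / 20) - δ / 40)) ≤
        R * (m * (1 + δ / 20) + m * (δ / 20)) := by linarith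
    have hfin2 := le_of_mul_le_mul_left hfin hRpos
    have g1 : 0 < (m : ℝ) * δ := mul_pos hmR hδ
    have g2 : (m : ℝ) * δ * δ ≤ m * δ * 1 := mul_le_mul_of_nonneg_left hδ1 g1.le
    have g3 : δ * δ ≤ δ * 1 := mul_le_mul_of_nonneg_left hδ1 hδ.le
    have g4 : 1 * δ ≤ m * δ := mul_le_mul_of_nonneg_right hm1 hδ.le
    linarith
  intro α hα δ hδ
  refine (key α hα (min δ 1) (lt_min hδ one_pos) (min_le_right _ _)).subset fun x hx => ?_
  rw [Set.mem_setOf_eq] at hx ⊢
  refine lt_of_lt_of_le hx ?_
  refine Real.rpow_le_rpow_of_exponent_le (by exact_mod_cast x.den_pos) ?_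
  have := min_le_left δ 1
  linarith

end Fermat.Agent.Cor.Roth.Fin
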