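import Fermat.Agent.Corollaries.Roth.Main
import Fermat.Agent.Corollaries.Thue.Equation

/-!
# Small values of binary forms

`F` a binary form of degree `d ≥ 3` with integral coefficients and without multiple factors:
Roth's theorem gives that `0 < |F(x, y)| ≤ K max(|x|, |y|)^μ`, `μ < d - 2`, has only finitely many
integral solutions. So `F(x, y) = G(x, y)` with a polynomial `G` of total degree `≤ d - 3` and an
irreducible form `F` has only finitely many integral solutions.
-/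

set_option autoImplicit false

open Polynomial Finset

namespace Fermat.Agent.Cor.Roth

namespace Form

open Fermat.Agent.Cor.Thue (form form_eq finite_const finite_den_le thue_equation_irreducible)

/-- The value of a polynomial without multiple roots, compared with the distance to the nearest
root. -/
theorem exists_lower {f : ℂ[X]} (hf : f.Separable) (hd : f.natDegree ≠ 0) :
    ∃ c : ℝ, 0 < c ∧ ∀ t : ℂ, ∃ z ∈ f.roots,
      c * (1 + ‖t‖) ^ (f.natDegree - 1) * ‖t - z‖ ≤ ‖f.eval t‖ := by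
  classical
  have hf0 : f ≠ 0 := hf.ne_zero
  have hnd : f.roots.Nodup := nodup_roots hf
  set Z : Finset ℂ := ⟨f.roots, hnd⟩ with hZ
  have hcard : Z.card = f.natDegree := by
    change Multiset.card f.roots = _
    rw [← (IsAlgClosed.splits f).natDegree_eq_card_roots]
  have hval : ∀ t : ℂ, ‖f.eval t‖ = ‖f.leadingCoeff‖ * ∏ z ∈ Z, ‖t - z‖ := by
    intro t
    rw [(IsAlgClosed.splits f).eval_eq_prod_roots, norm_mul]
    congr 1
    have h1 : (f.roots.map (t - ·)).prod = ∏ z ∈ Z, (t - z) := rfl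
    rw [h1, norm_prod]
  obtain ⟨δ, hδ0, hδ⟩ : ∃ δ : ℝ, 0 < δ ∧ ∀ z ∈ Z, ∀ w ∈ Z, z ≠ w → δ ≤ ‖z - w‖ := by
    rcases Z.offDiag.eq_empty_or_nonempty with h | h
    · refine ⟨1, one_pos, fun z hz w hw hzw => ?_⟩
      have : (z, w) ∈ Z.offDiag := mem_offDiag.mpr ⟨hz, hw, hzw⟩
      rw [h] at this
      simp at this
    · obtain ⟨p, hp, hpm⟩ := exists_min_image Z.offDiag (fun p => ‖p.1 - p.2‖) h
      refine ⟨‖p.1 - p.2‖, norm_pos_iff.mpr (sub_ne_zero.mpr (mem_offDiag.mp hp).2.2),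
        fun z hz w hw hzw => hpm (z, w) (mem_offDiag.mpr ⟨hz, hw, hzw⟩)⟩
  obtain ⟨M, hM0, hM⟩ : ∃ M : ℝ, 0 ≤ M ∧ ∀ z ∈ Z, ‖z‖ ≤ M :=
    ⟨∑ z ∈ Z, ‖z‖, sum_nonneg fun _ _ => norm_nonneg _, fun z hz =>
      single_le_sum (f := fun z : ℂ => ‖z‖) (fun _ _ => norm_nonneg _) hz⟩
  have hlc : 0 < ‖f.leadingCoeff‖ := norm_pos_iff.mpr (leadingCoeff_ne_zero.mpr hf0)
  set b : ℝ := (1 + M) / (δ / 2) + 1 with hb
  have hb0 : 0 < b := by positivity
  refine ⟨‖f.leadingCoeff‖ * b⁻¹ ^ (f.natDegree - 1), by positivity, fun t => ?_⟩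
  have hne : Z.Nonempty := by
    rw [← Finset.card_pos, hcard]
    omega
  obtain ⟨z₀, hz₀, hmin⟩ := exists_min_image Z (fun z => ‖t - z‖) hne
  refine ⟨z₀, hz₀, ?_⟩
  rw [hval t, ← mul_prod_erase Z (fun z => ‖t - z‖) hz₀]
  have h1 : (b⁻¹ * (1 + ‖t‖)) ^ (f.natDegree - 1) ≤ ∏ z ∈ Z.erase z₀, ‖t - z‖ := by
    rw [← hcard, ← card_erase_of_mem hz₀, ← prod_const]
    refine prod_le_prod (fun _ _ => by positivity) fun z hz => ?_
    have h2 := hmin z (mem_of_mem_erase hz)
    have h3 := hδ z (mem_of_mem_erase hz) z₀ hz₀ (ne_of_mem_erase hz)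
    have h4 : ‖z - z₀‖ ≤ ‖t - z₀‖ + ‖t - z‖ := by
      calc ‖z - z₀‖ = ‖(t - z₀) - (t - z)‖ := by ring_nf
        _ ≤ _ := norm_sub_le _ _
    have h5 : δ / 2 ≤ ‖t - z‖ := by linarith
    have h6 : ‖t‖ ≤ ‖t - z‖ + ‖z‖ := by
      calc ‖t‖ = ‖(t - z) + z‖ := by ring_nf
        _ ≤ _ := norm_add_le _ _
    have h7 := hM z (mem_of_mem_erase hz)
    have h8 : 1 + M ≤ (1 + M) / (δ / 2) * ‖t - z‖ := by
      rw [div_mul_eq_mul_div, le_div_iff₀ (by positivity)]
      exact mul_le_mul_of_nonneg_left h5 (by positivity)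
    rw [inv_mul_le_iff₀ hb0, hb, add_mul, one_mul]
    linarith
  calc ‖f.leadingCoeff‖ * b⁻¹ ^ (f.natDegree - 1) * (1 + ‖t‖) ^ (f.natDegree - 1) * ‖t - z₀‖
      = ‖f.leadingCoeff‖ * (‖t - z₀‖ * (b⁻¹ * (1 + ‖t‖)) ^ (f.natDegree - 1)) := by
        rw [mul_pow]; ring
    _ ≤ _ := by
        refine mul_le_mul_of_nonneg_left ?_ hlc.le
        exact mul_le_mul_of_nonneg_left h1 (norm_nonneg _)

/-- The rational numbers close to a root (Roth's theorem). -/
theorem finite_near {F : ℤ[X]} (hF0 : F ≠ 0) {z : ℂ} (hz : aeval z F = 0) (K : ℝ) {ν : ℝ}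
    (hν : 2 < ν) : {t : ℚ | ‖(t : ℂ) - z‖ * (t.den : ℝ) ^ ν ≤ K}.Finite := by
  have hden : ∀ t : ℚ, (1 : ℝ) ≤ (t.den : ℝ) := fun t => by exact_mod_cast t.den_pos
  have hK : ∀ t : ℚ, ‖(t : ℂ) - z‖ * (t.den : ℝ) ^ ν ≤ K → ‖(t : ℂ) - z‖ ≤ K := by
    intro t ht
    refine le_trans ?_ ht
    exact le_mul_of_one_le_right (norm_nonneg _) (Real.one_le_rpow (hden t) (by linarith))
  by_cases him : z.im = 0
  · -- real roots
    have hzr : z = ((z.re : ℝ) : ℂ) := by
      apply Complex.ext <;> simp [him]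
    have hα : aeval z.re F = 0 := by
      rw [hzr] at hz
      have h1 := aeval_algebraMap_apply (A := ℝ) ℂ z.re F
      rw [Complex.coe_algebraMap, hz] at h1
      exact_mod_cast h1.symm
    have hFQ : (F.map (algebraMap ℤ ℚ)) ≠ 0 :=
      (Polynomial.map_ne_zero_iff (algebraMap ℤ ℚ).injective_int).mpr hF0
    have hα' : aeval z.re (F.map (algebraMap ℤ ℚ)) = 0 := by
      rw [aeval_map_algebraMap]; exact hα
    have halg : IsAlgebraic ℚ z.re := ⟨_, hFQ, hα'⟩
    have hroth : ∀ μ : ℝ, 2 < μ → {x : ℚ | |z.re - x| < (x.den : ℝ) ^ (-μ)}.Finite := by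
      intro μ hμ
      have h1 := roth halg (δ := μ - 2) (by linarith)
      rwa [add_sub_cancel] at h1
    refine (finite_const hroth (K + 1) hν (by linarith)).subset fun t ht => ?_
    have ht0 : ‖(t : ℂ) - z‖ * (t.den : ℝ) ^ ν ≤ K := ht
    change |z.re - t| < (K + 1) * (t.den : ℝ) ^ (-ν)
    have hd0 : (0 : ℝ) < (t.den : ℝ) ^ ν := by
      have := hden t
      positivity
    have h1 : ‖(t : ℂ) - z‖ = |z.re - t| := by
      rw [abs_sub_comm, ← Real.norm_eq_abs, ← Complex.norm_real]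
      congr 1
      push_cast
      rw [← hzr]
    rw [h1] at ht0
    rw [Real.rpow_neg (by positivity), ← div_eq_mul_inv, lt_div_iff₀ hd0]
    linarith
  · -- non-real roots
    have him0 : 0 < |z.im| := abs_pos.mpr him
    obtain ⟨N, hN⟩ := exists_nat_ge (K / |z.im|)
    refine (finite_den_le z.re (K + 1) N).subset fun t ht => ?_
    have ht0 : ‖(t : ℂ) - z‖ * (t.den : ℝ) ^ ν ≤ K := ht
    have h1 : |z.im| ≤ ‖(t : ℂ) - z‖ := by
      have h2 := Complex.abs_im_le_norm ((t : ℂ) - z)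
      simpa using h2
    have h3 : |z.re - t| ≤ ‖(t : ℂ) - z‖ := by
      have h2 := Complex.abs_re_le_norm ((t : ℂ) - z)
      rw [abs_sub_comm]
      simpa using h2
    refine ⟨?_, by
      have h4 := h3.trans (hK t ht0)
      linarith⟩
    have h4 : (t.den : ℝ) ≤ (t.den : ℝ) ^ ν := by
      calc (t.den : ℝ) = (t.den : ℝ) ^ (1 : ℝ) := (Real.rpow_one _).symm
        _ ≤ _ := Real.rpow_le_rpow_of_exponent_le (hden t) (by linarith)
    have h5 : |z.im| * t.den ≤ K :=
      (mul_le_mul h1 h4 (by positivity) (norm_nonneg _)).trans ht0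
    have h6 : (t.den : ℝ) ≤ N := by
      refine le_trans ?_ hN
      rw [le_div_iff₀ him0]
      linarith
    exact_mod_cast h6

theorem form_zero_right (F : ℤ[X]) (x : ℤ) :
    form F F.natDegree x 0 = F.leadingCoeff * x ^ F.natDegree := by
  rw [form, sum_eq_single F.natDegree]
  · rw [Nat.sub_self, pow_zero, mul_one, leadingCoeff]
  · intro i hi hi'
    rw [mem_range] at hi
    rw [zero_pow (by omega), mul_zero]
  · intro h
    exact absurd (mem_range.mpr (Nat.lt_succ_self _)) h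

end Form

open Form Fermat.Agent.Cor.Thue

/-- **Small values of binary forms** (consequence of Roth's theorem): `F` a binary form of degree
`d ≥ 3` with integral coefficients and without multiple factors, `μ < d - 2`, `K` real: there are
only finitely many pairs of integers with `0 ≠ F(x, y)` and `|F(x, y)| ≤ K max(|x|, |y|)^μ`. -/
theorem finite_form_le {F : ℤ[X]} (hsq : Squarefree (F.map (Int.castRingHom ℚ)))
    (hd : 3 ≤ F.natDegree) (K : ℝ) {μ : ℝ} (hμ0 : 0 ≤ μ) (hμ : μ < F.natDegree - 2) :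
    {p : ℤ × ℤ | form F F.natDegree p.1 p.2 ≠ 0 ∧
      |(form F F.natDegree p.1 p.2 : ℝ)| ≤ K * max |(p.1 : ℝ)| |(p.2 : ℝ)| ^ μ}.Finite := by
  classical
  have hF0 : F ≠ 0 := by
    intro h
    rw [h, natDegree_zero] at hd
    omega
  -- we may suppose that `K` is positive
  wlog hK : 0 < K generalizing K with H
  · refine (H 1 one_pos).subset fun p hp => ⟨hp.1, hp.2.trans ?_⟩
    exact mul_le_mul_of_nonneg_right (by linarith) (by positivity)
  set f : ℂ[X] := F.map (Int.castRingHom ℂ) with hf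
  have hfdeg : f.natDegree = F.natDegree := natDegree_map_eq_of_injective Int.cast_injective F
  have hsep : f.Separable := by
    have h1 : (F.map (Int.castRingHom ℚ)).Separable :=
      PerfectField.separable_iff_squarefree.mpr hsq
    have h2 : f = (F.map (Int.castRingHom ℚ)).map (algebraMap ℚ ℂ) := by
      rw [hf, Polynomial.map_map]
      congr 1
    rw [h2]
    exact h1.map
  obtain ⟨c, hc0, hc⟩ := exists_lower hsep (by omega)
  rw [hfdeg] at hc
  set d := F.natDegree with hdd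
  have hd3 : (3 : ℝ) ≤ d := by exact_mod_cast hd
  -- the rational numbers close to one of the roots
  set T : Set ℚ := ⋃ z ∈ f.roots.toFinset,
    {t : ℚ | ‖(t : ℂ) - z‖ * (t.den : ℝ) ^ ((d : ℝ) - μ) ≤ K / c} with hT
  have hTfin : T.Finite := by
    refine Set.Finite.biUnion (f.roots.toFinset.finite_toSet) fun z hz => ?_
    refine finite_near hF0 ?_ _ (by linarith)
    rw [mem_coe, Multiset.mem_toFinset, mem_roots hsep.ne_zero, IsRoot, hf, eval_map] at hz
    exact hz
  obtain ⟨Y, hY⟩ : ∃ Y : ℕ, ∀ t ∈ T,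
      K * (1 + |(t : ℝ)|) ^ μ / |((aeval t F : ℚ) : ℝ)| ≤ Y := by
    obtain ⟨M, hM⟩ := (hTfin.image (fun t : ℚ =>
      K * (1 + |(t : ℝ)|) ^ μ / |((aeval t F : ℚ) : ℝ)|)).bddAbove
    obtain ⟨Y, hY⟩ := exists_nat_ge M
    exact ⟨Y, fun t ht => (hM ⟨t, ht, rfl⟩).trans hY⟩
  obtain ⟨X0, hX0⟩ := exists_nat_ge K
  have hcover : {p : ℤ × ℤ | form F d p.1 p.2 ≠ 0 ∧
      |(form F d p.1 p.2 : ℝ)| ≤ K * max |(p.1 : ℝ)| |(p.2 : ℝ)| ^ μ} ⊆
      ((Set.Icc (-(X0 : ℤ)) X0) ×ˢ ({0} : Set ℤ)) ∪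
      (fun q : ℚ × ℤ => ((q.1 * q.2).num, q.2)) '' (T ×ˢ Set.Icc (-(Y : ℤ)) Y) := by
    rintro ⟨x, y⟩ ⟨hne, hle⟩
    simp only at hne hle
    by_cases hy : y = 0
    · -- `y = 0`
      left
      subst hy
      refine ⟨?_, rfl⟩
      have hx : x ≠ 0 := by
        rintro rfl
        rw [form_zero_right, zero_pow (by omega), mul_zero] at hne
        exact hne rfl
      have hx1 : (1 : ℝ) ≤ |(x : ℝ)| := by exact_mod_cast Int.one_le_abs hx
      have hlc : (1 : ℝ) ≤ |(F.leadingCoeff : ℝ)| := by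
        exact_mod_cast Int.one_le_abs (leadingCoeff_ne_zero.mpr hF0)
      rw [form_zero_right] at hle
      push_cast at hle
      rw [abs_zero, max_eq_left (abs_nonneg _), abs_mul, abs_pow] at hle
      have h1 : |(x : ℝ)| ^ (d : ℝ) ≤ K * |(x : ℝ)| ^ μ := by
        rw [Real.rpow_natCast]
        refine le_trans ?_ hle
        exact le_mul_of_one_le_left (by positivity) hlc
      have h2 : |(x : ℝ)| ^ (d : ℝ) = |(x : ℝ)| ^ ((d : ℝ) - μ) * |(x : ℝ)| ^ μ := by
        rw [← Real.rpow_add (by linarith), sub_add_cancel]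
      rw [h2] at h1
      have h3 := le_of_mul_le_mul_right h1 (by positivity)
      have h4 : |(x : ℝ)| ≤ |(x : ℝ)| ^ ((d : ℝ) - μ) := by
        calc |(x : ℝ)| = |(x : ℝ)| ^ (1 : ℝ) := (Real.rpow_one _).symm
          _ ≤ _ := Real.rpow_le_rpow_of_exponent_le hx1 (by linarith)
      have h5 : |x| ≤ (X0 : ℤ) := by exact_mod_cast (h4.trans h3).trans hX0
      exact abs_le.mp h5
    · right
      have hyr : (y : ℝ) ≠ 0 := by exact_mod_cast hy
      have hy1 : (1 : ℝ) ≤ |(y : ℝ)| := by exact_mod_cast Int.one_le_abs hy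
      set t : ℚ := (x : ℚ) / y with ht
      have htR : (t : ℝ) = x / y := by rw [ht]; push_cast; rfl
      have hform := form_eq F x y hy
      rw [← ht, ← hdd] at hform
      have hform' : |(form F d x y : ℝ)| = |(y : ℝ)| ^ d * |((aeval t F : ℚ) : ℝ)| := by
        have h1 := congrArg (fun r : ℚ => |(r : ℝ)|) hform
        push_cast at h1
        rw [h1, abs_mul, abs_pow]
      have hval0 : ((aeval t F : ℚ) : ℝ) ≠ 0 := by
        intro h
        rw [h, abs_zero, mul_zero, abs_eq_zero] at hform'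
        exact hne (by exact_mod_cast hform')
      have hvalpos : 0 < |((aeval t F : ℚ) : ℝ)| := abs_pos.mpr hval0
      have hft : ‖f.eval (t : ℂ)‖ = |((aeval t F : ℚ) : ℝ)| := by
        have h1 : f.eval (t : ℂ) = ((aeval t F : ℚ) : ℂ) := by
          have h2 := aeval_algebraMap_apply (A := ℚ) ℂ t F
          rw [eq_ratCast, eq_ratCast] at h2
          rw [← h2, hf, eval_map]
          rfl
        rw [h1]
        have h3 : (((aeval t F : ℚ)) : ℂ) = ((((aeval t F : ℚ)) : ℝ) : ℂ) := by push_cast; rfl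
        rw [h3, Complex.norm_real, Real.norm_eq_abs]
      have htn : ‖(t : ℂ)‖ = |(t : ℝ)| := by
        have h3 : (t : ℂ) = ((t : ℝ) : ℂ) := by push_cast; rfl
        rw [h3, Complex.norm_real, Real.norm_eq_abs]
      set s : ℝ := 1 + |(t : ℝ)| with hs
      have hs1 : 1 ≤ s := by rw [hs]; linarith [abs_nonneg (t : ℝ)]
      have hs0 : 0 < s := by linarith
      set u : ℝ := |(y : ℝ)| with hu
      have hu0 : 0 < u := by linarith
      -- `max(|x|, |y|) ≤ |y| (1 + |t|)`
      have hmax : max |(x : ℝ)| |(y : ℝ)| ≤ u * s := by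
        have hx : |(x : ℝ)| = u * |(t : ℝ)| := by
          rw [htR, abs_div, hu]
          field_simp
        rw [hx, ← hu]
        refine max_le ?_ ?_
        · exact mul_le_mul_of_nonneg_left (by rw [hs]; linarith) hu0.le
        · exact le_mul_of_one_le_right hu0.le hs1
      have hmax' : K * max |(x : ℝ)| |(y : ℝ)| ^ μ ≤ K * (u ^ μ * s ^ μ) := by
        refine mul_le_mul_of_nonneg_left ?_ hK.le
        rw [← Real.mul_rpow hu0.le hs0.le]
        exact Real.rpow_le_rpow (le_max_of_le_left (abs_nonneg _)) hmax hμ0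
      have hmain : u ^ ((d : ℝ) - μ) * |((aeval t F : ℚ) : ℝ)| ≤ K * s ^ μ := by
        have h1 := hle.trans hmax'
        rw [hform'] at h1
        have h2 : u ^ d = u ^ ((d : ℝ) - μ) * u ^ μ := by
          rw [← Real.rpow_add hu0, sub_add_cancel, Real.rpow_natCast]
        rw [h2] at h1
        have h3 : (u ^ ((d : ℝ) - μ) * |((aeval t F : ℚ) : ℝ)|) * u ^ μ ≤
            (K * s ^ μ) * u ^ μ := by linarith
        exact le_of_mul_le_mul_right h3 (by positivity)
      -- `t ∈ T`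
      have htT : t ∈ T := by
        obtain ⟨z, hz, hzc⟩ := hc (t : ℂ)
        rw [hT, Set.mem_iUnion₂]
        refine ⟨z, Multiset.mem_toFinset.mpr hz, ?_⟩
        change ‖(t : ℂ) - z‖ * (t.den : ℝ) ^ ((d : ℝ) - μ) ≤ K / c
        rw [le_div_iff₀ hc0]
        have hden : (t.den : ℝ) ≤ u := by
          have h1 : (t.den : ℤ) ∣ y := by
            have h0 := Rat.den_dvd x y
            rwa [Rat.divInt_eq_div] at h0
          have h2 := Int.le_of_dvd (abs_pos.mpr hy) ((dvd_abs _ _).mpr h1)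
          rw [hu]
          exact_mod_cast h2
        have hpow : (t.den : ℝ) ^ ((d : ℝ) - μ) ≤ u ^ ((d : ℝ) - μ) :=
          Real.rpow_le_rpow (by positivity) hden (by linarith)
        rw [hft, htn, ← hs] at hzc
        have h3 : s ^ μ ≤ s ^ (d - 1) := by
          rw [← Real.rpow_natCast]
          refine Real.rpow_le_rpow_of_exponent_le hs1 ?_
          rw [Nat.cast_sub (by omega)]
          push_cast
          linarith
        have h4 : ‖(t : ℂ) - z‖ * (t.den : ℝ) ^ ((d : ℝ) - μ) * c * s ^ μ ≤ K * s ^ μ := by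
          calc ‖(t : ℂ) - z‖ * (t.den : ℝ) ^ ((d : ℝ) - μ) * c * s ^ μ
              ≤ ‖(t : ℂ) - z‖ * u ^ ((d : ℝ) - μ) * c * s ^ (d - 1) := by gcongr
            _ = u ^ ((d : ℝ) - μ) * (c * s ^ (d - 1) * ‖(t : ℂ) - z‖) := by ring
            _ ≤ u ^ ((d : ℝ) - μ) * |((aeval t F : ℚ) : ℝ)| :=
                mul_le_mul_of_nonneg_left hzc (by positivity)
            _ ≤ _ := hmain
        exact le_of_mul_le_mul_right h4 (by positivity)
      have h1 := hY t htT
      rw [← hs] at h1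
      have h2 : u ≤ Y := by
        refine le_trans ?_ h1
        rw [le_div_iff₀ hvalpos]
        refine le_trans ?_ hmain
        refine mul_le_mul_of_nonneg_right ?_ hvalpos.le
        calc u = u ^ (1 : ℝ) := (Real.rpow_one _).symm
          _ ≤ _ := Real.rpow_le_rpow_of_exponent_le hy1 (by linarith)
      have h3 : |y| ≤ (Y : ℤ) := by
        rw [hu] at h2
        exact_mod_cast h2
      refine ⟨(t, y), ⟨htT, abs_le.mp h3⟩, ?_⟩
      have h4 : t * y = ((x : ℤ) : ℚ) := by
        rw [ht]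
        have : (y : ℚ) ≠ 0 := by exact_mod_cast hy
        field_simp
      simp only [h4, Rat.num_intCast]
  refine Set.Finite.subset ?_ hcover
  exact ((Set.finite_Icc _ _).prod (Set.finite_singleton _)).union
    ((hTfin.prod (Set.finite_Icc _ _)).image _)

theorem abs_eval_le (G : MvPolynomial (Fin 2) ℤ) {e : ℕ} (hG : G.totalDegree ≤ e) {x y : ℤ}
    (h : (1 : ℝ) ≤ max |(x : ℝ)| |(y : ℝ)|) :
    |(MvPolynomial.eval ![x, y] G : ℝ)| ≤
      (∑ m ∈ G.support, |((G.coeff m : ℤ) : ℝ)|) * max |(x : ℝ)| |(y : ℝ)| ^ e := by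
  rw [MvPolynomial.eval_eq', sum_mul]
  push_cast
  refine (abs_sum_le_sum_abs _ _).trans (sum_le_sum fun m hm => ?_)
  rw [abs_mul, Fin.prod_univ_two]
  refine mul_le_mul_of_nonneg_left ?_ (abs_nonneg _)
  simp only [Matrix.cons_val_zero, Matrix.cons_val_one]
  rw [abs_mul, abs_pow, abs_pow]
  have h1 : m 0 + m 1 ≤ e := by
    have h2 := MvPolynomial.le_totalDegree hm
    rw [Finsupp.sum_fintype _ _ (fun _ => rfl), Fin.sum_univ_two] at h2
    exact h2.trans hG
  calc |(x : ℝ)| ^ m 0 * |(y : ℝ)| ^ m 1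
      ≤ max |(x : ℝ)| |(y : ℝ)| ^ m 0 * max |(x : ℝ)| |(y : ℝ)| ^ m 1 :=
        mul_le_mul (pow_le_pow_left₀ (abs_nonneg _) (le_max_left _ _) _)
          (pow_le_pow_left₀ (abs_nonneg _) (le_max_right _ _) _) (by positivity) (by positivity)
    _ = max |(x : ℝ)| |(y : ℝ)| ^ (m 0 + m 1) := (pow_add _ _ _).symm
    _ ≤ _ := pow_le_pow_right₀ h h1

/-- `F(x, y) = G(x, y) ≠ 0` with a form `F` of degree `d ≥ 3` without multiple factors and a
polynomial `G` of total degree `≤ d - 3`: finitely many integral solutions. -/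
theorem finite_form_eq {F : ℤ[X]} (hsq : Squarefree (F.map (Int.castRingHom ℚ)))
    (G : MvPolynomial (Fin 2) ℤ) (hG : G.totalDegree + 3 ≤ F.natDegree) :
    {p : ℤ × ℤ | form F F.natDegree p.1 p.2 = MvPolynomial.eval ![p.1, p.2] G ∧
      form F F.natDegree p.1 p.2 ≠ 0}.Finite := by
  have hd : 3 ≤ F.natDegree := by omega
  refine ((finite_form_le hsq hd (∑ m ∈ G.support, |((G.coeff m : ℤ) : ℝ)|)
    (μ := (F.natDegree - 3 : ℕ)) (Nat.cast_nonneg _) ?_).union
    (Set.finite_singleton ((0 : ℤ), (0 : ℤ)))).subset ?_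
  · rw [Nat.cast_sub hd]
    push_cast
    linarith
  · rintro ⟨x, y⟩ ⟨h1, h2⟩
    simp only at h1 h2
    by_cases h0 : x = 0 ∧ y = 0
    · right
      rw [h0.1, h0.2]
      rfl
    · left
      refine ⟨h2, ?_⟩
      have h3 : (1 : ℝ) ≤ max |(x : ℝ)| |(y : ℝ)| := by
        by_cases hx : x = 0
        · have hy : y ≠ 0 := fun hy => h0 ⟨hx, hy⟩
          exact le_max_of_le_right (by exact_mod_cast Int.one_le_abs hy)
        · exact le_max_of_le_left (by exact_mod_cast Int.one_le_abs hx)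
      have h4 := abs_eval_le G (e := F.natDegree - 3) (by omega) h3
      simp only [h1]
      rw [Real.rpow_natCast]
      exact h4

/-- **The equation `F(x, y) = G(x, y)`**: `F` an irreducible form of degree `d ≥ 3`, `G` a polynomial
of total degree `≤ d - 3` (integral coefficients); only finitely many integral solutions. -/
theorem finite_irreducible_form_eq {F : ℤ[X]}
    (hirr : Irreducible (F.map (Int.castRingHom ℚ))) (G : MvPolynomial (Fin 2) ℤ)
    (hG : G.totalDegree + 3 ≤ F.natDegree) :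
    {p : ℤ × ℤ | form F F.natDegree p.1 p.2 = MvPolynomial.eval ![p.1, p.2] G}.Finite := by
  refine ((finite_form_eq hirr.squarefree G hG).union
    (thue_equation_irreducible hirr (by omega) 0)).subset fun p hp => ?_
  by_cases h : form F F.natDegree p.1 p.2 = 0
  · exact Or.inr h
  · exact Or.inl ⟨hp, h⟩

end Fermat.Agent.Cor.Roth
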