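import Fermat.Agent.Corollaries.Roth.Defs

/-!
# The index of the generalised Wronskian

`idxStmt_of` : if `∂_J P` vanishes at `x` for all `J` of weight `< Θ`, then the determinant
`det (∂_0^j ∂_{I_i} P)` has index at least `k Θ² / 32` at `x`.
-/

set_option autoImplicit false

open MvPolynomial

namespace Fermat.Agent.Cor.Roth.Idx

open Fermat.Agent.Cor.Roth

variable {m : ℕ} {K : Type} [CommRing K] {r : Fin m → ℕ}

/-- all coefficients of weight `< t` vanish -/
def Ord (r : Fin m → ℕ) (f : MvPolynomial (Fin m) K) (t : ℝ) : Prop :=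
  ∀ J, wt r J < t → coeff J f = 0

theorem wt_add (r : Fin m → ℕ) (I J : Fin m →₀ ℕ) : wt r (I + J) = wt r I + wt r J := by
  rw [wt, wt, wt, ← Finset.sum_add_distrib]
  refine Finset.sum_congr rfl fun i _ => ?_
  rw [Finsupp.add_apply]
  push_cast
  rw [add_div]

theorem wt_nonneg (r : Fin m → ℕ) (I : Fin m →₀ ℕ) : 0 ≤ wt r I :=
  Finset.sum_nonneg fun i _ => by positivity

theorem Ord.mono {f : MvPolynomial (Fin m) K} {s t : ℝ} (h : Ord r f t) (hs : s ≤ t) :
    Ord r f s := fun J hJ => h J (lt_of_lt_of_le hJ hs)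

theorem Ord.zero (f : MvPolynomial (Fin m) K) : Ord r f 0 :=
  fun J hJ => absurd hJ (not_lt.mpr (wt_nonneg r J))

theorem Ord.mul {f g : MvPolynomial (Fin m) K} {s t : ℝ} (hf : Ord r f s) (hg : Ord r g t) :
    Ord r (f * g) (s + t) := by
  classical
  intro J hJ
  rw [coeff_mul]
  refine Finset.sum_eq_zero fun p hp => ?_
  have h1 : wt r p.1 + wt r p.2 = wt r J := by
    rw [← wt_add, Finset.HasAntidiagonal.mem_antidiagonal.mp hp]
  by_cases h2 : wt r p.1 < s
  · rw [hf _ h2, zero_mul]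
  · have h3 : wt r p.2 < t := by
      push Not at h2
      linarith
    rw [hg _ h3, mul_zero]

theorem Ord.prod {ι : Type*} (s : Finset ι) (f : ι → MvPolynomial (Fin m) K) (t : ι → ℝ)
    (h : ∀ i ∈ s, Ord r (f i) (t i)) : Ord r (∏ i ∈ s, f i) (∑ i ∈ s, t i) := by
  classical
  induction s using Finset.induction_on with
  | empty =>
    rw [Finset.prod_empty, Finset.sum_empty]
    exact Ord.zero 1
  | insert a s ha ih =>
    rw [Finset.prod_insert ha, Finset.sum_insert ha]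
    exact (h a (Finset.mem_insert_self a s)).mul
      (ih fun i hi => h i (Finset.mem_insert_of_mem hi))

/-- The sum of the orders. -/
theorem le_sum_max {k R : ℕ} {T : ℝ} (hR : 0 < R) (hk : k ≤ R + 1) (hT0 : 0 < T) (hT1 : T ≤ 1) :
    k * T ^ 2 / 8 ≤ ∑ j : Fin k, max 0 (T - (j : ℕ) / (R : ℝ)) := by
  have hR' : (0 : ℝ) < R := by exact_mod_cast hR
  rw [Fin.sum_univ_eq_sum_range (fun j => max 0 (T - (j : ℝ) / (R : ℝ))) k]
  set n : ℕ := ⌊T * R / 2⌋₊ + 1 with hn
  have hn1 : T * R / 2 ≤ n := by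
    rw [hn]
    push_cast
    exact (Nat.lt_floor_add_one _).le
  have h1 : ∑ j ∈ Finset.range (min k n), T / 2 ≤
      ∑ j ∈ Finset.range k, max 0 (T - (j : ℝ) / (R : ℝ)) := by
    refine (Finset.sum_le_sum fun j hj => ?_).trans
      (Finset.sum_le_sum_of_subset_of_nonneg
        (Finset.range_subset_range.mpr (min_le_left k n)) fun j _ _ => le_max_left _ _)
    refine le_max_of_le_right ?_
    have h2 : j < n := lt_of_lt_of_le (Finset.mem_range.mp hj) (min_le_right _ _)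
    have h3 : j ≤ ⌊T * R / 2⌋₊ := by omega
    have h4 : (j : ℝ) ≤ T * R / 2 := (Nat.le_floor_iff (by positivity)).mp h3
    have h5 : (j : ℝ) / R ≤ T / 2 := by
      rw [div_le_iff₀ hR']
      linarith
    linarith
  rw [Finset.sum_const, Finset.card_range, nsmul_eq_mul] at h1
  refine le_trans ?_ h1
  rcases le_total k n with h | h
  · rw [min_eq_left h]
    have hk0 : (0 : ℝ) ≤ k := Nat.cast_nonneg k
    have : T ^ 2 / 8 ≤ T / 2 := by nlinarith
    calc (k : ℝ) * T ^ 2 / 8 = k * (T ^ 2 / 8) := by ring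
      _ ≤ k * (T / 2) := mul_le_mul_of_nonneg_left this hk0
  · rw [min_eq_right h]
    have h2 : (k : ℝ) ≤ 2 * R := by
      have h3 : (k : ℝ) ≤ R + 1 := by exact_mod_cast hk
      have h4 : (1 : ℝ) ≤ R := by exact_mod_cast hR
      linarith
    have h3 : T * R / 2 * (T / 2) ≤ n * (T / 2) :=
      mul_le_mul_of_nonneg_right hn1 (by positivity)
    refine le_trans ?_ h3
    have h5 : (k : ℝ) * T ^ 2 ≤ 2 * R * T ^ 2 :=
      mul_le_mul_of_nonneg_right h2 (by positivity)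
    nlinarith

/-- the index of an entry -/
theorem ord_entry (hH : HdStmt) {r : Fin (m + 1) → ℕ} {P : MvPolynomial (Fin (m + 1)) ℤ}
    {x : Fin (m + 1) → ℚ} {Θ : ℝ} (hΘ0 : 0 < Θ) (hr : ∀ i, 0 < r i)
    (hl : ∀ l : Fin m, (r 0 : ℝ) ≤ Θ / 2 * r l.succ)
    (h0 : ∀ J, wt r J < Θ → dv x P J = 0) {I : Fin m →₀ ℕ} (hI : ∑ l, I l ≤ r 0) (j : ℕ) :
    Ord r (tr x (map (Int.castRingHom ℚ) (hd (Finsupp.cons j I) P)))
      (max 0 (Θ / 2 - j / (r 0 : ℝ))) := by
  intro J hJ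
  have hJ' : wt r J < Θ / 2 - j / (r 0 : ℝ) := by
    rcases lt_max_iff.mp hJ with h | h
    · exact absurd h (not_lt.mpr (wt_nonneg r J))
    · exact h
  change dv x (hd (Finsupp.cons j I) P) J = 0
  rw [hH, h0, mul_zero]
  rw [wt_add]
  have h1 : wt r (Finsupp.cons j I) = j / (r 0 : ℝ) + ∑ l, (I l : ℝ) / r l.succ := by
    rw [wt, Fin.sum_univ_succ, Finsupp.cons_zero]
    simp only [Finsupp.cons_succ]
  have hr0 : (0 : ℝ) < r 0 := by exact_mod_cast hr 0
  have h2 : ∑ l, (I l : ℝ) / r l.succ ≤ Θ / 2 := by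
    have h3 : ∀ l ∈ Finset.univ, (I l : ℝ) / r l.succ ≤ (I l : ℝ) * (Θ / 2 / r 0) := by
      intro l _
      have h4 : (0 : ℝ) < r l.succ := by exact_mod_cast hr l.succ
      rw [div_eq_mul_inv]
      refine mul_le_mul_of_nonneg_left ?_ (Nat.cast_nonneg _)
      rw [inv_eq_one_div, div_le_div_iff₀ h4 hr0, one_mul]
      exact hl l
    refine (Finset.sum_le_sum h3).trans ?_
    rw [← Finset.sum_mul]
    have h5 : ((∑ l, (I l : ℝ)) : ℝ) ≤ r 0 := by exact_mod_cast hI
    calc (∑ l, (I l : ℝ)) * (Θ / 2 / r 0) ≤ r 0 * (Θ / 2 / r 0) :=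
          mul_le_mul_of_nonneg_right h5 (by positivity)
      _ = Θ / 2 := by field_simp
  rw [h1]
  linarith

theorem idxStmt_of (hH : HdStmt) : IdxStmt := by
  intro m k r I P x Θ hk hr hk0 hI hΘ hΘ1 hl h0 J hJ
  have h1 : tr x (map (Int.castRingHom ℚ) (wdet I P)) =
      Matrix.det (Matrix.of fun i j : Fin k =>
        tr x (map (Int.castRingHom ℚ) (hd (Finsupp.cons (j : ℕ) (I i)) P))) := by
    rw [wdet, RingHom.map_det, AlgHom.map_det]
    rfl
  have h2 : Ord r (tr x (map (Int.castRingHom ℚ) (wdet I P))) (k * Θ ^ 2 / 32) := by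
    rw [h1, Matrix.det_apply]
    intro J hJ
    rw [coeff_sum]
    refine Finset.sum_eq_zero fun σ _ => ?_
    have h3 : Ord r (∏ i : Fin k, (Matrix.of fun i j : Fin k =>
        tr x (map (Int.castRingHom ℚ) (hd (Finsupp.cons (j : ℕ) (I i)) P))) (σ i) i)
        (∑ i : Fin k, max 0 (Θ / 2 - (i : ℕ) / (r 0 : ℝ))) :=
      Ord.prod _ _ _ fun i _ => ord_entry hH hΘ hr hl h0 (hI (σ i)) i
    have h4 := le_sum_max (k := k) (R := r 0) (T := Θ / 2) (hr 0) hk0 (by linarith) (by linarith)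
    have h5 : (k : ℝ) * Θ ^ 2 / 32 = k * (Θ / 2) ^ 2 / 8 := by ring
    rw [h5] at hJ
    have h6 := h3 J (lt_of_lt_of_le hJ h4)
    rw [Units.smul_def, coeff_smul, h6, smul_zero]
  exact h2 J hJ

end Fermat.Agent.Cor.Roth.Idx
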