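import Fermat.Agent.Corollaries.Roth.Defs

/-!
# Roth's theorem: integral factors
-/

set_option autoImplicit false

open MvPolynomial

namespace Fermat.Agent.Cor.Roth

namespace Intg

variable {m : ℕ}

theorem natAbs_coeff_le_ht (P : MvPolynomial (Fin m) ℤ) (I : Fin m →₀ ℕ) :
    (coeff I P).natAbs ≤ ht P := by
  by_cases h : I ∈ P.support
  · exact Finset.le_sup (f := fun I => (coeff I P).natAbs) h
  · rw [notMem_support_iff.mp h]
    simp

theorem exists_primitive (V : Polynomial ℚ) : ∃ (V' : Polynomial ℤ) (c : ℚ),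
    V'.IsPrimitive ∧ V = Polynomial.C c * V'.map (Int.castRingHom ℚ) := by
  obtain ⟨b, hbm, hb⟩ := IsLocalization.integerNormalization_spec (nonZeroDivisors ℤ) V
  set N := IsLocalization.integerNormalization (nonZeroDivisors ℤ) V with hN
  have hb0 : ((b : ℤ) : ℚ) ≠ 0 := by
    have := nonZeroDivisors.ne_zero hbm
    exact_mod_cast this
  refine ⟨N.primPart, (N.content : ℚ) / (b : ℤ), N.isPrimitive_primPart, ?_⟩
  have h1 : N.map (Int.castRingHom ℚ) =
      Polynomial.C (N.content : ℚ) * N.primPart.map (Int.castRingHom ℚ) := by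
    conv_lhs => rw [N.eq_C_content_mul_primPart]
    rw [Polynomial.map_mul, Polynomial.map_C]
    rfl
  have h2 : N.map (Int.castRingHom ℚ) = Polynomial.C ((b : ℤ) : ℚ) * V := by
    have h3 : (algebraMap ℤ ℚ) = Int.castRingHom ℚ := rfl
    rw [← h3, hb, ← Polynomial.smul_eq_C_mul]
    exact (Int.cast_smul_eq_zsmul ℚ (b : ℤ) V).symm
  have h4 : Polynomial.C ((b : ℤ) : ℚ) * V = Polynomial.C ((b : ℤ) : ℚ) *
      (Polynomial.C ((N.content : ℚ) / (b : ℤ)) * N.primPart.map (Int.castRingHom ℚ)) := by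
    rw [← h2, h1, ← mul_assoc, ← Polynomial.C_mul, mul_div_cancel₀ _ hb0]
  exact mul_left_cancel₀ (by rwa [Ne, Polynomial.C_eq_zero]) h4

theorem den_eq_one {V : Polynomial ℤ} (hV : V.IsPrimitive) {t : ℚ}
    (h : ∀ a, ∃ z : ℤ, (V.coeff a : ℚ) * t = z) : t.den = 1 := by
  have h1 : Polynomial.C (t.den : ℤ) ∣ V := by
    rw [Polynomial.C_dvd_iff_dvd_coeff]
    intro a
    obtain ⟨z, hz⟩ := h a
    have h2 : V.coeff a * t.num = z * t.den := by
      have h3 : (V.coeff a : ℚ) * t.num = z * t.den := by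
        rw [← hz, ← Rat.mul_den_eq_num]
        ring
      exact_mod_cast h3
    have h4 : IsCoprime (t.den : ℤ) t.num := by
      rw [Int.isCoprime_iff_gcd_eq_one, Int.gcd_comm]
      exact t.reduced
    exact h4.dvd_of_dvd_mul_right ⟨z, by rw [h2, mul_comm]⟩
  have h5 := hV _ h1
  rw [Int.isUnit_iff] at h5
  omega

end Intg

open Intg in
theorem intStmt_of (hS : SepStmt) : IntStmt := by
  classical
  intro m W V U hV hU hW
  obtain ⟨V', c, hprim, hVc⟩ := exists_primitive V
  have hc : c ≠ 0 := by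
    rintro rfl
    rw [Polynomial.C_0, zero_mul] at hVc
    exact hV hVc
  have hV'0 : V' ≠ 0 := hprim.ne_zero
  -- the coefficients
  have hcoef : ∀ (a : ℕ) (I : Fin m →₀ ℕ), ((coeff (Finsupp.cons a I) W : ℤ) : ℚ) =
      (V'.coeff a : ℚ) * (c * coeff I U) := by
    intro a I
    have h1 := congrArg (coeff (Finsupp.cons a I)) hW
    rw [coeff_map, (hS m ℚ V U).1, hVc, Polynomial.coeff_C_mul, Polynomial.coeff_map] at h1
    rw [eq_intCast] at h1
    rw [h1, eq_intCast]
    ring
  have hden : ∀ I, (c * coeff I U).den = 1 := fun I =>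
    den_eq_one hprim fun a => ⟨_, (hcoef a I).symm⟩
  have hnum : ∀ I, ((c * coeff I U).num : ℚ) = c * coeff I U := fun I =>
    (Rat.den_eq_one_iff _).mp (hden I)
  set U' : MvPolynomial (Fin m) ℤ := ∑ I ∈ U.support, monomial I (c * coeff I U).num with hU'
  have hU'c : ∀ I, coeff I U' = (c * coeff I U).num := by
    intro I
    rw [hU', coeff_sum]
    simp only [coeff_monomial]
    by_cases h : I ∈ U.support
    · rw [Finset.sum_eq_single I]
      · rw [if_pos rfl]
      · intro J _ hJ
        rw [if_neg hJ]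
      · intro h2
        exact absurd h h2
    · rw [notMem_support_iff.mp h, mul_zero, Rat.num_zero]
      refine Finset.sum_eq_zero fun J hJ => ?_
      rw [if_neg]
      rintro rfl
      exact h hJ
  have hprod : ∀ (a : ℕ) (I : Fin m →₀ ℕ), coeff (Finsupp.cons a I) W =
      V'.coeff a * coeff I U' := by
    intro a I
    have h1 := hcoef a I
    rw [← hnum I, ← hU'c] at h1
    exact_mod_cast h1
  have hWeq : W = Polynomial.aeval (X 0) V' * rename Fin.succ U' := by
    ext K
    rw [← Finsupp.cons_tail K, hprod, (hS m ℤ V' U').1]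
  have hU'0 : U' ≠ 0 := by
    intro h0
    obtain ⟨I, hI⟩ := ne_zero_iff.mp hU
    have h1 := hU'c I
    rw [h0, coeff_zero] at h1
    have h2 := hnum I
    rw [← h1, Int.cast_zero] at h2
    exact mul_ne_zero hc hI h2.symm
  obtain ⟨I₀, hI₀⟩ := ne_zero_iff.mp hU'0
  have hlc : V'.coeff V'.natDegree ≠ 0 := by
    rw [Polynomial.coeff_natDegree]
    exact Polynomial.leadingCoeff_ne_zero.mpr hV'0
  refine ⟨V', U', hV'0, hU'0, hWeq, ?_, ?_, ?_, ?_⟩
  · intro n
    refine le_trans ?_ (natAbs_coeff_le_ht W (Finsupp.cons n I₀))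
    rw [hprod, Int.natAbs_mul]
    exact Nat.le_mul_of_pos_right _ (Int.natAbs_pos.mpr hI₀)
  · refine Finset.sup_le fun I _ => ?_
    refine le_trans ?_ (natAbs_coeff_le_ht W (Finsupp.cons V'.natDegree I))
    rw [hprod, Int.natAbs_mul]
    exact Nat.le_mul_of_pos_left _ (Int.natAbs_pos.mpr hlc)
  · have h1 : Finsupp.cons V'.natDegree I₀ ∈ W.support := by
      rw [mem_support_iff, hprod]
      exact mul_ne_zero hlc hI₀
    have h2 := monomial_le_degreeOf 0 h1
    rwa [Finsupp.cons_zero] at h2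
  · intro i
    rw [degreeOf_le_iff]
    intro I hI
    have h1 : Finsupp.cons V'.natDegree I ∈ W.support := by
      rw [mem_support_iff, hprod]
      exact mul_ne_zero hlc (mem_support_iff.mp hI)
    have h2 := monomial_le_degreeOf i.succ h1
    rwa [Finsupp.cons_succ] at h2

end Fermat.Agent.Cor.Roth
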