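/-
Roth's theorem: polynomials in one variable (helper85).
-/
import Fermat.Agent.Corollaries.Roth.Defs

/-!
# Roth's theorem: one variable (Gauss' lemma)

`oneStmt : OneStmt`.
-/

set_option autoImplicit false

open Polynomial

namespace Fermat.Agent.Cor.Roth

namespace One

/-- The primitive polynomial `q X - p`. -/
noncomputable def lin (p q : ℤ) : ℤ[X] := C q * X + C (-p)

lemma isPrimitive_lin {p q : ℤ} (h : IsCoprime p q) : (lin p q).IsPrimitive := by
  rw [isPrimitive_iff_isUnit_of_C_dvd]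
  intro r hr
  rw [C_dvd_iff_dvd_coeff] at hr
  have h0 : r ∣ p := by
    have := hr 0
    rwa [lin, coeff_add, coeff_C_mul, coeff_X_zero, mul_zero, coeff_C_zero, zero_add,
      dvd_neg] at this
  have h1 : r ∣ q := by
    have := hr 1
    rwa [lin, coeff_add, coeff_C_mul, coeff_X_one, mul_one, coeff_C_of_ne_zero one_ne_zero,
      add_zero] at this
  exact h.isUnit_of_dvd' h0 h1

lemma map_lin {p q : ℤ} (hq : q ≠ 0) : (lin p q).map (Int.castRingHom ℚ) =
    C (q : ℚ) * (X - C ((p : ℚ) / q)) := by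
  have hq' : (q : ℚ) ≠ 0 := by exact_mod_cast hq
  rw [mul_sub, ← C_mul, mul_div_cancel₀ _ hq']
  simp [lin, sub_eq_add_neg]

end One

/-- **One variable**: a zero of order `l` at `p / q` makes the coefficients at least `q ^ l`. -/
theorem oneStmt : OneStmt := by
  intro V p q l H hV hq hpq hH hzero
  have hq0 : q ≠ 0 := by omega
  have hq' : (q : ℚ) ≠ 0 := by exact_mod_cast hq0
  have h1 : (X - C ((p : ℚ) / q)) ^ l ∣ V.map (Int.castRingHom ℚ) := by
    rw [X_sub_C_pow_dvd_iff, ← taylor_apply, X_pow_dvd_iff]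
    exact hzero
  -- the divisibility over `ℤ`
  have hprim : ((One.lin p q) ^ l).IsPrimitive := by
    induction l with
    | zero => rw [pow_zero]; exact isPrimitive_one
    | succ l ih =>
      rw [pow_succ]
      refine IsPrimitive.mul (ih (fun i hi => hzero i (by omega)) ?_) (One.isPrimitive_lin hpq)
      exact (pow_dvd_pow _ (Nat.le_succ l)).trans h1
  have h2 : ((One.lin p q) ^ l).map (Int.castRingHom ℚ) ∣ V.map (Int.castRingHom ℚ) := by
    rw [Polynomial.map_pow, One.map_lin hq0, mul_pow]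
    have hu : IsUnit ((C (q : ℚ)) ^ l : ℚ[X]) := (isUnit_C.2 (isUnit_iff_ne_zero.2 hq')).pow l
    rw [hu.mul_left_dvd]
    exact h1
  have h4 : (One.lin p q) ^ l ∣ V :=
    (IsPrimitive.Int.dvd_iff_map_cast_dvd_map_cast _ _ hprim).2 h2
  obtain ⟨W, hW⟩ := h4
  have h5 : q ^ l ∣ V.leadingCoeff := by
    rw [hW, leadingCoeff_mul, leadingCoeff_pow, One.lin, leadingCoeff_linear hq0]
    exact dvd_mul_right _ _
  have h6 : V.leadingCoeff ≠ 0 := leadingCoeff_ne_zero.2 hV
  have h7 : q ^ l ≤ |V.leadingCoeff| := Int.le_of_dvd (abs_pos.2 h6) ((dvd_abs _ _).2 h5)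
  refine h7.trans ?_
  rw [Int.abs_eq_natAbs]
  exact_mod_cast hH _

end Fermat.Agent.Cor.Roth
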