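import Fermat.Agent.Corollaries.Roth.Defs

/-!
# Roth's theorem: products of polynomials in separate variables
-/

set_option autoImplicit false

open MvPolynomial

namespace Fermat.Agent.Cor.Roth

namespace Sep

variable {m : ℕ} {K : Type} [CommRing K]

theorem mapDomain_succ_add_single (n : ℕ) (J : Fin m →₀ ℕ) :
    Finsupp.single (0 : Fin (m + 1)) n + J.mapDomain Fin.succ = Finsupp.cons n J := by
  ext i
  refine Fin.cases ?_ (fun i => ?_) i
  · rw [Finsupp.add_apply, Finsupp.single_eq_same, Finsupp.cons_zero,
      Finsupp.mapDomain_of_notMem_range, add_zero]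
    rintro ⟨j, hj⟩
    exact Fin.succ_ne_zero j hj
  · rw [Finsupp.add_apply, Finsupp.single_eq_of_ne (Fin.succ_ne_zero i), Finsupp.cons_succ,
      Finsupp.mapDomain_apply (Fin.succ_injective m), zero_add]

theorem coeff_mul (v : Polynomial K) (u : MvPolynomial (Fin m) K) (a : ℕ) (I : Fin m →₀ ℕ) :
    coeff (Finsupp.cons a I)
      (Polynomial.aeval (X 0) v * rename Fin.succ u : MvPolynomial (Fin (m + 1)) K) =
      v.coeff a * coeff I u := by
  classical
  induction v using Polynomial.induction_on' with
  | add v w hv hw => rw [map_add, add_mul, coeff_add, hv, hw, Polynomial.coeff_add, add_mul]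
  | monomial n c =>
    induction u using MvPolynomial.induction_on' with
    | add u w hu hw => rw [map_add, mul_add, coeff_add, hu, hw, coeff_add, mul_add]
    | monomial J d =>
      rw [Polynomial.aeval_monomial, rename_monomial, algebraMap_eq, C_mul_X_pow_eq_monomial,
        monomial_mul, mapDomain_succ_add_single, coeff_monomial, coeff_monomial,
        Polynomial.coeff_monomial]
      by_cases h1 : n = a
      · by_cases h2 : J = I
        · rw [h1, h2, if_pos rfl, if_pos rfl, if_pos rfl]
        · rw [if_neg h2, if_neg, mul_zero]
          intro h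
          apply h2
          have := congrArg Finsupp.tail h
          rwa [Finsupp.tail_cons, Finsupp.tail_cons] at this
      · rw [if_neg h1, if_neg, zero_mul]
        intro h
        apply h1
        have := DFunLike.congr_fun h 0
        rwa [Finsupp.cons_zero, Finsupp.cons_zero] at this

theorem tr_mul (v : Polynomial K) (u : MvPolynomial (Fin m) K) (x : Fin (m + 1) → K) :
    tr x (Polynomial.aeval (X 0) v * rename Fin.succ u) =
    Polynomial.aeval (X 0) (Polynomial.taylor (x 0) v) *
      rename Fin.succ (tr (fun i => x i.succ) u) := by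
  rw [map_mul]
  congr 1
  · rw [← Polynomial.aeval_algHom_apply, tr, aeval_X, Polynomial.taylor_apply,
      Polynomial.aeval_comp]
    congr 1
    rw [map_add, Polynomial.aeval_X, Polynomial.aeval_C, algebraMap_eq]
  · rw [tr, tr, aeval_rename, ← AlgHom.comp_apply, comp_aeval]
    congr 2
    funext i
    simp

end Sep

theorem sepStmt : SepStmt := fun _ _ _ v u => ⟨Sep.coeff_mul v u, Sep.tr_mul v u⟩

end Fermat.Agent.Cor.Roth
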