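import Fermat.Agent.Corollaries.Roth.Defs

/-!
# Roth's lemma: the induction step

`P` with large index at `x = (p_i / q_i)`: the generalised Wronskian `W = V(X_0) U(X_1, …, X_m)` has
large index, but `V` has small index at `x_0` (Gauss' lemma) and `U` has small index by induction.
-/

set_option autoImplicit false

open MvPolynomial

namespace Fermat.Agent.Cor.Roth.Step

open Fermat.Agent.Cor.Roth

theorem ht_pos {m : ℕ} {P : MvPolynomial (Fin m) ℤ} (hP : P ≠ 0) : 0 < ht P := by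
  obtain ⟨I, hI⟩ := MvPolynomial.ne_zero_iff.1 hP
  have h1 : (coeff I P).natAbs ≤ ht P :=
    Finset.le_sup (f := fun I => (coeff I P).natAbs) (mem_support_iff.2 hI)
  exact lt_of_lt_of_le (Int.natAbs_pos.2 hI) h1

theorem log_natCast_mono {a b : ℕ} (h : a ≤ b) : Real.log a ≤ Real.log b := by
  rcases Nat.eq_zero_or_pos a with rfl | ha
  · simpa using Real.log_natCast_nonneg b
  · exact Real.log_le_log (by exact_mod_cast ha) (by exact_mod_cast h)

theorem map_aeval_X {m : ℕ} (V : Polynomial ℤ) :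
    map (Int.castRingHom ℚ) (Polynomial.aeval (X 0) V : MvPolynomial (Fin (m + 1)) ℤ) =
      Polynomial.aeval (X 0) (V.map (Int.castRingHom ℚ)) := by
  rw [Polynomial.aeval_def, Polynomial.aeval_def, Polynomial.hom_eval₂, Polynomial.eval₂_map, map_X]
  congr 1
  exact RingHom.ext_int _ _

theorem dv_mul (hS : SepStmt) {m : ℕ} (V : Polynomial ℤ) (U : MvPolynomial (Fin m) ℤ)
    (x : Fin (m + 1) → ℚ) (a : ℕ) (J : Fin m →₀ ℕ) :
    dv x (Polynomial.aeval (X 0) V * rename Fin.succ U) (Finsupp.cons a J) =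
      (Polynomial.taylor (x 0) (V.map (Int.castRingHom ℚ))).coeff a *
        dv (fun i => x i.succ) U J := by
  rw [dv, map_mul, map_aeval_X, map_rename, (hS m ℚ _ _).2 x, (hS m ℚ _ _).1]
  rfl

theorem wt_cons {m : ℕ} (r : Fin (m + 1) → ℕ) (a : ℕ) (J : Fin m →₀ ℕ) :
    wt r (Finsupp.cons a J) = (a : ℝ) / r 0 + ∑ i, (J i : ℝ) / r i.succ := by
  rw [wt, Fin.sum_univ_succ]
  simp

/-- the chain -/
theorem chain {m : ℕ} {r : Fin (m + 1) → ℕ} {ω : ℝ} (h0 : 0 ≤ ω) (h1 : ω ≤ 1)
    (hc : ∀ i j : Fin (m + 1), (i : ℕ) + 1 = j → (r i : ℝ) ≤ ω * r j) (l : Fin m) :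
    (r 0 : ℝ) ≤ ω * r l.succ := by
  obtain ⟨l, hl⟩ := l
  induction l with
  | zero => exact hc _ _ (by simp)
  | succ n ih =>
    have h2 := ih (by omega)
    have h3 := hc (Fin.succ ⟨n, by omega⟩) (Fin.succ ⟨n + 1, hl⟩) (by simp)
    have h4 : (0 : ℝ) ≤ r (Fin.succ ⟨n + 1, hl⟩) := Nat.cast_nonneg _
    refine h2.trans (mul_le_mul_of_nonneg_left (h3.trans ?_) h0)
    nlinarith

theorem stepStmt_of (hW : WronskStmt) (hS : SepStmt) (hI : IntStmt) (hD : DetStmt)
    (hX : IdxStmt) (hO : OneStmt) : StepStmt := by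
  intro m hm ε hε
  set Θ : ℝ := min ε 1 with hΘ
  have hΘ0 : 0 < Θ := lt_min hε one_pos
  have hΘ1 : Θ ≤ 1 := min_le_right _ _
  have hΘε : Θ ≤ ε := min_le_left _ _
  obtain ⟨ω', hω', B', hB', hR⟩ := hm (Θ ^ 2 / 100) (by positivity)
  set ω : ℝ := min (min ω' (Θ / 2)) (min (Θ ^ 2 / 100) 1) with hω
  have hω0 : 0 < ω := lt_min (lt_min hω' (by positivity)) (lt_min (by positivity) one_pos)
  have hωω' : ω ≤ ω' := (min_le_left _ _).trans (min_le_left _ _)
  have hωΘ : ω ≤ Θ / 2 := (min_le_left _ _).trans (min_le_right _ _)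
  have hωε : ω ≤ Θ ^ 2 / 100 := (min_le_right _ _).trans (min_le_left _ _)
  have hω1 : ω ≤ 1 := (min_le_right _ _).trans (min_le_right _ _)
  have hlog8 : 0 < Real.log 8 := Real.log_pos (by norm_num)
  refine ⟨ω, hω0, B' + Real.log 8, by positivity, fun r p q P hr hc hP hdeg hq hpq hlog => ?_⟩
  by_contra hcon
  push Not at hcon
  obtain ⟨k, I, V, U, hk0, hk1, hIr, hV, hU, hVU⟩ := hW m (r 0) P hP (hdeg 0)
  obtain ⟨V', U', hV', hU', hVU', hVh, hUh, -, hUd⟩ := hI m _ V U hV hU hVU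
  obtain ⟨hWd, hWh⟩ := hD m k r I P hP hr hdeg hk1
  have hidx := hX m k r I P (fun i => (p i : ℚ) / q i) Θ hk0 hr hk1 hIr hΘ0 hΘ1
    (fun l => (chain hω0.le hω1 hc l).trans (mul_le_mul_of_nonneg_right hωΘ (Nat.cast_nonneg _)))
    (fun J hJ => hcon J (hJ.trans_le hΘε))
  have hkR : (0 : ℝ) < k := by exact_mod_cast hk0
  have hrR : ∀ i, (0 : ℝ) < r i := fun i => by exact_mod_cast hr i
  have hHP : 0 < ht P := ht_pos hP
  have hHPR : (0 : ℝ) < ht P := by exact_mod_cast hHP
  -- the height of `W`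
  have hWlog : Real.log (ht (wdet I P)) ≤
      k * (Real.log (ht P) + Real.log 8 * ∑ i, (r i : ℝ)) := by
    refine (log_natCast_mono hWh).trans (le_of_eq ?_)
    push_cast
    rw [Real.log_pow, Real.log_mul (by positivity) hHPR.ne', Real.log_pow]
    push_cast
    ring
  have hsum0 : (0 : ℝ) ≤ ∑ i, (r i : ℝ) := Finset.sum_nonneg fun i _ => (hrR i).le
  have hq0 : ∀ i, 0 ≤ Real.log (q i) := fun i => by
    apply Real.log_nonneg
    exact_mod_cast hq i
  have hWlog' : ∀ i, Real.log (ht (wdet I P)) + k * (B' * ∑ i, (r i : ℝ)) ≤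
      k * (ω * (r i * Real.log (q i))) := by
    intro i
    have h1 := mul_le_mul_of_nonneg_left (hlog i) hkR.le
    nlinarith [hWlog, h1]
  -- the index of `V'`
  have hex : ∃ a, (Polynomial.taylor ((p 0 : ℚ) / q 0) (V'.map (Int.castRingHom ℚ))).coeff a ≠ 0 := by
    by_contra h
    push Not at h
    apply hV'
    have h1 : Polynomial.taylor ((p 0 : ℚ) / q 0) (V'.map (Int.castRingHom ℚ)) = 0 :=
      Polynomial.ext fun a => by rw [h a, Polynomial.coeff_zero]
    have h2 : V'.map (Int.castRingHom ℚ) = 0 :=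
      Polynomial.taylor_injective ((p 0 : ℚ) / q 0) (by rw [h1, map_zero])
    exact (Polynomial.map_eq_zero_iff (RingHom.injective_int (Int.castRingHom ℚ))).1 h2
  classical
  set l := Nat.find hex with hl
  have hl1 := Nat.find_spec hex
  have hl2 : ∀ i < l, (Polynomial.taylor ((p 0 : ℚ) / q 0)
      (V'.map (Int.castRingHom ℚ))).coeff i = 0 := fun i hi => not_not.1 (Nat.find_min hex hi)
  have hqH := hO V' (p 0) (q 0) l (ht (wdet I P)) hV' (hq 0) (hpq 0) hVh hl2
  have hq0R : (0 : ℝ) < q 0 := by exact_mod_cast (zero_lt_one.trans_le (hq 0))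
  have hlq : l * Real.log (q 0) ≤ k * (ω * (r 0 * Real.log (q 0))) := by
    have h1 : ((q 0 : ℤ) : ℝ) ^ l ≤ (ht (wdet I P) : ℝ) := by exact_mod_cast hqH
    have h2 := Real.log_le_log (pow_pos hq0R l) h1
    rw [Real.log_pow] at h2
    have h3 := hWlog' 0
    have h4 : 0 ≤ k * (B' * ∑ i, (r i : ℝ)) := by positivity
    linarith
  have hlogq0 : 0 < Real.log (q 0) := by
    refine lt_of_le_of_ne (hq0 0) fun h => ?_
    have h1 := hlog 0
    rw [← h, mul_zero, mul_zero] at h1
    have h2 : 0 ≤ Real.log (ht P) := Real.log_natCast_nonneg _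
    have h3 : 0 < ∑ i, (r i : ℝ) := Finset.sum_pos (fun i _ => hrR i) Finset.univ_nonempty
    have h4 : 0 < (B' + Real.log 8) * ∑ i, (r i : ℝ) := by positivity
    linarith
  have hlr : (l : ℝ) / r 0 ≤ k * ω := by
    rw [div_le_iff₀ (hrR 0)]
    refine le_of_mul_le_mul_right ?_ hlogq0
    linarith
  -- the index of `U'`
  obtain ⟨J, hJ, hJ0⟩ := hR (fun i => k * r i.succ) (fun i => p i.succ) (fun i => q i.succ) U'
    (fun i => Nat.mul_pos hk0 (hr _))
    (fun i j hij => by
      have h1 := hc i.succ j.succ (by simp [← hij])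
      have h2 := mul_le_mul_of_nonneg_right hωω' (hrR j.succ).le
      push_cast
      nlinarith)
    hU' (fun i => (hUd i).trans (hWd _)) (fun i => hq _) (fun i => hpq _)
    (fun i => by
      have h1 := hWlog' i.succ
      have h2 := log_natCast_mono hUh
      have h3 : ∑ j : Fin m, ((k * r j.succ : ℕ) : ℝ) ≤ k * ∑ i, (r i : ℝ) := by
        rw [Fin.sum_univ_succ]
        push_cast
        rw [← Finset.mul_sum]
        nlinarith [mul_pos hkR (hrR 0)]
      have h4 := mul_le_mul_of_nonneg_left h3 hB'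
      have h5 : ω * (k * (r i.succ * Real.log (q i.succ))) ≤
          ω' * (k * (r i.succ * Real.log (q i.succ))) :=
        mul_le_mul_of_nonneg_right hωω' (mul_nonneg hkR.le (mul_nonneg (hrR _).le (hq0 _)))
      push_cast
      push_cast at h4
      nlinarith)
  -- the contradiction
  refine absurd (hidx (Finsupp.cons l J) ?_) ?_
  · rw [wt_cons]
    have h1 : ∑ i, (J i : ℝ) / r i.succ = k * wt (fun i => k * r i.succ) J := by
      rw [wt, Finset.mul_sum]
      refine Finset.sum_congr rfl fun i _ => ?_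
      have h2 := (hrR i.succ).ne'
      push_cast
      field_simp
    rw [h1]
    have h2 := mul_lt_mul_of_pos_left hJ hkR
    have h3 := mul_le_mul_of_nonneg_left hωε hkR.le
    have h4 : 0 < k * Θ ^ 2 := by positivity
    nlinarith
  · rw [hVU', dv_mul hS]
    exact mul_ne_zero hl1 hJ0

end Fermat.Agent.Cor.Roth.Step

namespace Fermat.Agent.Cor.Roth

/-- (STEP) the induction step of Roth's lemma -/
theorem stepStmt_of (hW : WronskStmt) (hS : SepStmt) (hI : IntStmt) (hD : DetStmt)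
    (hX : IdxStmt) (hO : OneStmt) : StepStmt :=
  Step.stepStmt_of hW hS hI hD hX hO

end Fermat.Agent.Cor.Roth
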