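import Fermat.Agent.Corollaries.Roth.WrDefs

/-!
# Roth's theorem: generalised Wronskians in several variables
-/

set_option autoImplicit false

open MvPolynomial

namespace Fermat.Agent.Cor.Roth.WrMulti

variable {m : ℕ}

/-- the binomial coefficient `C(J, I)` as a function of `J` -/
noncomputable def bin (I : Fin m →₀ ℕ) (J : Fin m →₀ ℕ) : ℚ := ∏ i, ((J i).choose (I i) : ℚ)

/-- the weight `∑ g^l J_l` -/
noncomputable def wJ (g : ℕ) (J : Fin m →₀ ℕ) : ℕ := ∑ l, J l * g ^ (l : ℕ)

lemma mul_choose (n k : ℕ) :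
    (n : ℚ) * (n.choose k : ℚ) = (k + 1) * (n.choose (k + 1) : ℚ) + k * (n.choose k : ℚ) := by
  rcases Nat.lt_or_ge n k with h | h
  · rw [Nat.choose_eq_zero_of_lt h, Nat.choose_eq_zero_of_lt (Nat.lt_succ_of_lt h)]
    simp
  · have h1 := Nat.choose_succ_right_eq n k
    have h2 : ((n.choose (k + 1) : ℕ) : ℚ) * (k + 1) = n.choose k * ((n : ℚ) - k) := by
      rw [← Nat.cast_sub h]
      exact_mod_cast h1
    linear_combination -h2

lemma mul_bin (I J : Fin m →₀ ℕ) (l : Fin m) : (J l : ℚ) * bin I J =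
    (I l + 1) * bin (I + Finsupp.single l 1) J + I l * bin I J := by
  classical
  have h1 : ∀ F : Fin m → ℚ, ∏ i, F i = F l * ∏ i ∈ Finset.univ.erase l, F i := fun F =>
    (Finset.mul_prod_erase _ _ (Finset.mem_univ l)).symm
  have h2 : ∏ i ∈ Finset.univ.erase l, ((J i).choose ((I + Finsupp.single l 1 : Fin m →₀ ℕ) i) : ℚ) =
      ∏ i ∈ Finset.univ.erase l, ((J i).choose (I i) : ℚ) := by
    refine Finset.prod_congr rfl fun i hi => ?_
    rw [Finsupp.add_apply, Finsupp.single_eq_of_ne (Finset.ne_of_mem_erase hi), add_zero]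
  unfold bin
  rw [h1 fun i => ((J i).choose (I i) : ℚ),
    h1 fun i => ((J i).choose ((I + Finsupp.single l 1 : Fin m →₀ ℕ) i) : ℚ), h2, Finsupp.add_apply,
    Finsupp.single_eq_same]
  linear_combination (∏ i ∈ Finset.univ.erase l, ((J i).choose (I i) : ℚ)) * mul_choose (J l) (I l)

/-- the span of the `C(J, I)`, `|I| ≤ n` -/
noncomputable def VV (m n : ℕ) : Submodule ℚ ((Fin m →₀ ℕ) → ℚ) :=
  Submodule.span ℚ (bin '' {I | ∑ l, I l ≤ n})

lemma bin_mem {n : ℕ} {I : Fin m →₀ ℕ} (hI : ∑ l, I l ≤ n) : bin I ∈ VV m n :=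
  Submodule.subset_span ⟨I, hI, rfl⟩

lemma mul_mem {g n : ℕ} {f : (Fin m →₀ ℕ) → ℚ} (hf : f ∈ VV m n) :
    (fun J => (wJ g J : ℚ) * f J) ∈ VV m (n + 1) := by
  induction hf using Submodule.span_induction with
  | mem f hf =>
    obtain ⟨I, hI, rfl⟩ := hf
    have hI' : ∑ l, I l ≤ n := hI
    have h1 : (fun J : Fin m →₀ ℕ => (wJ g J : ℚ) * bin I J) =
        ∑ l : Fin m, (((g : ℚ) ^ (l : ℕ) * (I l + 1)) • bin (I + Finsupp.single l 1) +
          ((g : ℚ) ^ (l : ℕ) * I l) • bin I) := by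
      funext J
      rw [Finset.sum_apply, wJ]
      push_cast
      rw [Finset.sum_mul]
      refine Finset.sum_congr rfl fun l _ => ?_
      rw [Pi.add_apply, Pi.smul_apply, Pi.smul_apply, smul_eq_mul, smul_eq_mul]
      linear_combination ((g : ℚ) ^ (l : ℕ)) * mul_bin I J l
    rw [h1]
    refine Submodule.sum_mem _ fun l _ => Submodule.add_mem _ (Submodule.smul_mem _ _ (bin_mem ?_))
      (Submodule.smul_mem _ _ (bin_mem (by omega)))
    have h2 : ∑ i, (I + Finsupp.single l 1 : Fin m →₀ ℕ) i = ∑ i, I i + 1 := by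
      simp only [Finsupp.add_apply]
      rw [Finset.sum_add_distrib]
      congr 1
      rw [Finset.sum_eq_single l]
      · rw [Finsupp.single_eq_same]
      · intro i _ hi
        rw [Finsupp.single_eq_of_ne hi]
      · intro h
        exact absurd (Finset.mem_univ l) h
    omega
  | zero =>
    have h1 : (fun J : Fin m →₀ ℕ => (wJ g J : ℚ) * (0 : (Fin m →₀ ℕ) → ℚ) J) = 0 := by
      funext J
      simp
    rw [h1]
    exact Submodule.zero_mem _
  | add f f' _ _ h h' =>
    have h1 : (fun J : Fin m →₀ ℕ => (wJ g J : ℚ) * (f + f') J) =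
        (fun J => (wJ g J : ℚ) * f J) + fun J => (wJ g J : ℚ) * f' J := by
      funext J
      simp only [Pi.add_apply]
      ring
    rw [h1]
    exact Submodule.add_mem _ h h'
  | smul c f _ h =>
    have h1 : (fun J : Fin m →₀ ℕ => (wJ g J : ℚ) * (c • f) J) =
        c • fun J => (wJ g J : ℚ) * f J := by
      funext J
      simp only [Pi.smul_apply, smul_eq_mul]
      ring
    rw [h1]
    exact Submodule.smul_mem _ _ h

lemma pow_mem (g n : ℕ) : (fun J : Fin m →₀ ℕ => (wJ g J : ℚ) ^ n) ∈ VV m n := by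
  induction n with
  | zero =>
    have h1 : (fun J : Fin m →₀ ℕ => (wJ g J : ℚ) ^ 0) = bin 0 := by
      funext J
      simp [bin]
    rw [h1]
    exact bin_mem (by simp)
  | succ n ih =>
    have h1 := mul_mem (g := g) ih
    have h2 : (fun J : Fin m →₀ ℕ => (wJ g J : ℚ) ^ (n + 1)) =
        fun J => (wJ g J : ℚ) * (wJ g J : ℚ) ^ n := by
      funext J
      rw [pow_succ']
    rw [h2]
    exact h1

lemma exists_coeffs (g n : ℕ) : ∃ a : (Fin m →₀ ℕ) →₀ ℚ, (∀ I ∈ a.support, ∑ l, I l ≤ n) ∧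
    ∀ J : Fin m →₀ ℕ, (wJ g J : ℚ) ^ n = ∑ I ∈ a.support, a I * bin I J := by
  obtain ⟨a, ha, h⟩ := (Finsupp.mem_span_image_iff_linearCombination ℚ).mp (pow_mem (m := m) g n)
  refine ⟨a, fun I hI => ha hI, fun J => ?_⟩
  have h1 := congrFun h J
  rw [← h1, Finsupp.linearCombination_apply, Finsupp.sum, Finset.sum_apply]
  exact Finset.sum_congr rfl fun I _ => rfl

/-- the operator `X^J ↦ w(J)^n X^J` -/
noncomputable def DD (g n : ℕ) (f : MvPolynomial (Fin m) ℚ) : MvPolynomial (Fin m) ℚ :=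
  ∑ J ∈ f.support, monomial J ((wJ g J : ℚ) ^ n * coeff J f)

lemma coeff_DD (g n : ℕ) (f : MvPolynomial (Fin m) ℚ) (J : Fin m →₀ ℕ) :
    coeff J (DD g n f) = (wJ g J : ℚ) ^ n * coeff J f := by
  classical
  rw [DD, coeff_sum]
  simp only [coeff_monomial]
  rw [Finset.sum_ite_eq' f.support J]
  split_ifs with h
  · rfl
  · rw [notMem_support_iff.mp h, mul_zero]

lemma coeff_monomial_mul_dd (I J : Fin m →₀ ℕ) (f : MvPolynomial (Fin m) ℚ) :
    coeff J (monomial I 1 * dd I f) = bin I J * coeff J f := by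
  rw [coeff_monomial_mul', one_mul]
  split_ifs with h
  · rw [coeff_dd, tsub_add_cancel_of_le h, bin, mul_comm]
    congr 1
    refine Finset.prod_congr rfl fun i _ => ?_
    have h1 : (J - I) i + I i = J i := by
      rw [Finsupp.tsub_apply, Nat.sub_add_cancel (h i)]
    rw [h1]
  · have h2 : ∃ i, J i < I i := by
      by_contra h3
      push Not at h3
      exact h fun i => h3 i
    obtain ⟨i, hi⟩ := h2
    rw [bin, Finset.prod_eq_zero (Finset.mem_univ i) (by rw [Nat.choose_eq_zero_of_lt hi]; simp),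
      zero_mul]

lemma DD_eq {g n : ℕ} {a : (Fin m →₀ ℕ) →₀ ℚ}
    (ha : ∀ J : Fin m →₀ ℕ, (wJ g J : ℚ) ^ n = ∑ I ∈ a.support, a I * bin I J)
    (f : MvPolynomial (Fin m) ℚ) :
    DD g n f = ∑ I ∈ a.support, monomial I (a I) * dd I f := by
  ext J
  rw [coeff_DD, coeff_sum, ha J, Finset.sum_mul]
  refine Finset.sum_congr rfl fun I _ => ?_
  have h1 : (monomial I (a I) : MvPolynomial (Fin m) ℚ) = C (a I) * monomial I 1 := by
    rw [C_mul_monomial, mul_one]
  rw [h1, mul_assoc (C (a I)), coeff_C_mul, coeff_monomial_mul_dd, mul_assoc]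

/-! ### Kronecker's substitution -/

/-- `X_l ↦ t ^ (g ^ l)` -/
noncomputable def kro (g : ℕ) : MvPolynomial (Fin m) ℚ →ₐ[ℚ] Polynomial ℚ :=
  aeval fun l => Polynomial.X ^ g ^ (l : ℕ)

lemma kro_monomial (g : ℕ) (J : Fin m →₀ ℕ) (c : ℚ) :
    kro g (monomial J c) = Polynomial.C c * Polynomial.X ^ wJ g J := by
  rw [kro, aeval_monomial, Finsupp.prod_fintype _ _ fun i => pow_zero _, wJ,
    ← Finset.prod_pow_eq_pow_sum, Polynomial.algebraMap_eq]
  congr 1
  refine Finset.prod_congr rfl fun l _ => ?_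
  rw [← pow_mul, mul_comm]

lemma kro_apply (g : ℕ) (f : MvPolynomial (Fin m) ℚ) :
    kro g f = ∑ J ∈ f.support, Polynomial.C (coeff J f) * Polynomial.X ^ wJ g J := by
  conv_lhs => rw [← support_sum_monomial_coeff f]
  rw [map_sum]
  exact Finset.sum_congr rfl fun J _ => kro_monomial g J _

lemma euler_iter (n : ℕ) (c : ℚ) (e : ℕ) :
    (fun g : Polynomial ℚ => Polynomial.X * Polynomial.derivative g)^[n]
      (Polynomial.C c * Polynomial.X ^ e) = Polynomial.C ((e : ℚ) ^ n * c) * Polynomial.X ^ e := by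
  induction n with
  | zero => simp
  | succ n ih =>
    rw [Function.iterate_succ_apply', ih]
    rw [Polynomial.derivative_C_mul, Polynomial.derivative_X_pow]
    rcases Nat.eq_zero_or_pos e with rfl | he
    · simp
    · obtain ⟨e', rfl⟩ : ∃ e', e = e' + 1 := ⟨e - 1, by omega⟩
      rw [Nat.add_sub_cancel, pow_succ ((((e' + 1 : ℕ)) : ℚ)) n, Polynomial.C_mul, Polynomial.C_mul,
        Polynomial.C_mul]
      ring

lemma euler_iter_sum (n : ℕ) {ι : Type*} (s : Finset ι) (F : ι → Polynomial ℚ) :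
    (fun g : Polynomial ℚ => Polynomial.X * Polynomial.derivative g)^[n] (∑ i ∈ s, F i) =
      ∑ i ∈ s, (fun g : Polynomial ℚ => Polynomial.X * Polynomial.derivative g)^[n] (F i) := by
  induction n with
  | zero => rfl
  | succ n ih =>
    rw [Function.iterate_succ_apply', ih, Polynomial.derivative_sum, Finset.mul_sum]
    exact Finset.sum_congr rfl fun i _ => by rw [Function.iterate_succ_apply']

lemma kro_DD (g n : ℕ) (f : MvPolynomial (Fin m) ℚ) :
    kro g (DD g n f) =
      (fun g : Polynomial ℚ => Polynomial.X * Polynomial.derivative g)^[n] (kro g f) := by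
  rw [DD, map_sum, kro_apply, euler_iter_sum]
  refine Finset.sum_congr rfl fun J _ => ?_
  rw [kro_monomial, euler_iter]

lemma wJ_inj {g : ℕ} {J J' : Fin m →₀ ℕ} (hJ : ∀ l, J l < g) (hJ' : ∀ l, J' l < g)
    (h : wJ g J = wJ g J') : J = J' := by
  have h1 : (finFunctionFinEquiv fun l => (⟨J l, hJ l⟩ : Fin g)) =
      finFunctionFinEquiv fun l => (⟨J' l, hJ' l⟩ : Fin g) := by
    apply Fin.ext
    rw [finFunctionFinEquiv_apply, finFunctionFinEquiv_apply]
    exact h
  have h2 := finFunctionFinEquiv.injective h1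
  ext l
  exact congrArg Fin.val (congrFun h2 l)

lemma kro_ne_zero {g : ℕ} {f : MvPolynomial (Fin m) ℚ} (hf : f ≠ 0)
    (hg : ∀ J ∈ f.support, ∀ l, J l < g) : kro g f ≠ 0 := by
  classical
  obtain ⟨J₀, hJ₀⟩ := support_nonempty.mpr hf
  intro h
  have h1 := congrArg (fun p => Polynomial.coeff p (wJ g J₀)) h
  simp only [kro_apply, Polynomial.finsetSum_coeff, Polynomial.coeff_C_mul, Polynomial.coeff_X_pow,
    Polynomial.coeff_zero] at h1
  rw [Finset.sum_eq_single J₀] at h1
  · rw [if_pos rfl, mul_one] at h1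
    exact (mem_support_iff.mp hJ₀) h1
  · intro J hJ hne
    rw [if_neg, mul_zero]
    intro h2
    exact hne (wJ_inj (hg J hJ) (hg J₀ hJ₀) h2.symm)
  · intro h2
    exact absurd hJ₀ h2

/-- **(WR2)** -/
theorem _root_.Fermat.Agent.Cor.Roth.wrSevStmt_of
    (h : ∀ (k : ℕ) (f : Fin k → Polynomial ℚ), LinearIndependent ℚ f →
      (Matrix.of fun i j : Fin k =>
        (fun g : Polynomial ℚ => Polynomial.X * Polynomial.derivative g)^[(i : ℕ)] (f j)).det ≠ 0) :
    WrSevStmt := by
  classical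
  intro m k φ hφ
  -- a bound for the exponents
  set g : ℕ := (∑ j, ∑ l, degreeOf l (φ j)) + 1 with hg
  have hdeg : ∀ (j : Fin k) (J : Fin m →₀ ℕ), J ∈ (φ j).support → ∀ l, J l < g := by
    intro j J hJ l
    have h1 : J l ≤ degreeOf l (φ j) := monomial_le_degreeOf l hJ
    have h2 : degreeOf l (φ j) ≤ ∑ l, degreeOf l (φ j) :=
      Finset.single_le_sum (f := fun l => degreeOf l (φ j)) (fun _ _ => Nat.zero_le _)
        (Finset.mem_univ l)
    have h3 : ∑ l, degreeOf l (φ j) ≤ ∑ j, ∑ l, degreeOf l (φ j) :=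
      Finset.single_le_sum (f := fun j => ∑ l, degreeOf l (φ j)) (fun _ _ => Nat.zero_le _)
        (Finset.mem_univ j)
    omega
  have hind : LinearIndependent ℚ fun j => kro g (φ j) := by
    rw [Fintype.linearIndependent_iff] at hφ ⊢
    intro c hc
    refine hφ c ?_
    by_contra hne
    refine kro_ne_zero (g := g) hne (fun J hJ l => ?_) ?_
    · have h1 : ∃ j, J ∈ (φ j).support := by
        by_contra h2
        push Not at h2
        apply mem_support_iff.mp hJ
        rw [coeff_sum]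
        refine Finset.sum_eq_zero fun j _ => ?_
        rw [coeff_smul, notMem_support_iff.mp (h2 j), smul_zero]
      obtain ⟨j, hj⟩ := h1
      exact hdeg j J hj l
    · rw [map_sum]
      simpa only [map_smul] using hc
  have hdet := h k _ hind
  choose a ha1 ha2 using fun n => exists_coeffs (m := m) g n
  have h1 : (Matrix.of fun i j : Fin k => DD g (i : ℕ) (φ j)).det ≠ 0 := by
    intro h0
    apply hdet
    have h2 := congrArg (kro g) h0
    rw [map_zero, AlgHom.map_det] at h2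
    rw [← h2]
    congr 1
    ext i j : 2
    simp only [Matrix.of_apply, AlgHom.mapMatrix_apply, Matrix.map_apply, kro_DD]
  have h2 : (Matrix.of fun i j : Fin k => DD g (i : ℕ) (φ j)).det =
      ∑ r ∈ Fintype.piFinset fun i : Fin k => (a (i : ℕ)).support,
        (∏ i : Fin k, monomial (r i) (a (i : ℕ) (r i))) *
          (Matrix.of fun i j : Fin k => dd (r i) (φ j)).det := by
    have h3 : (Matrix.of fun i j : Fin k => DD g (i : ℕ) (φ j)) =
        fun i : Fin k => ∑ I ∈ (a (i : ℕ)).support,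
          (fun j : Fin k => (monomial I (a (i : ℕ) I) * dd I (φ j) : MvPolynomial (Fin m) ℚ)) := by
      funext i j
      rw [Matrix.of_apply, DD_eq (ha2 i), Finset.sum_apply]
    have h4 := (Matrix.detRowAlternating (R := MvPolynomial (Fin m) ℚ)
      (n := Fin k)).toMultilinearMap.map_sum_finset
      (fun (i : Fin k) (I : Fin m →₀ ℕ) => (fun j : Fin k =>
        (monomial I (a (i : ℕ) I) * dd I (φ j) : MvPolynomial (Fin m) ℚ)))
      fun i : Fin k => (a (i : ℕ)).support
    rw [h3]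
    refine h4.trans (Finset.sum_congr rfl fun r _ => ?_)
    exact Matrix.det_mul_column (fun i : Fin k => monomial (r i) (a (i : ℕ) (r i)))
      (Matrix.of fun i j : Fin k => dd (r i) (φ j))
  rw [h2] at h1
  obtain ⟨r, hr, hne⟩ := Finset.exists_ne_zero_of_sum_ne_zero h1
  exact ⟨r, fun i => ha1 _ _ (Fintype.mem_piFinset.mp hr i), right_ne_zero_of_mul hne⟩

end Fermat.Agent.Cor.Roth.WrMulti
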