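import Fermat.Agent.Corollaries.Roth.WrOne
import Fermat.Agent.Corollaries.Roth.WrMulti
import Fermat.Agent.Corollaries.Roth.Sep

/-!
# Roth's theorem: minimal decompositions and the determinant
-/

set_option autoImplicit false

open MvPolynomial

namespace Fermat.Agent.Cor.Roth.WronskB

variable {m : ℕ}

theorem map_hd (I : Fin m →₀ ℕ) (P : MvPolynomial (Fin m) ℤ) :
    map (Int.castRingHom ℚ) (hd I P) = dd I (map (Int.castRingHom ℚ) P) := by
  rw [hd, dd, support_map_of_injective _ (RingHom.injective_int (Int.castRingHom ℚ)), map_sum]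
  refine Finset.sum_congr rfl fun J _ => ?_
  rw [map_monomial, coeff_map]
  simp

theorem dd_sum {ι : Type*} (s : Finset ι) (I : Fin m →₀ ℕ) (f : ι → MvPolynomial (Fin m) ℚ) :
    dd I (∑ j ∈ s, f j) = ∑ j ∈ s, dd I (f j) := by
  ext L
  rw [coeff_dd, coeff_sum, coeff_sum, Finset.sum_mul]
  exact Finset.sum_congr rfl fun j _ => (coeff_dd I L (f j)).symm

theorem cons_add_cons (n a : ℕ) (J I : Fin m →₀ ℕ) :
    Finsupp.cons n J + Finsupp.cons a I = Finsupp.cons (n + a) (J + I) := by
  ext i
  refine Fin.cases ?_ (fun i => ?_) i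
  · rw [Finsupp.add_apply, Finsupp.cons_zero, Finsupp.cons_zero, Finsupp.cons_zero]
  · rw [Finsupp.add_apply, Finsupp.cons_succ, Finsupp.cons_succ, Finsupp.cons_succ,
      Finsupp.add_apply]

theorem ext_cons {f g : MvPolynomial (Fin (m + 1)) ℚ}
    (h : ∀ (n : ℕ) (J : Fin m →₀ ℕ), coeff (Finsupp.cons n J) f = coeff (Finsupp.cons n J) g) :
    f = g := by
  ext K
  rw [← Finsupp.cons_tail K]
  exact h _ _

theorem dd_cons (a : ℕ) (I : Fin m →₀ ℕ) (v : Polynomial ℚ) (u : MvPolynomial (Fin m) ℚ) :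
    dd (Finsupp.cons a I) (Polynomial.aeval (X 0) v * rename Fin.succ u) =
      Polynomial.aeval (X 0) (Polynomial.hasseDeriv a v) * rename Fin.succ (dd I u) := by
  apply ext_cons
  intro n J
  rw [coeff_dd, cons_add_cons, Sep.coeff_mul, Sep.coeff_mul, Fin.prod_univ_succ,
    Polynomial.hasseDeriv_coeff, coeff_dd]
  simp only [Finsupp.cons_zero, Finsupp.cons_succ]
  ring

theorem wronskStmt : WronskStmt := by
  classical
  intro m r0 P hP hdeg
  set P' : MvPolynomial (Fin (m + 1)) ℚ := map (Int.castRingHom ℚ) P with hP'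
  set c : ℕ → MvPolynomial (Fin m) ℚ := fun n => (finSuccEquiv ℚ m P').coeff n with hc
  have hcc : ∀ (n : ℕ) (J : Fin m →₀ ℕ), coeff J (c n) = coeff (Finsupp.cons n J) P' :=
    fun n J => finSuccEquiv_coeff_coeff J P' n
  have hc0 : ∀ n, r0 < n → c n = 0 := by
    intro n hn
    ext J
    rw [hcc, coeff_zero, hP', coeff_map]
    by_contra hne
    have h1 : Finsupp.cons n J ∈ P.support := by
      rw [mem_support_iff]
      intro h0
      rw [h0, map_zero] at hne
      exact hne rfl
    have h2 := (monomial_le_degreeOf 0 h1).trans hdeg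
    rw [Finsupp.cons_zero] at h2
    omega
  set S : Submodule ℚ (MvPolynomial (Fin m) ℚ) :=
    Submodule.span ℚ (Set.range fun n : Fin (r0 + 1) => c n) with hS
  have : Module.Finite ℚ S := Module.Finite.span_of_finite ℚ (Set.finite_range _)
  set k := Module.finrank ℚ S with hk
  have hkr : k ≤ r0 + 1 := by
    have h1 := finrank_range_le_card (R := ℚ) (fun n : Fin (r0 + 1) => c n)
    rw [Fintype.card_fin] at h1
    exact h1
  let b : Module.Basis (Fin k) ℚ S := Module.finBasis ℚ S
  have hcS : ∀ n, c n ∈ S := by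
    intro n
    rcases Nat.lt_or_ge r0 n with h | h
    · rw [hc0 n h]
      exact S.zero_mem
    · exact Submodule.subset_span ⟨⟨n, by omega⟩, rfl⟩
  set d : ℕ → Fin k → ℚ := fun n j => b.repr ⟨c n, hcS n⟩ j with hd'
  set φ : Fin k → MvPolynomial (Fin m) ℚ := fun j => (b j : MvPolynomial (Fin m) ℚ) with hφ
  have hcd : ∀ n, c n = ∑ j, d n j • φ j := by
    intro n
    have h1 := b.sum_repr ⟨c n, hcS n⟩
    have h2 := congrArg (Submodule.subtype S) h1
    rw [map_sum] at h2
    exact h2.symm
  have hd0 : ∀ n, r0 < n → ∀ j, d n j = 0 := by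
    intro n hn j
    have h1 : (⟨c n, hcS n⟩ : S) = 0 := Subtype.ext (hc0 n hn)
    rw [hd']
    simp only
    rw [h1, map_zero]
    rfl
  have hφi : LinearIndependent ℚ φ := b.linearIndependent.map' S.subtype (Submodule.ker_subtype S)
  set ψ : Fin k → Polynomial ℚ := fun j =>
    ∑ n ∈ Finset.range (r0 + 1), Polynomial.monomial n (d n j) with hψ
  have hψc : ∀ j n, (ψ j).coeff n = d n j := by
    intro j n
    rw [hψ]
    simp only
    rw [Polynomial.finsetSum_coeff]
    simp only [Polynomial.coeff_monomial]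
    rw [Finset.sum_ite_eq' (Finset.range (r0 + 1)) n (fun n => d n j)]
    split_ifs with h
    · rfl
    · exact (hd0 n (by rw [Finset.mem_range] at h; omega) j).symm
  have hψi : LinearIndependent ℚ ψ := by
    rw [Fintype.linearIndependent_iff]
    intro g hg
    have h1 : ∀ n, ∑ j, d n j * g j = 0 := by
      intro n
      have h2 := congrArg (fun f : Polynomial ℚ => f.coeff n) hg
      simp only [Polynomial.finsetSum_coeff, Polynomial.coeff_smul, hψc, smul_eq_mul,
        Polynomial.coeff_zero] at h2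
      rw [← h2]
      exact Finset.sum_congr rfl fun j _ => mul_comm _ _
    let L : S →ₗ[ℚ] ℚ := b.constr ℚ g
    have hL : ∀ (x : MvPolynomial (Fin m) ℚ) (hx : x ∈ S), L ⟨x, hx⟩ = 0 := by
      intro x hx
      induction hx using Submodule.span_induction with
      | mem x h =>
        obtain ⟨n, rfl⟩ := h
        rw [Module.Basis.constr_apply_fintype]
        have h3 := h1 n
        simpa [hd', Module.Basis.equivFun_apply] using h3
      | zero => exact map_zero L
      | add x y hx hy hx' hy' =>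
        have h4 : (⟨x + y, S.add_mem hx hy⟩ : S) = ⟨x, hx⟩ + ⟨y, hy⟩ := rfl
        rw [h4, map_add, hx', hy', add_zero]
      | smul a x hx hx' =>
        have h4 : (⟨a • x, S.smul_mem a hx⟩ : S) = a • ⟨x, hx⟩ := rfl
        rw [h4, map_smul, hx', smul_zero]
    intro j
    have h5 : L (b j) = g j := b.constr_basis ℚ g j
    rw [← h5]
    exact hL _ (b j).2
  -- the decomposition
  have hdec : P' = ∑ j, Polynomial.aeval (X 0) (ψ j) * rename Fin.succ (φ j) := by
    apply ext_cons
    intro n J
    rw [coeff_sum, ← hcc, hcd n, coeff_sum]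
    refine Finset.sum_congr rfl fun j _ => ?_
    rw [coeff_smul, Sep.coeff_mul, hψc, smul_eq_mul]
  have hk0 : 0 < k := by
    rcases Nat.eq_zero_or_pos k with h | h
    · exfalso
      have h1 : IsEmpty (Fin k) := by rw [h]; exact Fin.isEmpty
      rw [Finset.univ_eq_empty, Finset.sum_empty, hP'] at hdec
      exact hP (map_injective _ (RingHom.injective_int (Int.castRingHom ℚ))
        (by rw [hdec, map_zero]))
    · exact h
  obtain ⟨I, hI, hU⟩ := wrSevStmt_of wrEulerStmt m k φ hφi
  have hV := wrOneStmt k ψ hψi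
  refine ⟨k, I, _, _, hk0, hkr, fun i => (hI i).trans (by have := i.isLt; omega), hV, hU, ?_⟩
  rw [wdet, RingHom.map_det]
  have h1 : (map (Int.castRingHom ℚ)).mapMatrix
      (Matrix.of fun i j : Fin k => hd (Finsupp.cons (j : ℕ) (I i)) P) =
      (Matrix.of fun i l : Fin k => rename Fin.succ (dd (I i) (φ l))) *
        (Matrix.of fun j l : Fin k => (Polynomial.aeval (X 0 : MvPolynomial (Fin (m + 1)) ℚ))
          (Polynomial.hasseDeriv (j : ℕ) (ψ l))).transpose := by
    ext1 i j
    rw [RingHom.mapMatrix_apply, Matrix.map_apply, Matrix.of_apply, map_hd, ← hP', hdec, dd_sum,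
      Matrix.mul_apply]
    refine Finset.sum_congr rfl fun l _ => ?_
    rw [dd_cons, Matrix.of_apply, Matrix.transpose_apply, Matrix.of_apply, mul_comm]
  rw [h1, Matrix.det_mul, Matrix.det_transpose, mul_comm]
  congr 1
  · have h2 := AlgHom.map_det (Polynomial.aeval (X 0 : MvPolynomial (Fin (m + 1)) ℚ))
      (Matrix.of fun i j : Fin k => Polynomial.hasseDeriv (i : ℕ) (ψ j))
    rw [h2]
    rfl
  · have h2 := AlgHom.map_det (rename Fin.succ : MvPolynomial (Fin m) ℚ →ₐ[ℚ] _)
      (Matrix.of fun i j : Fin k => dd (I i) (φ j))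
    rw [h2]
    rfl

end Fermat.Agent.Cor.Roth.WronskB
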