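import Fermat.Agent.Corollaries.Roth.AuxPoly
import Fermat.Agent.Corollaries.Roth.Count
import Fermat.Agent.Corollaries.Roth.One
import Fermat.Agent.Corollaries.Roth.Sep
import Fermat.Agent.Corollaries.Roth.Int
import Fermat.Agent.Corollaries.Roth.Det
import Fermat.Agent.Corollaries.Roth.Idx
import Fermat.Agent.Corollaries.Roth.Step
import Fermat.Agent.Corollaries.Roth.WronskB
import Fermat.Agent.Corollaries.Roth.Cor

/-!
# Roth's theorem
-/

set_option autoImplicit false

namespace Fermat.Agent.Cor.Roth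

/-- the induction step of Roth's lemma -/
theorem stepStmt : StepStmt :=
  stepStmt_of WronskB.wronskStmt sepStmt (intStmt_of sepStmt) Det.detStmt
    (Idx.idxStmt_of Taylor.hdStmt) (by first | exact One.oneStmt | exact oneStmt)

/-- Roth's lemma -/
theorem rothLemma (m : ℕ) : RothLemma m := Conseq.rothLemma_of Taylor.taylorStmt stepStmt m

theorem rothStmt : RothStmt :=
  Fin.rothStmt_of Taylor.taylorStmt Taylor.hdStmt (auxStmt_of Taylor.taylorStmt countStmt)
    rothLemma

/-- **Roth's theorem** (1955): for a real algebraic number `α` and `δ > 0` only finitely many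
rational numbers `x` satisfy `|α - x| < (den x)^(-(2 + δ))`. -/
theorem roth {α : ℝ} (hα : IsAlgebraic ℚ α) {δ : ℝ} (hδ : 0 < δ) :
    {x : ℚ | |α - x| < (x.den : ℝ) ^ (-(2 + δ))}.Finite :=
  rothStmt α hα δ hδ

/-- For a real algebraic number `α` and `δ > 0` there is a constant `c > 0` with
`|α - p/q| ≥ c q^(-(2 + δ))` for all rational numbers `p/q ≠ α`. -/
theorem exists_const {α : ℝ} (hα : IsAlgebraic ℚ α) {δ : ℝ} (hδ : 0 < δ) :
    ∃ c : ℝ, 0 < c ∧ ∀ (p : ℤ) (q : ℕ), q ≠ 0 → α ≠ p / q →
      c * (q : ℝ) ^ (-(2 + δ)) ≤ |α - p / q| :=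
  Conseq.exists_const rothStmt hα hδ

/-- **Roth's theorem** in the terms of Mathlib: a number which is approximable by rational numbers
with an exponent greater than `2` (`LiouvilleWith`) is transcendental. -/
theorem transcendental_of_liouvilleWith {p x : ℝ} (hp : 2 < p) (hx : LiouvilleWith p x) :
    Transcendental ℚ x :=
  Conseq.transcendental_of_liouvilleWith rothStmt hp hx

/-- The number `∑ a^(-b^n)` is transcendental for all integers `a ≥ 2`, `b ≥ 3`. -/
theorem transcendental_series {a b : ℕ} (ha : 2 ≤ a) (hb : 3 ≤ b) :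
    Transcendental ℚ (∑' n : ℕ, 1 / (a : ℝ) ^ (b ^ n)) :=
  Conseq.transcendental_series rothStmt ha hb

end Fermat.Agent.Cor.Roth
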