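import Fermat.Agent.Corollaries.Roth.Defs

/-!
# Roth's theorem: Taylor's formula in several variables
-/

set_option autoImplicit false

open MvPolynomial

namespace Fermat.Agent.Cor.Roth.Taylor

variable {m : ℕ} {K : Type} [CommRing K]

theorem X_add_C_pow (i : Fin m) (a : K) (n : ℕ) :
    (X i + C a : MvPolynomial (Fin m) K) ^ n = ∑ k ∈ Finset.range (n + 1),
      monomial (Finsupp.single i k) (((n.choose k : ℕ) : K) * a ^ (n - k)) := by
  rw [add_pow]
  refine Finset.sum_congr rfl fun k _ => ?_
  rw [X_pow_eq_monomial, ← C_pow, ← C_eq_coe_nat, mul_assoc, ← C_mul, mul_comm (monomial _ _),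
    C_mul_monomial, mul_one, mul_comm]

theorem prod_monomial_single (f : Fin m → ℕ) (a : Fin m → K) :
    ∏ i, monomial (Finsupp.single i (f i)) (a i) =
      monomial (Finsupp.equivFunOnFinite.symm f) (∏ i, a i) := by
  have h1 : Finsupp.equivFunOnFinite.symm f = ∑ i, Finsupp.single i (f i) := by
    ext j
    rw [Finsupp.finsetSum_apply, Finset.sum_eq_single j]
    · simp
    · intro i _ hi
      rw [Finsupp.single_eq_of_ne (Ne.symm hi)]
    · simp
  rw [h1, monomial_sum_index, map_prod, ← Finset.prod_mul_distrib]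
  refine Finset.prod_congr rfl fun i _ => ?_
  rw [C_mul_monomial, mul_one]

theorem coeff_prod (x : Fin m → K) (n : Fin m → ℕ) (I : Fin m →₀ ℕ) :
    coeff I (∏ i, (X i + C (x i) : MvPolynomial (Fin m) K) ^ n i) =
      ∏ i, (((n i).choose (I i) : ℕ) : K) * x i ^ (n i - I i) := by
  classical
  have h1 : ∏ i, (X i + C (x i) : MvPolynomial (Fin m) K) ^ n i =
      ∑ f ∈ Fintype.piFinset fun i => Finset.range (n i + 1),
        monomial (Finsupp.equivFunOnFinite.symm f)
          (∏ i, (((n i).choose (f i) : ℕ) : K) * x i ^ (n i - f i)) := by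
    rw [Finset.prod_congr rfl fun i _ => X_add_C_pow i (x i) (n i), Finset.prod_univ_sum]
    refine Finset.sum_congr rfl fun f _ => ?_
    rw [prod_monomial_single]
  rw [h1, coeff_sum]
  simp only [coeff_monomial]
  by_cases hI : ∀ i, I i ≤ n i
  · rw [Finset.sum_eq_single (I : Fin m → ℕ)]
    · rw [if_pos (by ext i; rfl)]
    · intro f _ hf
      rw [if_neg]
      intro h
      apply hf
      rw [← h]
      rfl
    · intro h
      exact absurd (Fintype.mem_piFinset.mpr fun i => Finset.mem_range.mpr
        (Nat.lt_succ_of_le (hI i))) h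
  · push Not at hI
    obtain ⟨i, hi⟩ := hI
    rw [Finset.prod_eq_zero (Finset.mem_univ i) (by rw [Nat.choose_eq_zero_of_lt hi]; simp)]
    refine Finset.sum_eq_zero fun f hf => ?_
    rw [if_neg]
    intro h
    have h2 := Finset.mem_range.mp (Fintype.mem_piFinset.mp hf i)
    rw [← h] at hi
    change n i < f i at hi
    omega

theorem dv_sum {ι : Type*} (s : Finset ι) (F : ι → MvPolynomial (Fin m) ℤ) (x : Fin m → K)
    (I : Fin m →₀ ℕ) : dv x (∑ j ∈ s, F j) I = ∑ j ∈ s, dv x (F j) I := by
  unfold dv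
  rw [map_sum, map_sum, coeff_sum]

theorem dv_monomial (x : Fin m → K) (J I : Fin m →₀ ℕ) (c : ℤ) :
    dv x (monomial J c) I = (c : K) *
      ∏ i, (((J i).choose (I i) : ℕ) : K) * x i ^ (J i - I i) := by
  unfold dv tr
  rw [map_monomial, aeval_monomial, Finsupp.prod_fintype _ _ (fun i => pow_zero _),
    algebraMap_eq, coeff_C_mul, coeff_prod, eq_intCast]

theorem taylorStmt : TaylorStmt := by
  intro m K _ x P I
  conv_lhs => rw [← support_sum_monomial_coeff P]
  rw [dv_sum]
  exact Finset.sum_congr rfl fun J _ => dv_monomial x J I _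

theorem choose_mul_choose (L I J : ℕ) :
    L.choose J * (L - J).choose I = (I + J).choose J * L.choose (I + J) := by
  by_cases h : I + J ≤ L
  · have h1 := Nat.choose_mul (n := L) (Nat.le_add_left J I)
    rw [Nat.add_sub_cancel] at h1
    rw [← h1, mul_comm]
  · push Not at h
    rw [Nat.choose_eq_zero_of_lt h, mul_zero]
    rcases Nat.lt_or_ge L J with h2 | h2
    · rw [Nat.choose_eq_zero_of_lt h2, zero_mul]
    · rw [Nat.choose_eq_zero_of_lt (show L - J < I by omega), mul_zero]

theorem hdStmt : HdStmt := by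
  intro m K _ x P I J
  rw [hd, dv_sum, taylorStmt m K x P (I + J), Finset.mul_sum]
  refine Finset.sum_congr rfl fun L _ => ?_
  rw [dv_monomial]
  push_cast
  rw [mul_assoc, mul_left_comm (∏ i, (((I i + J i).choose (J i) : ℕ) : K)),
    ← Finset.prod_mul_distrib, ← Finset.prod_mul_distrib]
  congr 1
  refine Finset.prod_congr rfl fun i _ => ?_
  rw [Pi.sub_apply, Pi.add_apply]
  have h1 : (((L i).choose (J i) : ℕ) : K) * (((L i - J i).choose (I i) : ℕ) : K) =
      (((I i + J i).choose (J i) : ℕ) : K) * (((L i).choose (I i + J i) : ℕ) : K) := by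
    rw [← Nat.cast_mul, ← Nat.cast_mul, choose_mul_choose]
  rw [show L i - (I i + J i) = L i - J i - I i by omega, ← mul_assoc, ← mul_assoc, h1]

end Fermat.Agent.Cor.Roth.Taylor
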