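import Fermat.Agent.Corollaries.Roth.Defs

/-!
# Roth's theorem: Wronskians, definitions
-/

set_option autoImplicit false

open MvPolynomial

namespace Fermat.Agent.Cor.Roth

/-- the divided derivative `∂_I f` over a field -/
noncomputable def dd {m : ℕ} (I : Fin m →₀ ℕ) (f : MvPolynomial (Fin m) ℚ) :
    MvPolynomial (Fin m) ℚ :=
  ∑ J ∈ f.support, monomial (J - I) (coeff J f * ∏ i, ((J i).choose (I i) : ℚ))

/-- `J - I = L` and `C(J, I) ≠ 0` means `J = L + I` -/
theorem coeff_dd {m : ℕ} (I L : Fin m →₀ ℕ) (f : MvPolynomial (Fin m) ℚ) :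
    coeff L (dd I f) = coeff (L + I) f * ∏ i, ((L i + I i).choose (I i) : ℚ) := by
  classical
  rw [dd, coeff_sum]
  have h1 : ∀ J ∈ f.support, coeff L (monomial (J - I) (coeff J f *
      ∏ i, ((J i).choose (I i) : ℚ))) = if J = L + I then coeff (L + I) f *
      ∏ i, ((L i + I i).choose (I i) : ℚ) else 0 := by
    intro J _
    rw [coeff_monomial]
    by_cases hJ : J = L + I
    · subst hJ
      rw [if_pos rfl, if_pos (add_tsub_cancel_right L I)]
      rfl
    · rw [if_neg hJ]
      split_ifs with h2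
      · have h3 : ∃ i, J i < I i := by
          by_contra h4
          push Not at h4
          apply hJ
          rw [← h2, tsub_add_cancel_of_le]
          exact h4
        obtain ⟨i, hi⟩ := h3
        rw [Finset.prod_eq_zero (Finset.mem_univ i), mul_zero]
        rw [Nat.choose_eq_zero_of_lt hi, Nat.cast_zero]
      · rfl
  rw [Finset.sum_congr rfl h1, Finset.sum_ite_eq']
  split_ifs with h2
  · rfl
  · rw [notMem_support_iff.mp h2, zero_mul]

/-- (WR1) one variable -/
def WrOneStmt : Prop := ∀ (k : ℕ) (ψ : Fin k → Polynomial ℚ), LinearIndependent ℚ ψ →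
  (Matrix.of fun i j : Fin k => Polynomial.hasseDeriv (i : ℕ) (ψ j)).det ≠ 0

/-- (WR2) several variables -/
def WrSevStmt : Prop := ∀ (m k : ℕ) (φ : Fin k → MvPolynomial (Fin m) ℚ), LinearIndependent ℚ φ →
  ∃ I : Fin k → (Fin m →₀ ℕ), (∀ i, ∑ l, I i l ≤ i) ∧
    (Matrix.of fun i j : Fin k => dd (I i) (φ j)).det ≠ 0

end Fermat.Agent.Cor.Roth
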