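import Fermat.Agent.Corollaries.Roth.WrDefs

/-!
# Roth's theorem: Wronskians of polynomials in one variable

`f_1, …, f_k ∈ ℚ[t]` linearly independent. If `det(δ^i f_j) = 0`, `δ = t d/dt`, there is an operator
`L = ∑_{i < k} b_i δ^i ≠ 0`, `b_i ∈ ℚ[t]`, with `L f_j = 0`; if `t^N` is the highest power in the
`b_i` and `χ(x) = ∑ b_{i,N} x^i`, then the degree of every nonzero solution of `L f = 0` is a root of
`χ`, and some nonzero combination `f` of the `f_j` has `f_n = 0` for the `< k` roots `n` of `χ`.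
-/

set_option autoImplicit false

open Polynomial

namespace Fermat.Agent.Cor.Roth

/-- (WR0) the Wronskian with respect to `t d/dt` -/
def WrEulerStmt : Prop := ∀ (k : ℕ) (f : Fin k → ℚ[X]), LinearIndependent ℚ f →
  (Matrix.of fun i j : Fin k => (fun g : ℚ[X] => X * derivative g)^[(i : ℕ)] (f j)).det ≠ 0

namespace WrOne

/-- `δ^i f` has the coefficients `n^i f_n` -/
theorem coeff_euler (i : ℕ) (f : ℚ[X]) (n : ℕ) :
    ((fun g : ℚ[X] => X * derivative g)^[i] f).coeff n = (n : ℚ) ^ i * f.coeff n := by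
  induction i with
  | zero => simp
  | succ i ih =>
    rw [Function.iterate_succ_apply', pow_succ, mul_assoc]
    cases n with
    | zero => simp
    | succ n =>
      rw [coeff_X_mul, coeff_derivative, ih]
      push_cast
      ring

theorem natDegree_euler_le (i : ℕ) (f : ℚ[X]) :
    ((fun g : ℚ[X] => X * derivative g)^[i] f).natDegree ≤ f.natDegree := by
  rw [natDegree_le_iff_coeff_eq_zero]
  intro n hn
  rw [coeff_euler, coeff_eq_zero_of_natDegree_lt hn, mul_zero]

/-- an operator of order `< k` does not kill `k` linearly independent polynomials -/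
theorem no_operator {k : ℕ} {f : Fin k → ℚ[X]} (hf : LinearIndependent ℚ f) {b : Fin k → ℚ[X]}
    (hb : b ≠ 0) (h : ∀ j, ∑ i, b i * (fun g : ℚ[X] => X * derivative g)^[(i : ℕ)] (f j) = 0) :
    False := by
  classical
  -- the highest power
  obtain ⟨i₀, hi₀⟩ : ∃ i, b i ≠ 0 := by
    by_contra h1
    push Not at h1
    exact hb (funext h1)
  obtain ⟨i₁, hi₁, hmax⟩ := Finset.exists_max_image (Finset.univ.filter fun i => b i ≠ 0)
    (fun i => (b i).natDegree) ⟨i₀, Finset.mem_filter.mpr ⟨Finset.mem_univ _, hi₀⟩⟩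
  set N := (b i₁).natDegree with hN
  have hbN : ∀ i, (b i).natDegree ≤ N := by
    intro i
    by_cases h1 : b i = 0
    · rw [h1, natDegree_zero]
      exact Nat.zero_le _
    · exact hmax i (Finset.mem_filter.mpr ⟨Finset.mem_univ _, h1⟩)
  -- the polynomial `χ`
  set χ : ℚ[X] := ∑ i : Fin k, monomial (i : ℕ) ((b i).coeff N) with hχ
  have hχcoeff : ∀ i : Fin k, χ.coeff (i : ℕ) = (b i).coeff N := by
    intro i
    rw [hχ, finsetSum_coeff, Finset.sum_eq_single i]
    · rw [coeff_monomial_same]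
    · intro j _ hj
      rw [coeff_monomial_of_ne]
      exact fun h1 => hj (Fin.ext h1.symm)
    · intro h1
      exact absurd (Finset.mem_univ i) h1
  have hχ0 : χ ≠ 0 := by
    intro h1
    have h2 := hχcoeff i₁
    rw [h1, coeff_zero] at h2
    exact (leadingCoeff_ne_zero.mpr (Finset.mem_filter.mp hi₁).2) h2.symm
  have hχdeg : χ.natDegree < k := by
    rcases Nat.eq_zero_or_pos k with hk | hk
    · exact absurd i₁.2 (by omega)
    · rw [Nat.lt_iff_le_pred hk, hχ]
      refine natDegree_sum_le_of_forall_le _ _ fun i _ => ?_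
      exact (natDegree_monomial_le _).trans (by have := i.2; omega)
  -- degrees of the solutions
  have hdeg : ∀ g : ℚ[X], g ≠ 0 →
      ∑ i : Fin k, b i * (fun g : ℚ[X] => X * derivative g)^[(i : ℕ)] g = 0 →
      χ.eval (g.natDegree : ℚ) = 0 := by
    intro g hg h1
    have h2 := congrArg (fun P : ℚ[X] => P.coeff (N + g.natDegree)) h1
    simp only [finsetSum_coeff, coeff_zero] at h2
    have h3 : ∀ i : Fin k, (b i * (fun g : ℚ[X] => X * derivative g)^[(i : ℕ)] g).coeff
        (N + g.natDegree) = (b i).coeff N * (g.natDegree : ℚ) ^ (i : ℕ) * g.leadingCoeff := by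
      intro i
      rw [coeff_mul_add_eq_of_natDegree_le (hbN i) (natDegree_euler_le i g), coeff_euler,
        leadingCoeff, mul_assoc]
    rw [Finset.sum_congr rfl fun i _ => h3 i, ← Finset.sum_mul] at h2
    have h4 := (mul_eq_zero.mp h2).resolve_right (leadingCoeff_ne_zero.mpr hg)
    rw [hχ, eval_finsetSum]
    simpa using h4
  -- a solution without the forbidden coefficients
  set Z : Finset ℚ := χ.roots.toFinset with hZ
  have hZcard : Z.card < k := by
    refine lt_of_le_of_lt ?_ hχdeg
    exact (Multiset.toFinset_card_le _).trans (card_roots' χ)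
  -- the linear map `a ↦ (coefficients of ∑ a_j f_j at the naturals of Z)`
  let ν : Z → ℕ := fun z => (z : ℚ).num.toNat
  let Λ : (Fin k → ℚ) →ₗ[ℚ] (Z → ℚ) :=
    LinearMap.pi fun z => (Polynomial.lcoeff ℚ (ν z)) ∘ₗ (Fintype.linearCombination ℚ f)
  have hker : ∃ a : Fin k → ℚ, a ≠ 0 ∧ Λ a = 0 := by
    have h1 : ¬ Function.Injective Λ := by
      intro h2
      have h3 := LinearMap.finrank_le_finrank_of_injective h2
      rw [Module.finrank_fin_fun, Module.finrank_fintype_fun_eq_card, Fintype.card_coe] at h3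
      omega
    rw [← LinearMap.ker_eq_bot, Submodule.eq_bot_iff] at h1
    push Not at h1
    obtain ⟨a, ha, ha0⟩ := h1
    exact ⟨a, ha0, ha⟩
  obtain ⟨a, ha0, ha⟩ := hker
  set g : ℚ[X] := Fintype.linearCombination ℚ f a with hg
  have hg0 : g ≠ 0 := by
    intro h1
    apply ha0
    rw [hg, Fintype.linearCombination_apply] at h1
    exact funext (Fintype.linearIndependent_iff.mp hf a h1)
  have hsol : ∑ i : Fin k, b i * (fun g : ℚ[X] => X * derivative g)^[(i : ℕ)] g = 0 := by
    have h1 : ∀ i : Fin k, (fun g : ℚ[X] => X * derivative g)^[(i : ℕ)] g =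
        ∑ j, C (a j) * (fun g : ℚ[X] => X * derivative g)^[(i : ℕ)] (f j) := by
      intro i
      ext n
      rw [coeff_euler, hg, Fintype.linearCombination_apply, finsetSum_coeff, finsetSum_coeff,
        Finset.mul_sum]
      refine Finset.sum_congr rfl fun j _ => ?_
      rw [coeff_C_mul, coeff_euler, coeff_smul, smul_eq_mul]
      ring
    simp only [h1, Finset.mul_sum]
    rw [Finset.sum_comm]
    refine Finset.sum_eq_zero fun j _ => ?_
    have h2 := congrArg (fun P => C (a j) * P) (h j)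
    simp only [mul_zero, Finset.mul_sum] at h2
    rw [← h2]
    exact Finset.sum_congr rfl fun i _ => by ring
  have hroot := hdeg g hg0 hsol
  have hmem : (g.natDegree : ℚ) ∈ Z := by
    rw [hZ, Multiset.mem_toFinset, mem_roots hχ0]
    exact hroot
  have h1 := congrFun ha ⟨(g.natDegree : ℚ), hmem⟩
  have h2 : g.coeff g.natDegree = 0 := h1
  exact hg0 (leadingCoeff_eq_zero.mp h2)

end WrOne

theorem wrEulerStmt : WrEulerStmt := by
  intro k f hf h
  obtain ⟨v, hv, hv2⟩ := Matrix.exists_vecMul_eq_zero_iff.mpr h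
  refine WrOne.no_operator hf hv fun j => ?_
  have h1 := congrFun hv2 j
  rw [Matrix.vecMul, dotProduct] at h1
  exact h1

namespace WrOne

/-- `n ^ i = ∑ st i l * C(n, l)` -/
def st : ℕ → ℕ → ℚ
  | 0, 0 => 1
  | 0, _ + 1 => 0
  | _ + 1, 0 => 0
  | i + 1, l + 1 => (l + 1) * (st i (l + 1) + st i l)

theorem st_eq_zero : ∀ (i l : ℕ), i < l → st i l = 0 := by
  intro i
  induction i with
  | zero =>
    intro l hl
    obtain ⟨l, rfl⟩ := Nat.exists_eq_succ_of_ne_zero (by omega : l ≠ 0)
    rfl
  | succ i ih =>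
    intro l hl
    obtain ⟨l, rfl⟩ := Nat.exists_eq_succ_of_ne_zero (by omega : l ≠ 0)
    rw [Nat.succ_eq_add_one, st, ih (l + 1) (by omega), ih l (by omega)]
    ring

theorem mul_choose (n l : ℕ) : (n : ℚ) * (n.choose l : ℚ) =
    (l + 1) * (n.choose (l + 1) : ℚ) + l * (n.choose l : ℚ) := by
  have h1 := Nat.choose_succ_right_eq n l
  rcases le_or_gt l n with h | h
  · have h2 : ((n.choose (l + 1) * (l + 1) : ℕ) : ℚ) = ((n.choose l * (n - l) : ℕ) : ℚ) := by
      rw [h1]
    push_cast [Nat.cast_sub h] at h2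
    linear_combination -h2
  · rw [Nat.choose_eq_zero_of_lt h, Nat.choose_eq_zero_of_lt (by omega : n < l + 1)]
    simp

theorem pow_eq_sum (n : ℕ) : ∀ (i k : ℕ), i < k →
    (n : ℚ) ^ i = ∑ l ∈ Finset.range k, st i l * (n.choose l : ℚ) := by
  intro i
  induction i with
  | zero =>
    intro k hk
    rw [Finset.sum_eq_single_of_mem 0 (Finset.mem_range.mpr hk)]
    · rw [st]
      simp
    · intro l _ hl
      rw [st_eq_zero 0 l (by omega), zero_mul]
  | succ i ih =>
    intro k hk
    obtain ⟨k, rfl⟩ := Nat.exists_eq_succ_of_ne_zero (by omega : k ≠ 0)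
    rw [Nat.succ_eq_add_one, pow_succ', ih (k + 1) (by omega), Finset.mul_sum]
    have h1 : ∀ l, (n : ℚ) * (st i l * (n.choose l : ℚ)) =
        st i l * ((l + 1) * (n.choose (l + 1) : ℚ)) + st i l * (l * (n.choose l : ℚ)) := by
      intro l
      have := mul_choose n l
      linear_combination st i l * this
    simp only [h1]
    rw [Finset.sum_add_distrib, Finset.sum_range_succ (fun l => st i l * (((l : ℕ) + 1 : ℚ) *
      (n.choose (l + 1) : ℚ))), st_eq_zero i k (by omega), zero_mul, add_zero,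
      Finset.sum_range_succ' (fun l => st i l * (((l : ℕ) : ℚ) * (n.choose l : ℚ))),
      Finset.sum_range_succ' (fun l => st (i + 1) l * (n.choose l : ℚ)), ← add_assoc,
      ← Finset.sum_add_distrib]
    have h2 : st (i + 1) 0 = 0 := rfl
    rw [h2]
    simp only [Nat.cast_zero, zero_mul, mul_zero, add_zero]
    refine Finset.sum_congr rfl fun l _ => ?_
    rw [st]
    push_cast
    ring

theorem coeff_X_pow_mul_hasseDeriv (l : ℕ) (f : ℚ[X]) (n : ℕ) :
    (X ^ l * hasseDeriv l f).coeff n = (n.choose l : ℚ) * f.coeff n := by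
  rw [coeff_X_pow_mul']
  split_ifs with h
  · rw [hasseDeriv_coeff, Nat.sub_add_cancel h]
  · rw [Nat.choose_eq_zero_of_lt (by omega), Nat.cast_zero, zero_mul]

end WrOne

/-- (WR1) -/
theorem wrOneStmt : WrOneStmt := by
  intro k ψ hψ h
  apply wrEulerStmt k ψ hψ
  have h1 : (Matrix.of fun i j : Fin k =>
      (fun g : ℚ[X] => X * derivative g)^[(i : ℕ)] (ψ j)) =
      (Matrix.of fun i l : Fin k => C (WrOne.st i l) * X ^ (l : ℕ)) *
        (Matrix.of fun l j : Fin k => hasseDeriv (l : ℕ) (ψ j)) := by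
    ext i j n
    rw [Matrix.mul_apply]
    simp only [Matrix.of_apply]
    rw [WrOne.coeff_euler, finsetSum_coeff, WrOne.pow_eq_sum n i k i.2, Finset.sum_mul,
      ← Fin.sum_univ_eq_sum_range (fun l => WrOne.st i l * (n.choose l : ℚ) * (ψ j).coeff n)]
    refine Finset.sum_congr rfl fun l _ => ?_
    rw [mul_assoc (C _), coeff_C_mul, WrOne.coeff_X_pow_mul_hasseDeriv, mul_assoc]
  rw [h1, Matrix.det_mul, h, mul_zero]

end Fermat.Agent.Cor.Roth
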